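/-
MW / HT-Q (sub-architect: helper89) — the ABSTRACT vocabulary of the height pairing.

Everything here is Mathlib-only.  `P` is a type of points (places of the function field other
than the base point `∞`), an effective divisor is a `P →₀ ℕ`, `g p q` is the (global) diagonal
height of the pair `(p, q)` and `η p` the (global) height of `p` relative to `∞`; both are sums
of local terms for ONE fixed extension of every place, so they are additive on the nose.

* `deg`, `ht`, `pairG`, `beta` and their additivity;
* `PairingDatum J P` : the inputs of the quasi-bilinear pairing — `(Rep)` (moving lemma) and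
  `(Rec)` (uniform reciprocity);
* `HeightDatum J P`  : in addition `(Pos)`, `(North)` and `(Deg)` (good translates).
-/
import Mathlib

set_option autoImplicit false

noncomputable section

namespace Fermat.Agent.MW.HQ

variable {P : Type*}

/-- Degree of an effective divisor. -/
def deg (D : P →₀ ℕ) : ℕ := D.sum fun _ a => a

/-- Height of an effective divisor relative to the point function `η`. -/
def ht (η : P → ℝ) (D : P →₀ ℕ) : ℝ := D.sum fun p a => (a : ℝ) * η p

/-- Mutual energy of two effective divisors relative to the pair function `g`. -/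
def pairG (g : P → P → ℝ) (D E : P →₀ ℕ) : ℝ :=
  D.sum fun p a => E.sum fun q b => (a : ℝ) * (b : ℝ) * g p q

/-- The pairing symbol `β(D, E) = deg E · h(D) + deg D · h(E) − G(D, E)`. -/
def beta (g : P → P → ℝ) (η : P → ℝ) (D E : P →₀ ℕ) : ℝ :=
  (deg E : ℝ) * ht η D + (deg D : ℝ) * ht η E - pairG g D E

@[simp] theorem deg_zero : deg (0 : P →₀ ℕ) = 0 := by simp [deg]

theorem deg_add (D E : P →₀ ℕ) : deg (D + E) = deg D + deg E := by
  classical
  unfold deg
  exact Finsupp.sum_add_index' (fun _ => rfl) (fun _ _ _ => rfl)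

@[simp] theorem ht_zero (η : P → ℝ) : ht η (0 : P →₀ ℕ) = 0 := by simp [ht]

theorem ht_add (η : P → ℝ) (D E : P →₀ ℕ) : ht η (D + E) = ht η D + ht η E := by
  classical
  unfold ht
  exact Finsupp.sum_add_index' (fun _ => by simp) (fun _ _ _ => by push_cast; ring)

theorem ht_nonneg {η : P → ℝ} (hη : ∀ p, 0 ≤ η p) (D : P →₀ ℕ) : 0 ≤ ht η D := by
  unfold ht Finsupp.sum
  exact Finset.sum_nonneg fun p _ => mul_nonneg (Nat.cast_nonneg _) (hη p)

@[simp] theorem pairG_zero_left (g : P → P → ℝ) (E : P →₀ ℕ) : pairG g 0 E = 0 := by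
  simp [pairG]

@[simp] theorem pairG_zero_right (g : P → P → ℝ) (D : P →₀ ℕ) : pairG g D 0 = 0 := by
  simp [pairG]

theorem pairG_add_left (g : P → P → ℝ) (D D' E : P →₀ ℕ) :
    pairG g (D + D') E = pairG g D E + pairG g D' E := by
  classical
  unfold pairG
  refine Finsupp.sum_add_index' (fun _ => by simp) (fun p a b => ?_)
  simp only [Finsupp.sum, ← Finset.sum_add_distrib]
  refine Finset.sum_congr rfl fun q _ => ?_
  push_cast; ring

theorem pairG_add_right (g : P → P → ℝ) (D E E' : P →₀ ℕ) :
    pairG g D (E + E') = pairG g D E + pairG g D E' := by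
  classical
  unfold pairG
  simp only [Finsupp.sum, ← Finset.sum_add_distrib]
  refine Finset.sum_congr rfl fun p _ => ?_
  have := Finsupp.sum_add_index' (f := E) (g := E')
    (h := fun q b => ((D p : ℕ) : ℝ) * (b : ℝ) * g p q) (fun _ => by simp)
    (fun _ _ _ => by push_cast; ring)
  simpa [Finsupp.sum] using this

theorem pairG_symm {g : P → P → ℝ} (hg : ∀ p q, g p q = g q p) (D E : P →₀ ℕ) :
    pairG g D E = pairG g E D := by
  unfold pairG Finsupp.sum
  rw [Finset.sum_comm]
  refine Finset.sum_congr rfl fun q _ => Finset.sum_congr rfl fun p _ => ?_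
  show (D p : ℝ) * (E q : ℝ) * g p q = (E q : ℝ) * (D p : ℝ) * g q p
  rw [hg p q]; ring

theorem pairG_nonneg {g : P → P → ℝ} (hg : ∀ p q, p ≠ q → 0 ≤ g p q) {D E : P →₀ ℕ}
    (h : Disjoint D.support E.support) : 0 ≤ pairG g D E := by
  unfold pairG Finsupp.sum
  refine Finset.sum_nonneg fun p hp => Finset.sum_nonneg fun q hq => ?_
  have hne : p ≠ q := fun e => Finset.disjoint_left.1 h hp (e ▸ hq)
  exact mul_nonneg (mul_nonneg (Nat.cast_nonneg _) (Nat.cast_nonneg _)) (hg p q hne)

@[simp] theorem beta_zero_left (g : P → P → ℝ) (η : P → ℝ) (E : P →₀ ℕ) :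
    beta g η 0 E = 0 := by simp [beta]

@[simp] theorem beta_zero_right (g : P → P → ℝ) (η : P → ℝ) (D : P →₀ ℕ) :
    beta g η D 0 = 0 := by simp [beta]

theorem beta_add_left (g : P → P → ℝ) (η : P → ℝ) (D D' E : P →₀ ℕ) :
    beta g η (D + D') E = beta g η D E + beta g η D' E := by
  simp only [beta, deg_add, ht_add, pairG_add_left]
  push_cast; ring

theorem beta_add_right (g : P → P → ℝ) (η : P → ℝ) (D E E' : P →₀ ℕ) :
    beta g η D (E + E') = beta g η D E + beta g η D E' := by
  simp only [beta, deg_add, ht_add, pairG_add_right]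
  push_cast; ring

theorem beta_symm {g : P → P → ℝ} (hg : ∀ p q, g p q = g q p) (η : P → ℝ) (D E : P →₀ ℕ) :
    beta g η D E = beta g η E D := by
  simp only [beta, pairG_symm hg D E]; ring

/-- **Inputs of the quasi-bilinear pairing.**  `J` is the group of rational classes, `Rat` the
rational effective divisors (off the base point), `cl D = [D − deg D · ∞]`.

* `rep` (moving lemma): every class has a rational effective representative of degree `≤ d₀`
  avoiding any given finite set of points;
* `recip` (uniform reciprocity): `β(Z, E)` is bounded for rational `Z` of class `0` (the affine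
  zero divisors of functions with poles only at `∞`) and rational `E` disjoint from `Z`,
  uniformly for bounded degrees. -/
structure PairingDatum (J : Type*) [AddCommGroup J] (P : Type*) where
  g : P → P → ℝ
  η : P → ℝ
  Rat : AddSubmonoid (P →₀ ℕ)
  cl : (P →₀ ℕ) →+ J
  g_symm : ∀ p q, g p q = g q p
  d₀ : ℕ
  rep : ∀ (x : J) (S : Finset P), ∃ D ∈ Rat, cl D = x ∧ deg D ≤ d₀ ∧ Disjoint D.support S
  recip : ∀ M e : ℕ, ∃ C : ℝ, ∀ Z ∈ Rat, cl Z = 0 → deg Z ≤ M → ∀ E ∈ Rat, deg E ≤ e →
    Disjoint Z.support E.support → |beta g η Z E| ≤ C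

/-- **Inputs of the height.**  In addition to a `PairingDatum`:

* `Good E` : `E` is a good reduced divisor (rational, degree `≤ d₁`);
* `pos`   : for good `E` there is a rational `R` of class `−cl E`, disjoint from `E`, with
            `−β(E, R) ≥ h(E) − C`;
* `north` : only finitely many good `E` of bounded height;
* `translates` : a FINITE set of translations moves every class to the class of a good `E`. -/
structure HeightDatum (J : Type*) [AddCommGroup J] (P : Type*) extends PairingDatum J P where
  η_nonneg : ∀ p, 0 ≤ η p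
  Good : (P →₀ ℕ) → Prop
  d₁ : ℕ
  good_rat : ∀ E, Good E → E ∈ Rat
  good_deg : ∀ E, Good E → deg E ≤ d₁
  pos : ∃ C : ℝ, ∀ E, Good E → ∃ R ∈ Rat, cl (E + R) = 0 ∧ deg R ≤ d₁ ∧
    Disjoint E.support R.support ∧ ht η E - C ≤ -beta g η E R
  north : ∀ T : ℝ, {E | Good E ∧ ht η E ≤ T}.Finite
  translates : ∃ 𝒞 : Finset J, ∀ x : J, ∃ c ∈ 𝒞, ∃ E, Good E ∧ cl E = x + c

end Fermat.Agent.MW.HQ
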