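/-
MW / HT-Q (sub-architect: helper89) — the abstract pairing vocabulary WITH A GENERAL-POSITION
RELATION (`S`-version of `HQ/Defs.lean`).

In the concrete instance the local fibre estimate is available for ONE function `t` only, so
uniform reciprocity is only proved for pairs of divisors in `t`-general position: no point of
the first lies in the `t`-fibre of a point of the second.  Abstractly: a relation `far` on the
points whose negation is an equivalence relation (`far p q` = "`t p ≠ t q`"); `Far D E` for
divisors.  `rep` (the moving lemma) produces representatives far from any given finite set.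

Everything here is Mathlib-only (plus `HQ/Defs.lean` for `deg`, `ht`, `pairG`, `beta`).
-/
import Mathlib
import Fermat.Agent.MW.HQ.Defs

set_option autoImplicit false

noncomputable section

namespace Fermat.Agent.MW.HQ

variable {P : Type*}

/-- `D` and `E` are in general position with respect to the relation `far`. -/
def Far (far : P → P → Prop) (D E : P →₀ ℕ) : Prop :=
  ∀ p ∈ D.support, ∀ q ∈ E.support, far p q

theorem Far.symm {far : P → P → Prop} (hs : ∀ p q, far p q → far q p) {D E : P →₀ ℕ}
    (h : Far far D E) : Far far E D := fun q hq p hp => hs p q (h p hp q hq)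

theorem Far.disjoint {far : P → P → Prop} (hr : ∀ p, ¬ far p p) {D E : P →₀ ℕ}
    (h : Far far D E) : Disjoint D.support E.support :=
  Finset.disjoint_left.2 fun p hp hq => hr p (h p hp p hq)

theorem Far.add_left {far : P → P → Prop} {D D' E : P →₀ ℕ} (h : Far far D E)
    (h' : Far far D' E) : Far far (D + D') E := by
  classical
  intro p hp q hq
  rcases Finset.mem_union.1 (Finsupp.support_add hp) with hp | hp
  · exact h p hp q hq
  · exact h' p hp q hq

theorem Far.add_right {far : P → P → Prop} {D E E' : P →₀ ℕ} (h : Far far D E)
    (h' : Far far D E') : Far far D (E + E') := by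
  classical
  intro p hp q hq
  rcases Finset.mem_union.1 (Finsupp.support_add hq) with hq | hq
  · exact h p hp q hq
  · exact h' p hp q hq

theorem Far.zero_left (far : P → P → Prop) (E : P →₀ ℕ) : Far far 0 E := by
  intro p hp; simp at hp

theorem Far.zero_right (far : P → P → Prop) (D : P →₀ ℕ) : Far far D 0 := by
  intro p _ q hq; simp at hq

/-- **Inputs of the quasi-bilinear pairing, with general position.**

* `far` : the general-position relation; its negation is an equivalence relation;
* `rep` (moving lemma): every class has a rational effective representative of degree `≤ d₀`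
  all of whose points are far from any given finite set of points;
* `recip` (uniform reciprocity): `β(Z, E)` is bounded for rational `Z` of class `0` and rational
  `E` in general position with respect to `Z`, uniformly for bounded degrees. -/
structure PairingDatumS (J : Type*) [AddCommGroup J] (P : Type*) where
  g : P → P → ℝ
  η : P → ℝ
  Rat : AddSubmonoid (P →₀ ℕ)
  cl : (P →₀ ℕ) →+ J
  g_symm : ∀ p q, g p q = g q p
  far : P → P → Prop
  far_irrefl : ∀ p, ¬ far p p
  far_symm : ∀ p q, far p q → far q p
  near_trans : ∀ p q r, ¬ far p q → ¬ far q r → ¬ far p r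
  d₀ : ℕ
  rep : ∀ (x : J) (S : Finset P), ∃ D ∈ Rat, cl D = x ∧ deg D ≤ d₀ ∧
    ∀ p ∈ D.support, ∀ q ∈ S, far p q
  recip : ∀ M e : ℕ, ∃ C : ℝ, ∀ Z ∈ Rat, cl Z = 0 → deg Z ≤ M → ∀ E ∈ Rat, deg E ≤ e →
    Far far Z E → |beta g η Z E| ≤ C

/-- **Inputs of the height, with general position.**  In addition to a `PairingDatumS`:

* `g_lb`  : the pair function is bounded below off the diagonal;
* `Good E` : `E` is a good reduced divisor (rational, degree `≤ d₁`);
* `pos`   : for good `E` there is a rational `R` of class `−cl E`, in general position with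
            respect to `E`, with `−β(E, R) ≥ h(E) − C`;
* `north` : only finitely many good `E` of bounded height;
* `translates` : a FINITE set of translations moves every class to the class of a good `E`. -/
structure HeightDatumS (J : Type*) [AddCommGroup J] (P : Type*) extends PairingDatumS J P where
  η_nonneg : ∀ p, 0 ≤ η p
  g_lb : ∃ c : ℝ, ∀ p q, p ≠ q → -c ≤ g p q
  Good : (P →₀ ℕ) → Prop
  d₁ : ℕ
  good_rat : ∀ E, Good E → E ∈ Rat
  good_deg : ∀ E, Good E → deg E ≤ d₁
  pos : ∃ C : ℝ, ∀ E, Good E → ∃ R ∈ Rat, cl (E + R) = 0 ∧ deg R ≤ d₁ ∧
    Far far E R ∧ ht η E - C ≤ -beta g η E R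
  north : ∀ T : ℝ, {E | Good E ∧ ht η E ≤ T}.Finite
  translates : ∃ 𝒞 : Finset J, ∀ x : J, ∃ c ∈ 𝒞, ∃ E, Good E ∧ cl E = x + c

end Fermat.Agent.MW.HQ
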