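/-
MW / HT-Q, row HQS-1 (helper26): the quasi-bilinear pairing `B` of a `PairingDatumS`
(the general-position version of `HQ/Bilin.lean`: `Far 𝒟.far` instead of `Disjoint`).

`B x y := β(D_x, E_{x,y})` for chosen representatives `D_x` of `x` and `E_{x,y}` of `y` in
general position with respect to `D_x`.  From `rep` and `recip`:

* `exists_inv_left`, `exists_inv_right` : `β(D, E)` depends on the classes of `D`, `E` only, up
  to a constant depending on the degree bounds;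
* `exists_pairB_approx` : `B (cl D) (cl E) = β(D, E) + O_e(1)` for rational `D`, `E` of degree
  `≤ e` in general position;
* `exists_bilin` : `B` is additive in the first variable and symmetric, up to `O(1)`.
-/
import Mathlib
import Fermat.Agent.MW.HQ.DefsS

set_option autoImplicit false

noncomputable section

namespace Fermat.Agent.MW.HQ

variable {J : Type*} [AddCommGroup J] {P : Type*}

namespace PairingDatumS

variable (𝒟 : PairingDatumS J P)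

/-- `rep` in the form used below: a rational representative of `x` of degree `≤ d₀` in general
position with respect to every divisor supported in `S`. -/
theorem exists_rep_far (x : J) (S : Finset P) : ∃ D ∈ 𝒟.Rat, 𝒟.cl D = x ∧ deg D ≤ 𝒟.d₀ ∧
    ∀ E : P →₀ ℕ, E.support ⊆ S → Far 𝒟.far D E := by
  obtain ⟨D, hD, hcl, hd, hfar⟩ := 𝒟.rep x S
  exact ⟨D, hD, hcl, hd, fun E hE p hp q hq => hfar p hp q (hE hq)⟩

/-- **Invariance in the first variable**: `β(D₁, E) = β(D₂, E) + O(1)` for rational `D₁`, `D₂`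
of the same class and bounded degree, both in general position with respect to the rational
`E`. -/
theorem exists_inv_left (e e' : ℕ) : ∃ C : ℝ, ∀ D₁ ∈ 𝒟.Rat, ∀ D₂ ∈ 𝒟.Rat, 𝒟.cl D₁ = 𝒟.cl D₂ →
    deg D₁ ≤ e → deg D₂ ≤ e → ∀ E ∈ 𝒟.Rat, deg E ≤ e' → Far 𝒟.far D₁ E →
    Far 𝒟.far D₂ E → |beta 𝒟.g 𝒟.η D₁ E - beta 𝒟.g 𝒟.η D₂ E| ≤ C := by
  classical
  obtain ⟨C, hC⟩ := 𝒟.recip (e + 𝒟.d₀) e'
  refine ⟨2 * C, fun D₁ h₁ D₂ h₂ hcl hd₁ hd₂ E hE hdE hfar₁ hfar₂ => ?_⟩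
  obtain ⟨R, hR, hclR, hdR, hfarR⟩ := 𝒟.exists_rep_far (-𝒟.cl D₁) E.support
  have hfarR' : Far 𝒟.far R E := hfarR E (Finset.Subset.refl _)
  have key : ∀ D ∈ 𝒟.Rat, 𝒟.cl D = 𝒟.cl D₁ → deg D ≤ e → Far 𝒟.far D E →
      |beta 𝒟.g 𝒟.η D E + beta 𝒟.g 𝒟.η R E| ≤ C := by
    intro D hD hclD hdD hfar
    rw [← beta_add_left]
    refine hC (D + R) (𝒟.Rat.add_mem hD hR) ?_ ?_ E hE hdE ?_
    · rw [map_add, hclD, hclR, add_neg_cancel]
    · rw [deg_add]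
      omega
    · exact hfar.add_left hfarR'
  have k1 := key D₁ h₁ rfl hd₁ hfar₁
  have k2 := key D₂ h₂ hcl.symm hd₂ hfar₂
  rw [abs_le] at k1 k2 ⊢
  constructor <;> linarith [k1.1, k1.2, k2.1, k2.2]

/-- **Invariance in the second variable.** -/
theorem exists_inv_right (e e' : ℕ) : ∃ C : ℝ, ∀ D ∈ 𝒟.Rat, deg D ≤ e → ∀ E₁ ∈ 𝒟.Rat,
    ∀ E₂ ∈ 𝒟.Rat, 𝒟.cl E₁ = 𝒟.cl E₂ → deg E₁ ≤ e' → deg E₂ ≤ e' →
    Far 𝒟.far D E₁ → Far 𝒟.far D E₂ →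
    |beta 𝒟.g 𝒟.η D E₁ - beta 𝒟.g 𝒟.η D E₂| ≤ C := by
  obtain ⟨C, hC⟩ := 𝒟.exists_inv_left e' e
  refine ⟨C, fun D hD hdD E₁ h₁ E₂ h₂ hcl hd₁ hd₂ hfar₁ hfar₂ => ?_⟩
  rw [beta_symm 𝒟.g_symm 𝒟.η D E₁, beta_symm 𝒟.g_symm 𝒟.η D E₂]
  exact hC E₁ h₁ E₂ h₂ hcl hd₁ hd₂ D hD hdD (hfar₁.symm 𝒟.far_symm) (hfar₂.symm 𝒟.far_symm)

/-- The chosen representative of `x`. -/
def repD (x : J) : P →₀ ℕ := Classical.choose (𝒟.rep x ∅)

theorem repD_mem (x : J) : 𝒟.repD x ∈ 𝒟.Rat := (Classical.choose_spec (𝒟.rep x ∅)).1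

theorem cl_repD (x : J) : 𝒟.cl (𝒟.repD x) = x := (Classical.choose_spec (𝒟.rep x ∅)).2.1

theorem deg_repD (x : J) : deg (𝒟.repD x) ≤ 𝒟.d₀ := (Classical.choose_spec (𝒟.rep x ∅)).2.2.1

/-- The chosen representative of `y` in general position with respect to `repD x`. -/
def repE (x y : J) : P →₀ ℕ := Classical.choose (𝒟.rep y (𝒟.repD x).support)

theorem repE_mem (x y : J) : 𝒟.repE x y ∈ 𝒟.Rat :=
  (Classical.choose_spec (𝒟.rep y (𝒟.repD x).support)).1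

theorem cl_repE (x y : J) : 𝒟.cl (𝒟.repE x y) = y :=
  (Classical.choose_spec (𝒟.rep y (𝒟.repD x).support)).2.1

theorem deg_repE (x y : J) : deg (𝒟.repE x y) ≤ 𝒟.d₀ :=
  (Classical.choose_spec (𝒟.rep y (𝒟.repD x).support)).2.2.1

theorem far_repE (x y : J) : Far 𝒟.far (𝒟.repD x) (𝒟.repE x y) := by
  have h : Far 𝒟.far (𝒟.repE x y) (𝒟.repD x) :=
    (Classical.choose_spec (𝒟.rep y (𝒟.repD x).support)).2.2.2
  exact h.symm 𝒟.far_symm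

/-- **The quasi-bilinear pairing.** -/
def pairB (x y : J) : ℝ := beta 𝒟.g 𝒟.η (𝒟.repD x) (𝒟.repE x y)

/-- `B (cl D) (cl E) = β(D, E) + O_e(1)` for rational `D`, `E` of degree `≤ e` in general
position. -/
theorem exists_pairB_approx (e : ℕ) : ∃ C : ℝ, ∀ D ∈ 𝒟.Rat, ∀ E ∈ 𝒟.Rat, deg D ≤ e →
    deg E ≤ e → Far 𝒟.far D E →
    |𝒟.pairB (𝒟.cl D) (𝒟.cl E) - beta 𝒟.g 𝒟.η D E| ≤ C := by
  classical
  obtain ⟨C₁, hC₁⟩ := 𝒟.exists_inv_left (max e 𝒟.d₀) e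
  obtain ⟨C₂, hC₂⟩ := 𝒟.exists_inv_right 𝒟.d₀ (max e 𝒟.d₀)
  obtain ⟨C₃, hC₃⟩ := 𝒟.exists_inv_left 𝒟.d₀ 𝒟.d₀
  refine ⟨C₁ + C₂ + C₃, fun D hD E hE hdD hdE hfar => ?_⟩
  set x := 𝒟.cl D with hx
  set y := 𝒟.cl E with hy
  obtain ⟨D₃, hD₃, hclD₃, hdD₃, hfarD₃⟩ :=
    𝒟.exists_rep_far x (E.support ∪ (𝒟.repE x y).support)
  have hfar₁ : Far 𝒟.far D₃ E := hfarD₃ E Finset.subset_union_left
  have hfar₂ : Far 𝒟.far D₃ (𝒟.repE x y) := hfarD₃ _ Finset.subset_union_right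
  -- `β(D, E) ≈ β(D₃, E)`
  have h1 := hC₁ D hD D₃ hD₃ (by rw [hclD₃]) (le_trans hdD (le_max_left _ _))
    (le_trans hdD₃ (le_max_right _ _)) E hE hdE hfar hfar₁
  -- `β(D₃, E) ≈ β(D₃, E_{x,y})`
  have h2 := hC₂ D₃ hD₃ hdD₃ E hE (𝒟.repE x y) (𝒟.repE_mem x y) (by rw [𝒟.cl_repE])
    (le_trans hdE (le_max_left _ _)) (le_trans (𝒟.deg_repE x y) (le_max_right _ _))
    hfar₁ hfar₂
  -- `β(D₃, E_{x,y}) ≈ β(D_x, E_{x,y})`
  have h3 := hC₃ D₃ hD₃ (𝒟.repD x) (𝒟.repD_mem x) (by rw [hclD₃, 𝒟.cl_repD]) hdD₃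
    (𝒟.deg_repD x) (𝒟.repE x y) (𝒟.repE_mem x y) (𝒟.deg_repE x y) hfar₂
    (𝒟.far_repE x y)
  unfold pairB
  rw [abs_le] at h1 h2 h3 ⊢
  constructor <;> linarith [h1.1, h1.2, h2.1, h2.2, h3.1, h3.2]

/-- **HQS-1.**  The quasi-bilinear pairing of a `PairingDatumS`: additive in the first variable
and symmetric up to `O(1)`, and computed by `β` on rational representatives in general
position. -/
theorem exists_bilin (𝒟 : PairingDatumS J P) :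
    ∃ B : J → J → ℝ,
      (∃ C : ℝ, ∀ x x' y, |B (x + x') y - B x y - B x' y| ≤ C) ∧
      (∃ C : ℝ, ∀ x y, |B x y - B y x| ≤ C) ∧
      (∀ e : ℕ, ∃ C : ℝ, ∀ D ∈ 𝒟.Rat, ∀ E ∈ 𝒟.Rat, deg D ≤ e → deg E ≤ e →
        Far 𝒟.far D E → |B (𝒟.cl D) (𝒟.cl E) - beta 𝒟.g 𝒟.η D E| ≤ C) := by
  classical
  refine ⟨𝒟.pairB, ?_, ?_, 𝒟.exists_pairB_approx⟩
  · -- additivity in the first variable
    obtain ⟨C, hC⟩ := 𝒟.exists_pairB_approx (2 * 𝒟.d₀)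
    refine ⟨3 * C, fun x x' y => ?_⟩
    obtain ⟨E, hE, hclE, hdE, -⟩ := 𝒟.rep y ∅
    obtain ⟨D, hD, hclD, hdD, hfarD⟩ := 𝒟.exists_rep_far x E.support
    obtain ⟨D', hD', hclD', hdD', hfarD'⟩ := 𝒟.exists_rep_far x' E.support
    have hfD : Far 𝒟.far D E := hfarD E (Finset.Subset.refl _)
    have hfD' : Far 𝒟.far D' E := hfarD' E (Finset.Subset.refl _)
    have h1 := hC (D + D') (𝒟.Rat.add_mem hD hD') E hE (by rw [deg_add]; omega) (by omega)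
      (hfD.add_left hfD')
    have h2 := hC D hD E hE (by omega) (by omega) hfD
    have h3 := hC D' hD' E hE (by omega) (by omega) hfD'
    rw [map_add, hclD, hclD', hclE, beta_add_left] at h1
    rw [hclD, hclE] at h2
    rw [hclD', hclE] at h3
    rw [abs_le] at h1 h2 h3 ⊢
    constructor <;> linarith [h1.1, h1.2, h2.1, h2.2, h3.1, h3.2]
  · -- symmetry
    obtain ⟨C, hC⟩ := 𝒟.exists_pairB_approx 𝒟.d₀
    refine ⟨2 * C, fun x y => ?_⟩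
    obtain ⟨D, hD, hclD, hdD, -⟩ := 𝒟.rep x ∅
    obtain ⟨E, hE, hclE, hdE, hfarE⟩ := 𝒟.exists_rep_far y D.support
    have hfE : Far 𝒟.far E D := hfarE D (Finset.Subset.refl _)
    have h1 := hC D hD E hE hdD hdE (hfE.symm 𝒟.far_symm)
    have h2 := hC E hE D hD hdE hdD hfE
    rw [hclD, hclE] at h1 h2
    rw [beta_symm 𝒟.g_symm 𝒟.η E D] at h2
    rw [abs_le] at h1 h2 ⊢
    constructor <;> linarith [h1.1, h1.2, h2.1, h2.2]

end PairingDatumS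

end Fermat.Agent.MW.HQ
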