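/-
MW / HT-Q, row HQS-4, conditional part (helper86; port of helper63's `HQ/HeightOfQuad.lean` to the
general-position vocabulary of `HQ/DefsS.lean`) — from a `HeightDatumS` to a nonnegative,
(exactly) quadratic Northcott function on `J`.

* `HeightDatumS.exists_height_of_quad`  : HQS-4 from the conclusion of HQS-2 (a function `B` whose
  diagonal is quasi-quadratic and computes `−β(D, R)` for `cl (D + R) = 0`, `D`, `R` in general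
  position);
* `HeightDatumS.exists_height_of_bilin` : the same with the statement of HQS-2 as one hypothesis.

Mathlib + `MW/HQ/DefsS` + `MW/Height/QuasiQuad` only.
-/
import Mathlib
import Fermat.Agent.MW.HQ.DefsS
import Fermat.Agent.MW.Height.QuasiQuad

set_option autoImplicit false

noncomputable section

namespace Fermat.Agent.MW.HQ

variable {J : Type*} [AddCommGroup J] {P : Type*}

/-- **HQS-4 from the conclusion of HQS-2.**  The height is even EXACTLY quadratic (it is the Tate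
limit of `x ↦ B x x`) and within `O(1)` of `x ↦ B x x`. -/
theorem HeightDatumS.exists_height_of_quad (𝒟 : HeightDatumS J P) (B : J → J → ℝ)
    (hq1 : ∃ C : ℝ, ∀ x y, |B (x + y) (x + y) + B (x - y) (x - y) - 2 * (B x x + B y y)| ≤ C)
    (hq2 : ∀ e : ℕ, ∃ C : ℝ, ∀ D ∈ 𝒟.Rat, ∀ R ∈ 𝒟.Rat, deg D ≤ e → deg R ≤ e →
        Far 𝒟.far D R → 𝒟.cl (D + R) = 0 →
          |B (𝒟.cl D) (𝒟.cl D) + beta 𝒟.g 𝒟.η D R| ≤ C) :
    ∃ q : J → ℝ, (∀ x, 0 ≤ q x) ∧ (∀ x y, q (x + y) + q (x - y) = 2 * (q x + q y)) ∧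
      (∃ C : ℝ, ∀ x, |q x - B x x| ≤ C) ∧ ∀ T : ℝ, {x | q x ≤ T}.Finite := by
  obtain ⟨Cq, hCq⟩ := hq1
  obtain ⟨Ce, hCe⟩ := hq2 𝒟.d₁
  obtain ⟨Cp, hCp⟩ := 𝒟.pos
  obtain ⟨𝒞, h𝒞⟩ := 𝒟.translates
  -- the key lower bound on classes of good divisors
  have key : ∀ E, 𝒟.Good E → ht 𝒟.η E - Cp - Ce ≤ B (𝒟.cl E) (𝒟.cl E) := by
    intro E hE
    obtain ⟨R, hR, hcl, hdeg, hfar, hle⟩ := hCp E hE
    have h1 := abs_le.1 (hCe E (𝒟.good_rat E hE) R hR (𝒟.good_deg E hE) hdeg hfar hcl)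
    linarith [h1.1]
  let S : Set J := {x | ∃ E, 𝒟.Good E ∧ 𝒟.cl E = x}
  have hpos : ∀ x ∈ S, -(Cp + Ce) ≤ B x x := by
    rintro x ⟨E, hE, rfl⟩
    have := key E hE
    have h0 := ht_nonneg 𝒟.η_nonneg E
    linarith
  have hfin : ∀ T : ℝ, {x | x ∈ S ∧ B x x ≤ T}.Finite := by
    intro T
    refine ((𝒟.north (T + Cp + Ce)).image fun E => 𝒟.cl E).subset ?_
    rintro x ⟨⟨E, hE, rfl⟩, hx⟩
    have hx' : B (𝒟.cl E) (𝒟.cl E) ≤ T := hx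
    have := key E hE
    exact ⟨E, ⟨hE, by linarith⟩, rfl⟩
  have hcov : ∀ x, ∃ c ∈ (↑𝒞 : Set J), x + c ∈ S := by
    intro x
    obtain ⟨c, hc, E, hE, hEx⟩ := h𝒞 x
    exact ⟨c, by simpa using hc, E, hE, hEx⟩
  obtain ⟨h, h0, hpar, hD, hN⟩ :=
    Fermat.Agent.MW.Height.QuasiQuad.exists_height_of_cover (fun x => B x x) Cq hCq S
      (↑𝒞 : Set J) 𝒞.finite_toSet hcov (Cp + Ce) hpos hfin
  exact ⟨h, h0, hpar, hD, fun T => hN.finite_le T⟩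

/-- **HQS-4 from the conclusion of HQS-1**, given the statement of HQS-2 for this `B`. -/
theorem HeightDatumS.exists_height_of_bilin (𝒟 : HeightDatumS J P)
    (hBil : ∃ B : J → J → ℝ,
      (∃ C : ℝ, ∀ x y, |B (x + y) (x + y) + B (x - y) (x - y) - 2 * (B x x + B y y)| ≤ C) ∧
      (∀ e : ℕ, ∃ C : ℝ, ∀ D ∈ 𝒟.Rat, ∀ R ∈ 𝒟.Rat, deg D ≤ e → deg R ≤ e →
        Far 𝒟.far D R → 𝒟.cl (D + R) = 0 →
          |B (𝒟.cl D) (𝒟.cl D) + beta 𝒟.g 𝒟.η D R| ≤ C)) :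
    ∃ q : J → ℝ, (∀ x, 0 ≤ q x) ∧
      (∃ C : ℝ, ∀ x y, |q (x + y) + q (x - y) - 2 * (q x + q y)| ≤ C) ∧
      ∀ T : ℝ, {x | q x ≤ T}.Finite := by
  obtain ⟨B, hq1, hq2⟩ := hBil
  obtain ⟨q, h0, hpar, -, hN⟩ := 𝒟.exists_height_of_quad B hq1 hq2
  exact ⟨q, h0, ⟨0, fun x y => by rw [hpar x y]; simp⟩, hN⟩

/-- The same, from the literal conclusions of HQS-1 (`PairingDatumS.exists_bilin`) and the literal
statement of HQS-2 (`quad_of_bilinS`) as hypotheses: the final `HeightDatumS.exists_height` is a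
one-line specialisation. -/
theorem HeightDatumS.exists_height_of (𝒟 : HeightDatumS J P)
    (hbil : ∃ B : J → J → ℝ,
      (∃ C : ℝ, ∀ x x' y, |B (x + x') y - B x y - B x' y| ≤ C) ∧
      (∃ C : ℝ, ∀ x y, |B x y - B y x| ≤ C) ∧
      (∀ e : ℕ, ∃ C : ℝ, ∀ D ∈ 𝒟.Rat, ∀ E ∈ 𝒟.Rat, deg D ≤ e → deg E ≤ e →
        Far 𝒟.far D E → |B (𝒟.cl D) (𝒟.cl E) - beta 𝒟.g 𝒟.η D E| ≤ C))
    (hquad : ∀ B : J → J → ℝ,
      (∃ C : ℝ, ∀ x x' y, |B (x + x') y - B x y - B x' y| ≤ C) →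
      (∃ C : ℝ, ∀ x y, |B x y - B y x| ≤ C) →
      (∀ e : ℕ, ∃ C : ℝ, ∀ D ∈ 𝒟.Rat, ∀ E ∈ 𝒟.Rat, deg D ≤ e → deg E ≤ e →
        Far 𝒟.far D E → |B (𝒟.cl D) (𝒟.cl E) - beta 𝒟.g 𝒟.η D E| ≤ C) →
      (∃ C : ℝ, ∀ x y, |B (x + y) (x + y) + B (x - y) (x - y) - 2 * (B x x + B y y)| ≤ C) ∧
      (∀ e : ℕ, ∃ C : ℝ, ∀ D ∈ 𝒟.Rat, ∀ R ∈ 𝒟.Rat, deg D ≤ e → deg R ≤ e →
        Far 𝒟.far D R → 𝒟.cl (D + R) = 0 →
        |B (𝒟.cl D) (𝒟.cl D) + beta 𝒟.g 𝒟.η D R| ≤ C)) :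
    ∃ q : J → ℝ, (∀ x, 0 ≤ q x) ∧
      (∃ C : ℝ, ∀ x y, |q (x + y) + q (x - y) - 2 * (q x + q y)| ≤ C) ∧
      ∀ T : ℝ, {x | q x ≤ T}.Finite := by
  obtain ⟨B, h1, h2, h3⟩ := hbil
  obtain ⟨a, b⟩ := hquad B h1 h2 h3
  exact 𝒟.exists_height_of_bilin ⟨B, a, b⟩

end Fermat.Agent.MW.HQ
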