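/-
MW / HT-Q, row HQS-4 (closed form, helper86): a `HeightDatumS` yields a nonnegative
quasi-quadratic Northcott function on `J`.

`HeightDatumS.exists_height` = HQS-1 (`PairingDatumS.exists_bilin`, MW/HQ/BilinS.lean) + HQS-2
(`quad_of_bilinS`, MW/HQ/QuadS.lean) + `HeightDatumS.exists_height_of_bilin`
(MW/HQ/HeightOfQuadS.lean).
-/
import Mathlib
import Fermat.Agent.MW.HQ.BilinS
import Fermat.Agent.MW.HQ.QuadS
import Fermat.Agent.MW.HQ.HeightOfQuadS

set_option autoImplicit false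

noncomputable section

namespace Fermat.Agent.MW.HQ

variable {J : Type*} [AddCommGroup J] {P : Type*}

/-- **HQS-4.**  A `HeightDatumS` yields a nonnegative quasi-quadratic Northcott function. -/
theorem HeightDatumS.exists_height (𝒟 : HeightDatumS J P) :
    ∃ q : J → ℝ, (∀ x, 0 ≤ q x) ∧
      (∃ C : ℝ, ∀ x y, |q (x + y) + q (x - y) - 2 * (q x + q y)| ≤ C) ∧
      ∀ T : ℝ, {x | q x ≤ T}.Finite := by
  obtain ⟨B, h1, h2, h3⟩ := 𝒟.toPairingDatumS.exists_bilin
  obtain ⟨a, b⟩ := quad_of_bilinS 𝒟.toPairingDatumS B h1 h2 h3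
  exact 𝒟.exists_height_of_bilin ⟨B, a, b⟩

end Fermat.Agent.MW.HQ
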