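/-
MW / HT-Q, helper84 — **uniform reciprocity (`recip`) from its lower half, the fibre estimate and
exactness on the line** (abstract, Mathlib-only).

`P` is the type of points, `K` the affine line.  A `Coord P K` is the abstract shadow of a
non-constant function `t` regular on `P`: its value map `τ : P → K`, its degree `m` and its fibre
divisors `fib q` (the divisor of zeros of `t − t(q)`).  `Fib c.fib E` is the full fibre divisor
over an effective divisor `E`; it contains `E`.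

For a good coordinate (`Coord.IsGood`: fibre estimate `fibPt`, height comparison `htCmp`,
exactness on the line `exact`) the pairing symbol `β(Z, Fib E)` is `O(deg Z · deg E)`
(`abs_beta_Fib_le`).  Hence, if `β(Z, E) ≥ −C` uniformly (`hlow`, the half of reciprocity that
the local upper bound (M≤) gives) and every pair of disjoint divisors of bounded degrees is
separated by one of finitely many good coordinates (`hsep`), then `|β(Z, E)| ≤ C'` uniformly:
this is the field `recip` of `HQ.PairingDatum` (`recip_of_fibre`).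
-/
import Mathlib
import Fermat.Agent.MW.HQ.Defs

set_option autoImplicit false

noncomputable section

namespace Fermat.Agent.MW.HQ.RecFib

open Fermat.Agent.MW.HQ

variable {P : Type*} {K : Type*}

/-! ### Finset forms and additive-hom forms of `deg`, `ht`, `pairG` -/

theorem deg_eq_sum (D : P →₀ ℕ) : deg D = ∑ p ∈ D.support, D p := rfl

theorem cast_deg_eq_sum (D : P →₀ ℕ) : (deg D : ℝ) = ∑ p ∈ D.support, (D p : ℝ) := by
  rw [deg_eq_sum]; push_cast; rfl

theorem ht_eq_sum (η : P → ℝ) (D : P →₀ ℕ) : ht η D = ∑ p ∈ D.support, (D p : ℝ) * η p := rfl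

theorem pairG_eq_sum (g : P → P → ℝ) (D E : P →₀ ℕ) :
    pairG g D E = ∑ p ∈ D.support, ∑ q ∈ E.support, (D p : ℝ) * (E q : ℝ) * g p q := rfl

/-- `deg` as an additive map. -/
def degHom : (P →₀ ℕ) →+ ℕ where
  toFun := deg
  map_zero' := deg_zero
  map_add' := deg_add

/-- `ht η` as an additive map. -/
def htHom (η : P → ℝ) : (P →₀ ℕ) →+ ℝ where
  toFun := ht η
  map_zero' := ht_zero η
  map_add' := ht_add η

/-- `pairG g D` as an additive map. -/
def pairGHom (g : P → P → ℝ) (D : P →₀ ℕ) : (P →₀ ℕ) →+ ℝ where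
  toFun := pairG g D
  map_zero' := pairG_zero_right g D
  map_add' := pairG_add_right g D

theorem abs_sum_mul_le {ι : Type*} (s : Finset ι) (w : ι → ℕ) (x : ι → ℝ) (C : ℝ)
    (h : ∀ i ∈ s, |x i| ≤ C) : |∑ i ∈ s, (w i : ℝ) * x i| ≤ C * ∑ i ∈ s, (w i : ℝ) := by
  calc |∑ i ∈ s, (w i : ℝ) * x i| ≤ ∑ i ∈ s, |(w i : ℝ) * x i| := Finset.abs_sum_le_sum_abs _ _
    _ ≤ ∑ i ∈ s, (w i : ℝ) * C := Finset.sum_le_sum fun i hi => by
        rw [abs_mul, abs_of_nonneg (Nat.cast_nonneg _)]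
        exact mul_le_mul_of_nonneg_left (h i hi) (Nat.cast_nonneg _)
    _ = C * ∑ i ∈ s, (w i : ℝ) := by
        rw [Finset.mul_sum]; exact Finset.sum_congr rfl fun _ _ => mul_comm _ _

/-! ### Push-forward to the line -/

theorem deg_mapDomain (τ : P → K) (D : P →₀ ℕ) : deg (D.mapDomain τ) = deg D := by
  unfold deg
  exact Finsupp.sum_mapDomain_index (fun _ => rfl) (fun _ _ _ => rfl)

theorem ht_mapDomain (ηL : K → ℝ) (τ : P → K) (D : P →₀ ℕ) :
    ht ηL (D.mapDomain τ) = ∑ p ∈ D.support, (D p : ℝ) * ηL (τ p) := by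
  unfold ht
  rw [Finsupp.sum_mapDomain_index (fun _ => by simp) (fun _ _ _ => by push_cast; ring)]
  rfl

theorem pairG_mapDomain (gL : K → K → ℝ) (τ : P → K) (D E : P →₀ ℕ) :
    pairG gL (D.mapDomain τ) (E.mapDomain τ) =
      ∑ p ∈ D.support, ∑ q ∈ E.support, (D p : ℝ) * (E q : ℝ) * gL (τ p) (τ q) := by
  unfold pairG
  rw [Finsupp.sum_mapDomain_index (fun _ => by simp) (fun b m₁ m₂ => by
    simp only [Finsupp.sum, ← Finset.sum_add_distrib]
    exact Finset.sum_congr rfl fun _ _ => by push_cast; ring)]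
  unfold Finsupp.sum
  refine Finset.sum_congr rfl fun p _ => ?_
  have := Finsupp.sum_mapDomain_index (f := τ) (s := E)
    (h := fun q b => ((D p : ℕ) : ℝ) * (b : ℝ) * gL (τ p) q) (fun _ => by simp)
    (fun _ _ _ => by push_cast; ring)
  simpa [Finsupp.sum] using this

/-! ### The fibre operator -/

/-- The full fibre divisor over `E`: `∑_q E q • fib q`. -/
def Fib (fib : P → (P →₀ ℕ)) (E : P →₀ ℕ) : P →₀ ℕ := E.sum fun q n => n • fib q

theorem map_Fib {M : Type*} [AddCommMonoid M] (f : (P →₀ ℕ) →+ M) (fib : P → (P →₀ ℕ))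
    (E : P →₀ ℕ) : f (Fib fib E) = ∑ q ∈ E.support, E q • f (fib q) := by
  unfold Fib
  rw [map_finsuppSum]
  unfold Finsupp.sum
  exact Finset.sum_congr rfl fun q _ => map_nsmul f _ _

theorem deg_Fib (fib : P → (P →₀ ℕ)) (E : P →₀ ℕ) :
    deg (Fib fib E) = ∑ q ∈ E.support, E q * deg (fib q) := by
  have h := map_Fib (degHom (P := P)) fib E
  simpa [degHom] using h

theorem ht_Fib (η : P → ℝ) (fib : P → (P →₀ ℕ)) (E : P →₀ ℕ) :
    ht η (Fib fib E) = ∑ q ∈ E.support, (E q : ℝ) * ht η (fib q) := by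
  have h := map_Fib (htHom η) fib E
  simpa [htHom] using h

theorem pairG_Fib (g : P → P → ℝ) (Z : P →₀ ℕ) (fib : P → (P →₀ ℕ)) (E : P →₀ ℕ) :
    pairG g Z (Fib fib E) = ∑ q ∈ E.support, (E q : ℝ) * pairG g Z (fib q) := by
  have h := map_Fib (pairGHom g Z) fib E
  simpa [pairGHom] using h

theorem Fib_apply (fib : P → (P →₀ ℕ)) (E : P →₀ ℕ) (p : P) :
    Fib fib E p = ∑ q ∈ E.support, E q * fib q p := by
  unfold Fib
  rw [Finsupp.sum_apply]
  unfold Finsupp.sum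
  exact Finset.sum_congr rfl fun q _ => by simp

theorem le_Fib (fib : P → (P →₀ ℕ)) (h : ∀ q, 1 ≤ fib q q) (E : P →₀ ℕ) : E ≤ Fib fib E := by
  rw [Finsupp.le_def]
  intro p
  rw [Fib_apply]
  by_cases hp : p ∈ E.support
  · calc E p ≤ E p * fib p p := Nat.le_mul_of_pos_right _ (h p)
      _ ≤ ∑ q ∈ E.support, E q * fib q p :=
        Finset.single_le_sum (f := fun q => E q * fib q p) (fun _ _ => Nat.zero_le _) hp
  · rw [Finsupp.notMem_support_iff.1 hp]
    exact Nat.zero_le _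

theorem exists_of_mem_support_Fib (fib : P → (P →₀ ℕ)) (E : P →₀ ℕ) {p : P}
    (hp : p ∈ (Fib fib E).support) : ∃ q ∈ E.support, p ∈ (fib q).support := by
  rw [Finsupp.mem_support_iff, Fib_apply] at hp
  obtain ⟨q, hq, hne⟩ := Finset.exists_ne_zero_of_sum_ne_zero hp
  exact ⟨q, hq, Finsupp.mem_support_iff.2 fun h0 => hne (by rw [h0, mul_zero])⟩

/-! ### Coordinates -/

/-- The abstract shadow of a non-constant function `t` regular at all points of `P`: its values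
`τ`, its degree `m`, and the fibre divisor `fib q` (zeros of `t − t(q)`) through each point. -/
structure Coord (P K : Type*) where
  τ : P → K
  fib : P → (P →₀ ℕ)
  m : ℕ
  self_le : ∀ q, 1 ≤ fib q q
  deg_fib : ∀ q, deg (fib q) = m
  τ_fib : ∀ q q', q' ∈ (fib q).support → τ q' = τ q

/-- A coordinate is good for `(g, η)` (heights on `P`), `(gL, ηL)` (heights on the line) and the
rational divisors `Rat` if the fibre estimate, the height comparison and exactness on the line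
hold, and the complement `Fib E − E` of a rational divisor in its fibre divisor is rational. -/
structure Coord.IsGood (c : Coord P K) (g : P → P → ℝ) (η : P → ℝ) (gL : K → K → ℝ)
    (ηL : K → ℝ) (Rat : AddSubmonoid (P →₀ ℕ)) : Prop where
  compl_rat : ∀ E ∈ Rat, Fib c.fib E - E ∈ Rat
  fibPt : ∃ C : ℝ, ∀ p q, c.τ p ≠ c.τ q →
    |(c.fib q).sum (fun q' n => (n : ℝ) * g p q') - gL (c.τ p) (c.τ q)| ≤ C
  htCmp : ∃ C : ℝ, ∀ p, |ηL (c.τ p) - (c.m : ℝ) * η p| ≤ C
  exact : ∀ Z ∈ Rat, ∀ E ∈ Rat, (∀ p ∈ Z.support, ∀ q ∈ E.support, c.τ p ≠ c.τ q) →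
    beta gL ηL (Z.mapDomain c.τ) (E.mapDomain c.τ) = 0

theorem Coord.m_pos (c : Coord P K) (q : P) : 1 ≤ c.m := by
  rw [← c.deg_fib q, deg_eq_sum]
  have hq : q ∈ (c.fib q).support :=
    Finsupp.mem_support_iff.2 (Nat.one_le_iff_ne_zero.1 (c.self_le q))
  exact (c.self_le q).trans
    (Finset.single_le_sum (f := fun p => c.fib q p) (fun _ _ => Nat.zero_le _) hq)

theorem Coord.deg_Fib (c : Coord P K) (E : P →₀ ℕ) : deg (Fib c.fib E) = c.m * deg E := by
  rw [RecFib.deg_Fib, deg_eq_sum, Finset.mul_sum]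
  exact Finset.sum_congr rfl fun q _ => by rw [c.deg_fib q, mul_comm]

/-- **The fibre bound**: for a good coordinate, `β(Z, Fib E) = O(deg Z · deg E)` for rational
`Z`, `E` with disjoint `τ`-images. -/
theorem abs_beta_Fib_le (c : Coord P K) {g : P → P → ℝ} {η : P → ℝ} {gL : K → K → ℝ}
    {ηL : K → ℝ} {Rat : AddSubmonoid (P →₀ ℕ)} (hc : c.IsGood g η gL ηL Rat) :
    ∃ C : ℝ, 0 ≤ C ∧ ∀ Z ∈ Rat, ∀ E ∈ Rat,
      (∀ p ∈ Z.support, ∀ q ∈ E.support, c.τ p ≠ c.τ q) →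
      |beta g η Z (Fib c.fib E)| ≤ C * ((deg Z : ℝ) * (deg E : ℝ)) := by
  obtain ⟨C₁, hC₁⟩ := hc.fibPt
  obtain ⟨C₂, hC₂⟩ := hc.htCmp
  refine ⟨2 * (c.m : ℝ) * |C₂| + 2 * |C₂| + |C₁|, by positivity, ?_⟩
  intro Z hZ E hE hsep
  have hC₂' : ∀ p, |ηL (c.τ p) - (c.m : ℝ) * η p| ≤ |C₂| := fun p =>
    (hC₂ p).trans (le_abs_self _)
  -- (B1) the height of a fibre
  have hB1 : ∀ q, |ht η (c.fib q) - (c.m : ℝ) * η q| ≤ 2 * |C₂| * (c.m : ℝ) := by
    intro q
    have hm : ((c.m : ℕ) : ℝ) = ∑ q' ∈ (c.fib q).support, (c.fib q q' : ℝ) := by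
      rw [← c.deg_fib q, cast_deg_eq_sum]
    have h1 : ht η (c.fib q) - (c.m : ℝ) * η q =
        ∑ q' ∈ (c.fib q).support, (c.fib q q' : ℝ) * (η q' - η q) := by
      rw [ht_eq_sum, hm, Finset.sum_mul, ← Finset.sum_sub_distrib]
      exact Finset.sum_congr rfl fun _ _ => by ring
    rw [h1]
    have h2 : ∀ q' ∈ (c.fib q).support, |η q' - η q| ≤ 2 * |C₂| := by
      intro q' hq'
      have e1 := hC₂' q'
      have e2 := hC₂' q
      rw [c.τ_fib q q' hq'] at e1
      have hm1 : (1 : ℝ) ≤ (c.m : ℝ) := by exact_mod_cast c.m_pos q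
      have e3 : (c.m : ℝ) * |η q' - η q| ≤ 2 * |C₂| := by
        rw [← abs_of_nonneg (by linarith : (0 : ℝ) ≤ (c.m : ℝ)), ← abs_mul]
        have : (c.m : ℝ) * (η q' - η q) =
            (ηL (c.τ q) - (c.m : ℝ) * η q) - (ηL (c.τ q) - (c.m : ℝ) * η q') := by ring
        rw [this]
        exact (abs_sub _ _).trans (by linarith)
      nlinarith [abs_nonneg (η q' - η q)]
    have h3 := abs_sum_mul_le (c.fib q).support (fun q' => c.fib q q') (fun q' => η q' - η q)
      (2 * |C₂|) h2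
    rw [← hm] at h3
    exact h3
  -- (B2) the pair function of a fibre
  have hB2 : ∀ q ∈ E.support,
      |pairG g Z (c.fib q) - ∑ p ∈ Z.support, (Z p : ℝ) * gL (c.τ p) (c.τ q)| ≤
        |C₁| * (deg Z : ℝ) := by
    intro q hq
    have h1 : pairG g Z (c.fib q) - ∑ p ∈ Z.support, (Z p : ℝ) * gL (c.τ p) (c.τ q) =
        ∑ p ∈ Z.support, (Z p : ℝ) *
          ((c.fib q).sum (fun q' n => (n : ℝ) * g p q') - gL (c.τ p) (c.τ q)) := by
      rw [pairG_eq_sum, ← Finset.sum_sub_distrib]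
      refine Finset.sum_congr rfl fun p _ => ?_
      rw [mul_sub]
      congr 1
      unfold Finsupp.sum
      rw [Finset.mul_sum]
      exact Finset.sum_congr rfl fun _ _ => by ring
    rw [h1, cast_deg_eq_sum]
    exact abs_sum_mul_le Z.support (fun p => Z p) _ |C₁| fun p hp =>
      (hC₁ p q (hsep p hp q hq)).trans (le_abs_self _)
  -- the four error terms
  have hX₁ : |ht η (Fib c.fib E) - (c.m : ℝ) * ht η E| ≤ 2 * |C₂| * (c.m : ℝ) * (deg E : ℝ) := by
    have h1 : ht η (Fib c.fib E) - (c.m : ℝ) * ht η E =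
        ∑ q ∈ E.support, (E q : ℝ) * (ht η (c.fib q) - (c.m : ℝ) * η q) := by
      rw [ht_Fib, ht_eq_sum, Finset.mul_sum, ← Finset.sum_sub_distrib]
      exact Finset.sum_congr rfl fun _ _ => by ring
    rw [h1, cast_deg_eq_sum]
    exact abs_sum_mul_le E.support (fun q => E q) _ _ fun q _ => hB1 q
  have hX₂ : |ht ηL (Z.mapDomain c.τ) - (c.m : ℝ) * ht η Z| ≤ |C₂| * (deg Z : ℝ) := by
    have h1 : ht ηL (Z.mapDomain c.τ) - (c.m : ℝ) * ht η Z =
        ∑ p ∈ Z.support, (Z p : ℝ) * (ηL (c.τ p) - (c.m : ℝ) * η p) := by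
      rw [ht_mapDomain, ht_eq_sum, Finset.mul_sum, ← Finset.sum_sub_distrib]
      exact Finset.sum_congr rfl fun _ _ => by ring
    rw [h1, cast_deg_eq_sum]
    exact abs_sum_mul_le Z.support (fun p => Z p) _ _ fun p _ => hC₂' p
  have hX₃ : |ht ηL (E.mapDomain c.τ) - (c.m : ℝ) * ht η E| ≤ |C₂| * (deg E : ℝ) := by
    have h1 : ht ηL (E.mapDomain c.τ) - (c.m : ℝ) * ht η E =
        ∑ p ∈ E.support, (E p : ℝ) * (ηL (c.τ p) - (c.m : ℝ) * η p) := by
      rw [ht_mapDomain, ht_eq_sum, Finset.mul_sum, ← Finset.sum_sub_distrib]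
      exact Finset.sum_congr rfl fun _ _ => by ring
    rw [h1, cast_deg_eq_sum]
    exact abs_sum_mul_le E.support (fun p => E p) _ _ fun p _ => hC₂' p
  have hX₄ : |pairG g Z (Fib c.fib E) - pairG gL (Z.mapDomain c.τ) (E.mapDomain c.τ)| ≤
      |C₁| * (deg Z : ℝ) * (deg E : ℝ) := by
    have h1 : pairG g Z (Fib c.fib E) - pairG gL (Z.mapDomain c.τ) (E.mapDomain c.τ) =
        ∑ q ∈ E.support, (E q : ℝ) *
          (pairG g Z (c.fib q) - ∑ p ∈ Z.support, (Z p : ℝ) * gL (c.τ p) (c.τ q)) := by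
      rw [pairG_Fib, pairG_mapDomain, Finset.sum_comm, ← Finset.sum_sub_distrib]
      refine Finset.sum_congr rfl fun q _ => ?_
      rw [mul_sub, Finset.mul_sum]
      congr 1
      exact Finset.sum_congr rfl fun _ _ => by ring
    rw [h1, cast_deg_eq_sum (D := E)]
    exact abs_sum_mul_le E.support (fun q => E q) _ _ hB2
  -- exactness on the line
  have hex := hc.exact Z hZ E hE hsep
  unfold beta at hex
  rw [deg_mapDomain, deg_mapDomain] at hex
  -- assemble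
  have hdeg : (deg (Fib c.fib E) : ℝ) = (c.m : ℝ) * (deg E : ℝ) := by
    rw [c.deg_Fib]; push_cast; ring
  have key : beta g η Z (Fib c.fib E) =
      (deg Z : ℝ) * (ht η (Fib c.fib E) - (c.m : ℝ) * ht η E)
      - (deg E : ℝ) * (ht ηL (Z.mapDomain c.τ) - (c.m : ℝ) * ht η Z)
      - (deg Z : ℝ) * (ht ηL (E.mapDomain c.τ) - (c.m : ℝ) * ht η E)
      - (pairG g Z (Fib c.fib E) - pairG gL (Z.mapDomain c.τ) (E.mapDomain c.τ)) := by
    unfold beta
    rw [hdeg]
    linarith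
  rw [key]
  have ha : (0 : ℝ) ≤ (deg Z : ℝ) := Nat.cast_nonneg _
  have hb : (0 : ℝ) ≤ (deg E : ℝ) := Nat.cast_nonneg _
  have t1 : |(deg Z : ℝ) * (ht η (Fib c.fib E) - (c.m : ℝ) * ht η E)| ≤
      (deg Z : ℝ) * (2 * |C₂| * (c.m : ℝ) * (deg E : ℝ)) := by
    rw [abs_mul, abs_of_nonneg ha]; exact mul_le_mul_of_nonneg_left hX₁ ha
  have t2 : |(deg E : ℝ) * (ht ηL (Z.mapDomain c.τ) - (c.m : ℝ) * ht η Z)| ≤
      (deg E : ℝ) * (|C₂| * (deg Z : ℝ)) := by
    rw [abs_mul, abs_of_nonneg hb]; exact mul_le_mul_of_nonneg_left hX₂ hb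
  have t3 : |(deg Z : ℝ) * (ht ηL (E.mapDomain c.τ) - (c.m : ℝ) * ht η E)| ≤
      (deg Z : ℝ) * (|C₂| * (deg E : ℝ)) := by
    rw [abs_mul, abs_of_nonneg ha]; exact mul_le_mul_of_nonneg_left hX₃ ha
  calc |(deg Z : ℝ) * (ht η (Fib c.fib E) - (c.m : ℝ) * ht η E)
        - (deg E : ℝ) * (ht ηL (Z.mapDomain c.τ) - (c.m : ℝ) * ht η Z)
        - (deg Z : ℝ) * (ht ηL (E.mapDomain c.τ) - (c.m : ℝ) * ht η E)
        - (pairG g Z (Fib c.fib E) - pairG gL (Z.mapDomain c.τ) (E.mapDomain c.τ))|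
      ≤ |(deg Z : ℝ) * (ht η (Fib c.fib E) - (c.m : ℝ) * ht η E)|
        + |(deg E : ℝ) * (ht ηL (Z.mapDomain c.τ) - (c.m : ℝ) * ht η Z)|
        + |(deg Z : ℝ) * (ht ηL (E.mapDomain c.τ) - (c.m : ℝ) * ht η E)|
        + |pairG g Z (Fib c.fib E) - pairG gL (Z.mapDomain c.τ) (E.mapDomain c.τ)| :=
        (abs_sub _ _).trans (add_le_add_left ((abs_sub _ _).trans
          (add_le_add_left (abs_sub _ _) _)) _)
    _ ≤ (2 * (c.m : ℝ) * |C₂| + 2 * |C₂| + |C₁|) * ((deg Z : ℝ) * (deg E : ℝ)) := by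
        nlinarith [t1, t2, t3, hX₄]

/-- **Uniform reciprocity from its lower half and the fibre estimate.**  This is the field
`recip` of `HQ.PairingDatum`. -/
theorem recip_of_fibre {J : Type*} [AddCommGroup J] {g : P → P → ℝ} {η : P → ℝ}
    {gL : K → K → ℝ} {ηL : K → ℝ} {Rat : AddSubmonoid (P →₀ ℕ)} (cl : (P →₀ ℕ) →+ J)
    {Λ : Type*} (c : Λ → Coord P K) (hc : ∀ l, (c l).IsGood g η gL ηL Rat)
    (hsep : ∀ M e : ℕ, ∃ Λ₀ : Finset Λ, ∀ Z E : P →₀ ℕ, deg Z ≤ M → deg E ≤ e →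
      Disjoint Z.support E.support →
      ∃ l ∈ Λ₀, ∀ p ∈ Z.support, ∀ q ∈ E.support, (c l).τ p ≠ (c l).τ q)
    (hlow : ∀ M e : ℕ, ∃ C : ℝ, ∀ Z ∈ Rat, cl Z = 0 → deg Z ≤ M → ∀ E ∈ Rat, deg E ≤ e →
      Disjoint Z.support E.support → -C ≤ beta g η Z E) :
    ∀ M e : ℕ, ∃ C : ℝ, ∀ Z ∈ Rat, cl Z = 0 → deg Z ≤ M → ∀ E ∈ Rat, deg E ≤ e →
      Disjoint Z.support E.support → |beta g η Z E| ≤ C := by
  classical
  intro M e
  obtain ⟨Λ₀, hΛ₀⟩ := hsep M e
  obtain ⟨C₀, hC₀⟩ := hlow M e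
  choose Cf hCf0 hCf using fun l => abs_beta_Fib_le (c l) (hc l)
  choose Cl hCl using fun l => hlow M ((c l).m * e)
  refine ⟨|C₀| + ∑ l ∈ Λ₀, (Cf l * ((M : ℝ) * (e : ℝ)) + |Cl l|), ?_⟩
  intro Z hZ hclZ hdZ E hE hdE hdisj
  have hsum_nonneg : ∀ l ∈ Λ₀, 0 ≤ Cf l * ((M : ℝ) * (e : ℝ)) + |Cl l| := fun l _ =>
    add_nonneg (mul_nonneg (hCf0 l) (by positivity)) (abs_nonneg _)
  rw [abs_le]
  constructor
  · have h1 := hC₀ Z hZ hclZ hdZ E hE hdE hdisj
    have h2 : 0 ≤ ∑ l ∈ Λ₀, (Cf l * ((M : ℝ) * (e : ℝ)) + |Cl l|) :=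
      Finset.sum_nonneg hsum_nonneg
    have h3 := neg_abs_le C₀
    linarith [le_abs_self C₀]
  · obtain ⟨l, hl, hτ⟩ := hΛ₀ Z E hdZ hdE hdisj
    have hle : E ≤ Fib (c l).fib E := le_Fib _ (c l).self_le E
    have hsplit : Fib (c l).fib E = E + (Fib (c l).fib E - E) := (add_tsub_cancel_of_le hle).symm
    have hE' : Fib (c l).fib E - E ∈ Rat := (hc l).compl_rat E hE
    have hdegE' : deg (Fib (c l).fib E - E) ≤ (c l).m * e := by
      have h1 : deg (Fib (c l).fib E) = deg E + deg (Fib (c l).fib E - E) := by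
        conv_lhs => rw [hsplit]
        exact deg_add _ _
      have h2 := (c l).deg_Fib E
      have h3 : (c l).m * deg E ≤ (c l).m * e := Nat.mul_le_mul_left _ hdE
      omega
    have hdisj' : Disjoint Z.support (Fib (c l).fib E - E).support := by
      rw [Finset.disjoint_left]
      intro p hpZ hpE'
      have hp : p ∈ (Fib (c l).fib E).support := by
        rw [Finsupp.mem_support_iff] at hpE' ⊢
        intro h0
        apply hpE'
        rw [Finsupp.tsub_apply, h0, Nat.zero_sub]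
      obtain ⟨q, hq, hpq⟩ := exists_of_mem_support_Fib _ _ hp
      exact hτ p hpZ q hq ((c l).τ_fib q p hpq)
    have hlow' := hCl l Z hZ hclZ hdZ _ hE' hdegE' hdisj'
    have hfib := hCf l Z hZ E hE hτ
    have hadd : beta g η Z (Fib (c l).fib E) =
        beta g η Z E + beta g η Z (Fib (c l).fib E - E) := by
      conv_lhs => rw [hsplit]
      exact beta_add_right g η Z E _
    have hfib' : beta g η Z (Fib (c l).fib E) ≤ Cf l * ((M : ℝ) * (e : ℝ)) := by
      refine (le_abs_self _).trans (hfib.trans ?_)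
      have hZM : (deg Z : ℝ) ≤ (M : ℝ) := by exact_mod_cast hdZ
      have hEe : (deg E : ℝ) ≤ (e : ℝ) := by exact_mod_cast hdE
      exact mul_le_mul_of_nonneg_left
        (mul_le_mul hZM hEe (Nat.cast_nonneg _) (Nat.cast_nonneg _)) (hCf0 l)
    have hterm : Cf l * ((M : ℝ) * (e : ℝ)) + |Cl l| ≤
        ∑ l ∈ Λ₀, (Cf l * ((M : ℝ) * (e : ℝ)) + |Cl l|) :=
      Finset.single_le_sum (f := fun l => Cf l * ((M : ℝ) * (e : ℝ)) + |Cl l|) hsum_nonneg hl
    linarith [le_abs_self (Cl l), abs_nonneg C₀]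

end Fermat.Agent.MW.HQ.RecFib
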