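/-
MW / HT-Q, row HQ-1 (helper90): the quasi-bilinear pairing `B` of a `PairingDatum`.

`B x y := β(D_x, E_{x,y})` for chosen representatives `D_x` of `x` and `E_{x,y}` of `y` disjoint
from `D_x`.  From `(Rep)` and `(Rec)`:

* `exists_inv_left`, `exists_inv_right` : `β(D, E)` depends on the classes of `D`, `E` only, up
  to a constant depending on the degree bounds;
* `exists_pairB_approx` : `B (cl D) (cl E) = β(D, E) + O_e(1)` for rational disjoint `D`, `E`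
  of degree `≤ e`;
* `exists_bilin` : `B` is additive in the first variable and symmetric, up to `O(1)`.
-/
import Mathlib
import Fermat.Agent.MW.HQ.Defs

set_option autoImplicit false

noncomputable section

namespace Fermat.Agent.MW.HQ

variable {J : Type*} [AddCommGroup J] {P : Type*}

namespace PairingDatum

variable (𝒟 : PairingDatum J P)

/-- **Invariance in the first variable**: `β(D₁, E) = β(D₂, E) + O(1)` for rational `D₁`, `D₂`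
of the same class and bounded degree, both disjoint from the rational `E`. -/
theorem exists_inv_left (e e' : ℕ) : ∃ C : ℝ, ∀ D₁ ∈ 𝒟.Rat, ∀ D₂ ∈ 𝒟.Rat, 𝒟.cl D₁ = 𝒟.cl D₂ →
    deg D₁ ≤ e → deg D₂ ≤ e → ∀ E ∈ 𝒟.Rat, deg E ≤ e' → Disjoint D₁.support E.support →
    Disjoint D₂.support E.support → |beta 𝒟.g 𝒟.η D₁ E - beta 𝒟.g 𝒟.η D₂ E| ≤ C := by
  classical
  obtain ⟨C, hC⟩ := 𝒟.recip (e + 𝒟.d₀) e'
  refine ⟨2 * C, fun D₁ h₁ D₂ h₂ hcl hd₁ hd₂ E hE hdE hdis₁ hdis₂ => ?_⟩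
  obtain ⟨R, hR, hclR, hdR, hdisR⟩ := 𝒟.rep (-𝒟.cl D₁) E.support
  have key : ∀ D ∈ 𝒟.Rat, 𝒟.cl D = 𝒟.cl D₁ → deg D ≤ e → Disjoint D.support E.support →
      |beta 𝒟.g 𝒟.η D E + beta 𝒟.g 𝒟.η R E| ≤ C := by
    intro D hD hclD hdD hdis
    rw [← beta_add_left]
    refine hC (D + R) (𝒟.Rat.add_mem hD hR) ?_ ?_ E hE hdE ?_
    · rw [map_add, hclD, hclR, add_neg_cancel]
    · rw [deg_add]
      omega
    · exact Finset.disjoint_of_subset_left Finsupp.support_add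
        (Finset.disjoint_union_left.2 ⟨hdis, hdisR⟩)
  have k1 := key D₁ h₁ rfl hd₁ hdis₁
  have k2 := key D₂ h₂ hcl.symm hd₂ hdis₂
  rw [abs_le] at k1 k2 ⊢
  constructor <;> linarith [k1.1, k1.2, k2.1, k2.2]

/-- **Invariance in the second variable.** -/
theorem exists_inv_right (e e' : ℕ) : ∃ C : ℝ, ∀ D ∈ 𝒟.Rat, deg D ≤ e → ∀ E₁ ∈ 𝒟.Rat,
    ∀ E₂ ∈ 𝒟.Rat, 𝒟.cl E₁ = 𝒟.cl E₂ → deg E₁ ≤ e' → deg E₂ ≤ e' →
    Disjoint D.support E₁.support → Disjoint D.support E₂.support →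
    |beta 𝒟.g 𝒟.η D E₁ - beta 𝒟.g 𝒟.η D E₂| ≤ C := by
  obtain ⟨C, hC⟩ := 𝒟.exists_inv_left e' e
  refine ⟨C, fun D hD hdD E₁ h₁ E₂ h₂ hcl hd₁ hd₂ hdis₁ hdis₂ => ?_⟩
  rw [beta_symm 𝒟.g_symm 𝒟.η D E₁, beta_symm 𝒟.g_symm 𝒟.η D E₂]
  exact hC E₁ h₁ E₂ h₂ hcl hd₁ hd₂ D hD hdD hdis₁.symm hdis₂.symm

/-- The chosen representative of `x`. -/
def repD (x : J) : P →₀ ℕ := Classical.choose (𝒟.rep x ∅)

theorem repD_mem (x : J) : 𝒟.repD x ∈ 𝒟.Rat := (Classical.choose_spec (𝒟.rep x ∅)).1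

theorem cl_repD (x : J) : 𝒟.cl (𝒟.repD x) = x := (Classical.choose_spec (𝒟.rep x ∅)).2.1

theorem deg_repD (x : J) : deg (𝒟.repD x) ≤ 𝒟.d₀ := (Classical.choose_spec (𝒟.rep x ∅)).2.2.1

/-- The chosen representative of `y` disjoint from `repD x`. -/
def repE (x y : J) : P →₀ ℕ := Classical.choose (𝒟.rep y (𝒟.repD x).support)

theorem repE_mem (x y : J) : 𝒟.repE x y ∈ 𝒟.Rat :=
  (Classical.choose_spec (𝒟.rep y (𝒟.repD x).support)).1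

theorem cl_repE (x y : J) : 𝒟.cl (𝒟.repE x y) = y :=
  (Classical.choose_spec (𝒟.rep y (𝒟.repD x).support)).2.1

theorem deg_repE (x y : J) : deg (𝒟.repE x y) ≤ 𝒟.d₀ :=
  (Classical.choose_spec (𝒟.rep y (𝒟.repD x).support)).2.2.1

theorem disjoint_repE (x y : J) : Disjoint (𝒟.repD x).support (𝒟.repE x y).support :=
  (Classical.choose_spec (𝒟.rep y (𝒟.repD x).support)).2.2.2.symm

/-- **The quasi-bilinear pairing.** -/
def pairB (x y : J) : ℝ := beta 𝒟.g 𝒟.η (𝒟.repD x) (𝒟.repE x y)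

/-- `B (cl D) (cl E) = β(D, E) + O_e(1)` for rational disjoint `D`, `E` of degree `≤ e`. -/
theorem exists_pairB_approx (e : ℕ) : ∃ C : ℝ, ∀ D ∈ 𝒟.Rat, ∀ E ∈ 𝒟.Rat, deg D ≤ e →
    deg E ≤ e → Disjoint D.support E.support →
    |𝒟.pairB (𝒟.cl D) (𝒟.cl E) - beta 𝒟.g 𝒟.η D E| ≤ C := by
  classical
  obtain ⟨C₁, hC₁⟩ := 𝒟.exists_inv_left (max e 𝒟.d₀) e
  obtain ⟨C₂, hC₂⟩ := 𝒟.exists_inv_right 𝒟.d₀ (max e 𝒟.d₀)
  obtain ⟨C₃, hC₃⟩ := 𝒟.exists_inv_left 𝒟.d₀ 𝒟.d₀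
  refine ⟨C₁ + C₂ + C₃, fun D hD E hE hdD hdE hdis => ?_⟩
  set x := 𝒟.cl D with hx
  set y := 𝒟.cl E with hy
  obtain ⟨D₃, hD₃, hclD₃, hdD₃, hdisD₃⟩ := 𝒟.rep x (E.support ∪ (𝒟.repE x y).support)
  rw [Finset.disjoint_union_right] at hdisD₃
  -- `β(D, E) ≈ β(D₃, E)`
  have h1 := hC₁ D hD D₃ hD₃ (by rw [hclD₃]) (le_trans hdD (le_max_left _ _))
    (le_trans hdD₃ (le_max_right _ _)) E hE hdE hdis hdisD₃.1
  -- `β(D₃, E) ≈ β(D₃, E_{x,y})`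
  have h2 := hC₂ D₃ hD₃ hdD₃ E hE (𝒟.repE x y) (𝒟.repE_mem x y) (by rw [𝒟.cl_repE])
    (le_trans hdE (le_max_left _ _)) (le_trans (𝒟.deg_repE x y) (le_max_right _ _))
    hdisD₃.1 hdisD₃.2
  -- `β(D₃, E_{x,y}) ≈ β(D_x, E_{x,y})`
  have h3 := hC₃ D₃ hD₃ (𝒟.repD x) (𝒟.repD_mem x) (by rw [hclD₃, 𝒟.cl_repD]) hdD₃
    (𝒟.deg_repD x) (𝒟.repE x y) (𝒟.repE_mem x y) (𝒟.deg_repE x y) hdisD₃.2
    (𝒟.disjoint_repE x y)
  unfold pairB
  rw [abs_le] at h1 h2 h3 ⊢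
  constructor <;> linarith [h1.1, h1.2, h2.1, h2.2, h3.1, h3.2]

/-- **HQ-1.**  The quasi-bilinear pairing of a `PairingDatum`: additive in the first variable
and symmetric up to `O(1)`, and computed by `β` on rational disjoint representatives. -/
theorem exists_bilin (𝒟 : PairingDatum J P) :
    ∃ B : J → J → ℝ,
      (∃ C : ℝ, ∀ x x' y, |B (x + x') y - B x y - B x' y| ≤ C) ∧
      (∃ C : ℝ, ∀ x y, |B x y - B y x| ≤ C) ∧
      (∀ e : ℕ, ∃ C : ℝ, ∀ D ∈ 𝒟.Rat, ∀ E ∈ 𝒟.Rat, deg D ≤ e → deg E ≤ e →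
        Disjoint D.support E.support → |B (𝒟.cl D) (𝒟.cl E) - beta 𝒟.g 𝒟.η D E| ≤ C) := by
  classical
  refine ⟨𝒟.pairB, ?_, ?_, 𝒟.exists_pairB_approx⟩
  · -- additivity in the first variable
    obtain ⟨C, hC⟩ := 𝒟.exists_pairB_approx (2 * 𝒟.d₀)
    refine ⟨3 * C, fun x x' y => ?_⟩
    obtain ⟨E, hE, hclE, hdE, -⟩ := 𝒟.rep y ∅
    obtain ⟨D, hD, hclD, hdD, hdisD⟩ := 𝒟.rep x E.support
    obtain ⟨D', hD', hclD', hdD', hdisD'⟩ := 𝒟.rep x' E.support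
    have h1 := hC (D + D') (𝒟.Rat.add_mem hD hD') E hE (by rw [deg_add]; omega) (by omega)
      (Finset.disjoint_of_subset_left Finsupp.support_add
        (Finset.disjoint_union_left.2 ⟨hdisD, hdisD'⟩))
    have h2 := hC D hD E hE (by omega) (by omega) hdisD
    have h3 := hC D' hD' E hE (by omega) (by omega) hdisD'
    rw [map_add, hclD, hclD', hclE, beta_add_left] at h1
    rw [hclD, hclE] at h2
    rw [hclD', hclE] at h3
    rw [abs_le] at h1 h2 h3 ⊢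
    constructor <;> linarith [h1.1, h1.2, h2.1, h2.2, h3.1, h3.2]
  · -- symmetry
    obtain ⟨C, hC⟩ := 𝒟.exists_pairB_approx 𝒟.d₀
    refine ⟨2 * C, fun x y => ?_⟩
    obtain ⟨D, hD, hclD, hdD, -⟩ := 𝒟.rep x ∅
    obtain ⟨E, hE, hclE, hdE, hdisE⟩ := 𝒟.rep y D.support
    have h1 := hC D hD E hE hdD hdE hdisE.symm
    have h2 := hC E hE D hD hdE hdD hdisE
    rw [hclD, hclE] at h1 h2
    rw [beta_symm 𝒟.g_symm 𝒟.η E D] at h2
    rw [abs_le] at h1 h2 ⊢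
    constructor <;> linarith [h1.1, h1.2, h2.1, h2.2]

end PairingDatum

end Fermat.Agent.MW.HQ
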