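/-
MW / HT-Q, helper84 — **the discriminant formula (Disc) and positivity (Pos)** (abstract,
Mathlib-only; continuation of `RecFib.lean`).

For a good coordinate `c` (`RecFib.Coord.IsGood`) with ramification data (`IsRam`: the rational
ramification divisor `ram` off the base point, the local comparison `ramPt` at unramified points,
and exactness of discriminants on the line `exactDisc`), uniform reciprocity `recip` gives, for
every rational REDUCED divisor `Z` of class `0` on which `τ` is injective and unramified,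

  `pairG g Z Z = (2 deg Z − 2 m + deg ram + ρ) · ht η Z + O(1)`        (`disc_of_coord`).

With Riemann–Hurwitz `deg ram + ρ = 2 m + 2 γ − 2` this is `(2 deg Z + 2γ − 2) · ht η Z + O(1)`
(`disc_of_fibre`, for a family of coordinates).  Together with the two Hadamard bounds (HadK),
(HadR) it gives the field `pos` of `HQ.HeightDatum` (`pos_of_disc`).
-/
import Mathlib
import Fermat.Agent.MW.HQ.RecFib

set_option autoImplicit false

noncomputable section

namespace Fermat.Agent.MW.HQ.DiscFib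

open Fermat.Agent.MW.HQ Fermat.Agent.MW.HQ.RecFib

variable {P : Type*} {K : Type*}

/-! ### Reduced divisors -/

theorem eq_one_of_mem_support {Z : P →₀ ℕ} (hred : ∀ p, Z p ≤ 1) {p : P} (hp : p ∈ Z.support) :
    Z p = 1 :=
  le_antisymm (hred p) (Nat.one_le_iff_ne_zero.2 (Finsupp.mem_support_iff.1 hp))

theorem cast_deg_of_reduced {Z : P →₀ ℕ} (hred : ∀ p, Z p ≤ 1) :
    (deg Z : ℝ) = (Z.support.card : ℝ) := by
  rw [cast_deg_eq_sum, Finset.sum_congr rfl fun p hp => by rw [eq_one_of_mem_support hred hp]]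
  simp

theorem ht_of_reduced (η : P → ℝ) {Z : P →₀ ℕ} (hred : ∀ p, Z p ≤ 1) :
    ht η Z = ∑ p ∈ Z.support, η p := by
  rw [ht_eq_sum]
  exact Finset.sum_congr rfl fun p hp => by rw [eq_one_of_mem_support hred hp]; simp

theorem pairG_of_reduced (g : P → P → ℝ) {Z : P →₀ ℕ} (hred : ∀ p, Z p ≤ 1) (D : P →₀ ℕ) :
    pairG g Z D = ∑ p ∈ Z.support, D.sum fun q n => (n : ℝ) * g p q := by
  rw [pairG_eq_sum]
  refine Finset.sum_congr rfl fun p hp => ?_
  unfold Finsupp.sum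
  exact Finset.sum_congr rfl fun q _ => by rw [eq_one_of_mem_support hred hp]; simp

/-! ### The height of a fibre divisor -/

theorem abs_ht_Fib_sub_le (c : Coord P K) {η : P → ℝ} {ηL : K → ℝ} {C₂ : ℝ}
    (hC₂ : ∀ p, |ηL (c.τ p) - (c.m : ℝ) * η p| ≤ C₂) (E : P →₀ ℕ) :
    |ht η (Fib c.fib E) - (c.m : ℝ) * ht η E| ≤ 2 * C₂ * (c.m : ℝ) * (deg E : ℝ) := by
  have hB1 : ∀ q, |ht η (c.fib q) - (c.m : ℝ) * η q| ≤ 2 * C₂ * (c.m : ℝ) := by
    intro q
    have hm : ((c.m : ℕ) : ℝ) = ∑ q' ∈ (c.fib q).support, (c.fib q q' : ℝ) := by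
      rw [← c.deg_fib q, cast_deg_eq_sum]
    have h1 : ht η (c.fib q) - (c.m : ℝ) * η q =
        ∑ q' ∈ (c.fib q).support, (c.fib q q' : ℝ) * (η q' - η q) := by
      rw [ht_eq_sum, hm, Finset.sum_mul, ← Finset.sum_sub_distrib]
      exact Finset.sum_congr rfl fun _ _ => by ring
    rw [h1]
    have h2 : ∀ q' ∈ (c.fib q).support, |η q' - η q| ≤ 2 * C₂ := by
      intro q' hq'
      have e1 := hC₂ q'
      have e2 := hC₂ q
      rw [c.τ_fib q q' hq'] at e1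
      have hm1 : (1 : ℝ) ≤ (c.m : ℝ) := by exact_mod_cast c.m_pos q
      have e3 : (c.m : ℝ) * |η q' - η q| ≤ 2 * C₂ := by
        rw [← abs_of_nonneg (by linarith : (0 : ℝ) ≤ (c.m : ℝ)), ← abs_mul]
        have : (c.m : ℝ) * (η q' - η q) =
            (ηL (c.τ q) - (c.m : ℝ) * η q) - (ηL (c.τ q) - (c.m : ℝ) * η q') := by ring
        rw [this]
        exact (abs_sub _ _).trans (by linarith)
      nlinarith [abs_nonneg (η q' - η q)]
    have h3 := abs_sum_mul_le (c.fib q).support (fun q' => c.fib q q') (fun q' => η q' - η q)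
      (2 * C₂) h2
    rw [← hm] at h3
    exact h3
  have h1 : ht η (Fib c.fib E) - (c.m : ℝ) * ht η E =
      ∑ q ∈ E.support, (E q : ℝ) * (ht η (c.fib q) - (c.m : ℝ) * η q) := by
    rw [ht_Fib, ht_eq_sum, Finset.mul_sum, ← Finset.sum_sub_distrib]
    exact Finset.sum_congr rfl fun _ _ => by ring
  rw [h1, cast_deg_eq_sum]
  exact abs_sum_mul_le E.support (fun q => E q) _ _ fun q _ => hB1 q

/-! ### Ramification data -/

/-- Ramification data of a coordinate: `ram` is the ramification divisor of `t` off the base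
point, `ρ` the coefficient of the base point (`m − 1` for a totally ramified pole) in the height
normalisation of `η`. -/
structure IsRam (c : Coord P K) (g : P → P → ℝ) (η : P → ℝ) (gL : K → K → ℝ) (ηL : K → ℝ)
    (Rat : AddSubmonoid (P →₀ ℕ)) (ram : P →₀ ℕ) (ρ : ℝ) : Prop where
  ram_rat : ram ∈ Rat
  ramPt : ∃ C : ℝ, ∀ p, c.fib p p = 1 → p ∉ ram.support →
    |(c.fib p).sum (fun q' n => (n : ℝ) * g p q') -
      (ram.sum (fun q' n => (n : ℝ) * g p q') + ρ * η p)| ≤ C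
  exactDisc : ∀ Z ∈ Rat, (∀ p, Z p ≤ 1) → Set.InjOn c.τ (Z.support : Set P) →
    ∑ p ∈ Z.support, (∑ q ∈ Z.support, gL (c.τ p) (c.τ q) - gL (c.τ p) (c.τ p)) =
      2 * ((deg Z : ℝ) - 1) * ∑ p ∈ Z.support, ηL (c.τ p)

/-- **(Disc) for one coordinate.** -/
theorem disc_of_coord {J : Type*} [AddCommGroup J] (cl : (P →₀ ℕ) →+ J) (c : Coord P K)
    {g : P → P → ℝ} {η : P → ℝ} {gL : K → K → ℝ} {ηL : K → ℝ} {Rat : AddSubmonoid (P →₀ ℕ)}
    (hc : c.IsGood g η gL ηL Rat) {ram : P →₀ ℕ} {ρ : ℝ} (hr : IsRam c g η gL ηL Rat ram ρ)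
    (hrec : ∀ M e : ℕ, ∃ C : ℝ, ∀ Z ∈ Rat, cl Z = 0 → deg Z ≤ M → ∀ E ∈ Rat, deg E ≤ e →
      Disjoint Z.support E.support → |beta g η Z E| ≤ C) (M : ℕ) :
    ∃ C : ℝ, ∀ Z ∈ Rat, cl Z = 0 → deg Z ≤ M → (∀ p, Z p ≤ 1) →
      Set.InjOn c.τ (Z.support : Set P) → (∀ p ∈ Z.support, c.fib p p = 1) →
      Disjoint Z.support ram.support →
      |pairG g Z Z - (2 * (deg Z : ℝ) - 2 * (c.m : ℝ) + (deg ram : ℝ) + ρ) * ht η Z| ≤ C := by
  classical
  obtain ⟨C₁, hC₁⟩ := hc.fibPt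
  obtain ⟨C₂, hC₂⟩ := hc.htCmp
  obtain ⟨C₃, hC₃⟩ := hr.ramPt
  obtain ⟨C₄, hC₄⟩ := hrec M (deg ram)
  obtain ⟨C₅, hC₅⟩ := hrec M (c.m * M)
  have hC₂' : ∀ p, |ηL (c.τ p) - (c.m : ℝ) * η p| ≤ |C₂| := fun p =>
    (hC₂ p).trans (le_abs_self _)
  refine ⟨2 * ((M : ℝ) + 1) * (|C₂| * (M : ℝ)) + (M : ℝ) * |ht η ram| + |C₄| +
    ((M : ℝ) * |C₃| + (M : ℝ) * ((M : ℝ) * |C₁|)) +
    (M : ℝ) * (2 * |C₂| * (c.m : ℝ) * (M : ℝ)) + |C₅|, ?_⟩
  intro Z hZ hclZ hdZ hred hinj hunr hdram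
  have hZ1 : ∀ p ∈ Z.support, Z p = 1 := fun p hp => eq_one_of_mem_support hred hp
  have ha0 : (0 : ℝ) ≤ (deg Z : ℝ) := Nat.cast_nonneg _
  have haM : (deg Z : ℝ) ≤ (M : ℝ) := by exact_mod_cast hdZ
  have hcard : (deg Z : ℝ) = (Z.support.card : ℝ) := cast_deg_of_reduced hred
  -- the complement of `Z` in its fibre divisor
  have hle : Z ≤ Fib c.fib Z := le_Fib _ c.self_le Z
  have hsplit : Fib c.fib Z = Z + (Fib c.fib Z - Z) := (add_tsub_cancel_of_le hle).symm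
  have hZ' : Fib c.fib Z - Z ∈ Rat := hc.compl_rat Z hZ
  have hdegN : deg (Fib c.fib Z) = deg Z + deg (Fib c.fib Z - Z) := by
    conv_lhs => rw [hsplit]
    exact deg_add _ _
  have hdegF := c.deg_Fib Z
  have hdegZ' : deg (Fib c.fib Z - Z) ≤ c.m * M := by
    have h3 : c.m * deg Z ≤ c.m * M := Nat.mul_le_mul_left _ hdZ
    omega
  have hdegZ'r : (deg (Fib c.fib Z - Z) : ℝ) = (c.m : ℝ) * (deg Z : ℝ) - (deg Z : ℝ) := by
    have h4 : (deg (Fib c.fib Z) : ℝ) = (deg Z : ℝ) + (deg (Fib c.fib Z - Z) : ℝ) := by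
      exact_mod_cast hdegN
    have h5 : (deg (Fib c.fib Z) : ℝ) = (c.m : ℝ) * (deg Z : ℝ) := by exact_mod_cast hdegF
    linarith
  have hdisj' : Disjoint Z.support (Fib c.fib Z - Z).support := by
    rw [Finset.disjoint_left]
    intro p hpZ hpZ'
    rw [Finsupp.mem_support_iff, Finsupp.tsub_apply] at hpZ'
    apply hpZ'
    have h6 : Fib c.fib Z p = 1 := by
      rw [Fib_apply, Finset.sum_eq_single_of_mem p hpZ, hZ1 p hpZ, hunr p hpZ]
      intro q hq hqp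
      have h7 : c.fib q p = 0 := by
        by_contra hne
        exact hqp (hinj hq hpZ (c.τ_fib q p (Finsupp.mem_support_iff.2 hne)).symm)
      rw [h7, mul_zero]
    rw [h6, hZ1 p hpZ]
    rfl
  have hβ₅ := hC₅ Z hZ hclZ hdZ _ hZ' hdegZ' hdisj'
  have hβ₄ := hC₄ Z hZ hclZ hdZ ram hr.ram_rat le_rfl hdram
  have hhtsplit : ht η (Fib c.fib Z) = ht η Z + ht η (Fib c.fib Z - Z) := by
    conv_lhs => rw [hsplit]
    exact ht_add η _ _
  have hpsplit : pairG g Z (Fib c.fib Z) = pairG g Z Z + pairG g Z (Fib c.fib Z - Z) := by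
    conv_lhs => rw [hsplit]
    exact pairG_add_right g Z Z _
  have hX₁ := abs_ht_Fib_sub_le c hC₂' Z (η := η)
  -- the height on the line
  have hX₂ : |∑ p ∈ Z.support, ηL (c.τ p) - (c.m : ℝ) * ht η Z| ≤ |C₂| * (deg Z : ℝ) := by
    have h1 : ∑ p ∈ Z.support, ηL (c.τ p) - (c.m : ℝ) * ht η Z =
        ∑ p ∈ Z.support, (ηL (c.τ p) - (c.m : ℝ) * η p) := by
      rw [ht_of_reduced η hred, Finset.mul_sum, ← Finset.sum_sub_distrib]
    rw [h1, hcard]
    calc |∑ p ∈ Z.support, (ηL (c.τ p) - (c.m : ℝ) * η p)|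
        ≤ ∑ p ∈ Z.support, |ηL (c.τ p) - (c.m : ℝ) * η p| := Finset.abs_sum_le_sum_abs _ _
      _ ≤ ∑ _p ∈ Z.support, |C₂| := Finset.sum_le_sum fun p _ => hC₂' p
      _ = |C₂| * (Z.support.card : ℝ) := by rw [Finset.sum_const, nsmul_eq_mul, mul_comm]
  -- the pair function against the fibre divisor
  have hpF : pairG g Z (Fib c.fib Z) =
      ∑ p ∈ Z.support, ∑ q ∈ Z.support, (c.fib q).sum fun q' n => (n : ℝ) * g p q' := by
    rw [pairG_Fib, Finset.sum_comm]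
    refine Finset.sum_congr rfl fun q hq => ?_
    rw [hZ1 q hq, Nat.cast_one, one_mul, pairG_of_reduced g hred]
  have hpr : pairG g Z ram = ∑ p ∈ Z.support, ram.sum fun q' n => (n : ℝ) * g p q' :=
    pairG_of_reduced g hred ram
  have hXA : |pairG g Z (Fib c.fib Z) -
      (2 * ((deg Z : ℝ) - 1) * ∑ p ∈ Z.support, ηL (c.τ p) + pairG g Z ram + ρ * ht η Z)| ≤
      (deg Z : ℝ) * |C₃| + (deg Z : ℝ) * ((deg Z : ℝ) * |C₁|) := by
    rw [← hr.exactDisc Z hZ hred hinj, hpF, hpr, ht_of_reduced η hred, Finset.mul_sum,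
      ← Finset.sum_add_distrib, ← Finset.sum_add_distrib, ← Finset.sum_sub_distrib]
    have hterm : ∀ p ∈ Z.support,
        |(∑ q ∈ Z.support, (c.fib q).sum fun q' n => (n : ℝ) * g p q') -
          ((∑ q ∈ Z.support, gL (c.τ p) (c.τ q) - gL (c.τ p) (c.τ p)) +
            (ram.sum fun q' n => (n : ℝ) * g p q') + ρ * η p)| ≤
        |C₃| + (deg Z : ℝ) * |C₁| := by
      intro p hp
      rw [← Finset.add_sum_erase Z.support
          (fun q => (c.fib q).sum fun q' n => (n : ℝ) * g p q') hp,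
        ← Finset.add_sum_erase Z.support (fun q => gL (c.τ p) (c.τ q)) hp]
      have e1 : ((c.fib p).sum (fun q' n => (n : ℝ) * g p q') +
            ∑ q ∈ Z.support.erase p, (c.fib q).sum fun q' n => (n : ℝ) * g p q') -
          ((gL (c.τ p) (c.τ p) + ∑ q ∈ Z.support.erase p, gL (c.τ p) (c.τ q) -
              gL (c.τ p) (c.τ p)) +
            (ram.sum fun q' n => (n : ℝ) * g p q') + ρ * η p) =
          ((c.fib p).sum (fun q' n => (n : ℝ) * g p q') -
            ((ram.sum fun q' n => (n : ℝ) * g p q') + ρ * η p)) +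
          ∑ q ∈ Z.support.erase p,
            (((c.fib q).sum fun q' n => (n : ℝ) * g p q') - gL (c.τ p) (c.τ q)) := by
        rw [Finset.sum_sub_distrib]; ring
      rw [e1]
      refine (abs_add_le _ _).trans (add_le_add ?_ ?_)
      · exact (hC₃ p (hunr p hp) (fun h => Finset.disjoint_left.1 hdram hp h)).trans
          (le_abs_self _)
      · calc |∑ q ∈ Z.support.erase p,
              (((c.fib q).sum fun q' n => (n : ℝ) * g p q') - gL (c.τ p) (c.τ q))|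
            ≤ ∑ q ∈ Z.support.erase p,
              |((c.fib q).sum fun q' n => (n : ℝ) * g p q') - gL (c.τ p) (c.τ q)| :=
              Finset.abs_sum_le_sum_abs _ _
          _ ≤ ∑ _q ∈ Z.support.erase p, |C₁| := Finset.sum_le_sum fun q hq => by
              have hq' := Finset.mem_erase.1 hq
              exact (hC₁ p q fun h => hq'.1 (hinj hq'.2 hp h.symm)).trans (le_abs_self _)
          _ = ((Z.support.erase p).card : ℝ) * |C₁| := by rw [Finset.sum_const, nsmul_eq_mul]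
          _ ≤ (deg Z : ℝ) * |C₁| := by
              rw [hcard]
              exact mul_le_mul_of_nonneg_right
                (by exact_mod_cast Finset.card_le_card (Finset.erase_subset p Z.support))
                (abs_nonneg _)
    refine (Finset.abs_sum_le_sum_abs _ _).trans ((Finset.sum_le_sum hterm).trans ?_)
    rw [Finset.sum_const, nsmul_eq_mul, ← hcard]
    exact le_of_eq (by ring)
  -- assemble
  have key : pairG g Z Z - (2 * (deg Z : ℝ) - 2 * (c.m : ℝ) + (deg ram : ℝ) + ρ) * ht η Z =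
      2 * ((deg Z : ℝ) - 1) * (∑ p ∈ Z.support, ηL (c.τ p) - (c.m : ℝ) * ht η Z)
      + (deg Z : ℝ) * ht η ram - beta g η Z ram
      + (pairG g Z (Fib c.fib Z) -
          (2 * ((deg Z : ℝ) - 1) * ∑ p ∈ Z.support, ηL (c.τ p) + pairG g Z ram + ρ * ht η Z))
      - (deg Z : ℝ) * (ht η (Fib c.fib Z) - (c.m : ℝ) * ht η Z)
      + beta g η Z (Fib c.fib Z - Z) := by
    unfold beta
    rw [hdegZ'r, hpsplit, hhtsplit]
    ring
  rw [key]
  have t1 : |2 * ((deg Z : ℝ) - 1) * (∑ p ∈ Z.support, ηL (c.τ p) - (c.m : ℝ) * ht η Z)| ≤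
      2 * ((M : ℝ) + 1) * (|C₂| * (M : ℝ)) := by
    rw [abs_mul, abs_mul, abs_two]
    have h1 : |(deg Z : ℝ) - 1| ≤ (M : ℝ) + 1 := by
      rw [abs_le]; constructor <;> linarith
    have h2 : |∑ p ∈ Z.support, ηL (c.τ p) - (c.m : ℝ) * ht η Z| ≤ |C₂| * (M : ℝ) :=
      hX₂.trans (mul_le_mul_of_nonneg_left haM (abs_nonneg _))
    have h3 : (0 : ℝ) ≤ (M : ℝ) + 1 := by positivity
    exact mul_le_mul (by linarith) h2 (abs_nonneg _) (by linarith)
  have t2 : |(deg Z : ℝ) * ht η ram| ≤ (M : ℝ) * |ht η ram| := by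
    rw [abs_mul, abs_of_nonneg ha0]
    exact mul_le_mul_of_nonneg_right haM (abs_nonneg _)
  have t3 : |beta g η Z ram| ≤ |C₄| := hβ₄.trans (le_abs_self _)
  have t4 : |pairG g Z (Fib c.fib Z) -
      (2 * ((deg Z : ℝ) - 1) * ∑ p ∈ Z.support, ηL (c.τ p) + pairG g Z ram + ρ * ht η Z)| ≤
      (M : ℝ) * |C₃| + (M : ℝ) * ((M : ℝ) * |C₁|) := by
    refine hXA.trans (add_le_add (mul_le_mul_of_nonneg_right haM (abs_nonneg _)) ?_)
    exact mul_le_mul haM (mul_le_mul_of_nonneg_right haM (abs_nonneg _))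
      (mul_nonneg ha0 (abs_nonneg _)) (by positivity)
  have t5 : |(deg Z : ℝ) * (ht η (Fib c.fib Z) - (c.m : ℝ) * ht η Z)| ≤
      (M : ℝ) * (2 * |C₂| * (c.m : ℝ) * (M : ℝ)) := by
    rw [abs_mul, abs_of_nonneg ha0]
    have h1 : |ht η (Fib c.fib Z) - (c.m : ℝ) * ht η Z| ≤ 2 * |C₂| * (c.m : ℝ) * (M : ℝ) :=
      hX₁.trans (mul_le_mul_of_nonneg_left haM (by positivity))
    exact mul_le_mul haM h1 (abs_nonneg _) (by positivity)
  have t6 : |beta g η Z (Fib c.fib Z - Z)| ≤ |C₅| := hβ₅.trans (le_abs_self _)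
  calc |2 * ((deg Z : ℝ) - 1) * (∑ p ∈ Z.support, ηL (c.τ p) - (c.m : ℝ) * ht η Z)
        + (deg Z : ℝ) * ht η ram - beta g η Z ram
        + (pairG g Z (Fib c.fib Z) -
            (2 * ((deg Z : ℝ) - 1) * ∑ p ∈ Z.support, ηL (c.τ p) + pairG g Z ram + ρ * ht η Z))
        - (deg Z : ℝ) * (ht η (Fib c.fib Z) - (c.m : ℝ) * ht η Z)
        + beta g η Z (Fib c.fib Z - Z)|
      ≤ |2 * ((deg Z : ℝ) - 1) * (∑ p ∈ Z.support, ηL (c.τ p) - (c.m : ℝ) * ht η Z)|
        + |(deg Z : ℝ) * ht η ram| + |beta g η Z ram|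
        + |pairG g Z (Fib c.fib Z) -
            (2 * ((deg Z : ℝ) - 1) * ∑ p ∈ Z.support, ηL (c.τ p) + pairG g Z ram + ρ * ht η Z)|
        + |(deg Z : ℝ) * (ht η (Fib c.fib Z) - (c.m : ℝ) * ht η Z)|
        + |beta g η Z (Fib c.fib Z - Z)| := by
        refine (abs_add_le _ _).trans (add_le_add_left ?_ _)
        refine (abs_sub _ _).trans (add_le_add_left ?_ _)
        refine (abs_add_le _ _).trans (add_le_add_left ?_ _)
        refine (abs_sub _ _).trans (add_le_add_left ?_ _)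
        exact abs_add_le _ _
    _ ≤ _ := by linarith

/-- **(Disc) for a family of coordinates**, with Riemann–Hurwitz `deg ram + ρ = 2m + 2γ − 2`:
every rational reduced divisor `Z` of class `0` and bounded degree which is generic for one of
finitely many coordinates satisfies `pairG g Z Z = (2 deg Z + 2γ − 2) · ht η Z + O(1)`. -/
theorem disc_of_fibre {J : Type*} [AddCommGroup J] (cl : (P →₀ ℕ) →+ J) {g : P → P → ℝ}
    {η : P → ℝ} {gL : K → K → ℝ} {ηL : K → ℝ} {Rat : AddSubmonoid (P →₀ ℕ)}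
    {Λ : Type*} (c : Λ → Coord P K) (hc : ∀ l, (c l).IsGood g η gL ηL Rat)
    (ram : Λ → P →₀ ℕ) (ρ : Λ → ℝ) (hr : ∀ l, IsRam (c l) g η gL ηL Rat (ram l) (ρ l))
    (γ : ℕ) (hRH : ∀ l, (deg (ram l) : ℝ) + ρ l = 2 * ((c l).m : ℝ) + 2 * (γ : ℝ) - 2)
    (hgen : ∀ M : ℕ, ∃ Λ₀ : Finset Λ, ∀ Z : P →₀ ℕ, deg Z ≤ M → (∀ p, Z p ≤ 1) →
      ∃ l ∈ Λ₀, Set.InjOn (c l).τ (Z.support : Set P) ∧
        (∀ p ∈ Z.support, (c l).fib p p = 1) ∧ Disjoint Z.support (ram l).support)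
    (hrec : ∀ M e : ℕ, ∃ C : ℝ, ∀ Z ∈ Rat, cl Z = 0 → deg Z ≤ M → ∀ E ∈ Rat, deg E ≤ e →
      Disjoint Z.support E.support → |beta g η Z E| ≤ C) (M : ℕ) :
    ∃ C : ℝ, ∀ Z ∈ Rat, cl Z = 0 → deg Z ≤ M → (∀ p, Z p ≤ 1) →
      |pairG g Z Z - (2 * (deg Z : ℝ) + 2 * (γ : ℝ) - 2) * ht η Z| ≤ C := by
  classical
  obtain ⟨Λ₀, hΛ₀⟩ := hgen M
  choose Cd hCd using fun l => disc_of_coord cl (c l) (hc l) (hr l) hrec M
  refine ⟨∑ l ∈ Λ₀, |Cd l|, ?_⟩
  intro Z hZ hclZ hdZ hred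
  obtain ⟨l, hl, hinj, hunr, hdram⟩ := hΛ₀ Z hdZ hred
  have h := hCd l Z hZ hclZ hdZ hred hinj hunr hdram
  have hcoef : 2 * (deg Z : ℝ) - 2 * ((c l).m : ℝ) + (deg (ram l) : ℝ) + ρ l =
      2 * (deg Z : ℝ) + 2 * (γ : ℝ) - 2 := by
    have := hRH l
    linarith
  rw [hcoef] at h
  exact h.trans ((le_abs_self _).trans
    (Finset.single_le_sum (f := fun l => |Cd l|) (fun _ _ => abs_nonneg _) hl))

/-! ### Positivity -/

/-- **(Pos) from (Disc) and the two Hadamard bounds.**  `Good E` are the good divisors (degree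
`γ`); for each of them `hex` provides a rational `R` with `E + R` reduced of class `0` (the zero
divisor of a generic function vanishing on `E`); `hK` is the canonical-determinant bound for `E`
and `hR` the Plücker bound for the residual divisor `R`.  The conclusion is the field `pos` of
`HQ.HeightDatum`. -/
theorem pos_of_disc {J : Type*} [AddCommGroup J] (cl : (P →₀ ℕ) →+ J) {g : P → P → ℝ}
    {η : P → ℝ} {Rat : AddSubmonoid (P →₀ ℕ)} (Good : (P →₀ ℕ) → Prop) (γ d₁ : ℕ)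
    (hsymm : ∀ p q, g p q = g q p)
    (hgood_rat : ∀ E, Good E → E ∈ Rat) (hgood_deg : ∀ E, Good E → deg E = γ)
    (hdisc : ∀ M : ℕ, ∃ C : ℝ, ∀ Z ∈ Rat, cl Z = 0 → deg Z ≤ M → (∀ p, Z p ≤ 1) →
      (2 * (deg Z : ℝ) + 2 * (γ : ℝ) - 2) * ht η Z - C ≤ pairG g Z Z)
    (hK : ∃ C : ℝ, ∀ E, Good E → pairG g E E ≤ 2 * (2 * (γ : ℝ) - 1) * ht η E + C)
    (hR : ∃ C : ℝ, ∀ E R, Good E → R ∈ Rat → cl (E + R) = 0 → deg R ≤ d₁ →
      (∀ p, (E + R) p ≤ 1) →
      pairG g R R ≤ 2 * ((deg (E + R) : ℝ) - 1) * ht η R - 2 * ht η E + C)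
    (hex : ∀ E, Good E → ∃ R ∈ Rat, cl (E + R) = 0 ∧ deg R ≤ d₁ ∧ ∀ p, (E + R) p ≤ 1) :
    ∃ C : ℝ, ∀ E, Good E → ∃ R ∈ Rat, cl (E + R) = 0 ∧ deg R ≤ d₁ ∧
      Disjoint E.support R.support ∧ ht η E - C ≤ -beta g η E R := by
  obtain ⟨Cd, hCd⟩ := hdisc (γ + d₁)
  obtain ⟨CK, hCK⟩ := hK
  obtain ⟨CR, hCR⟩ := hR
  refine ⟨(Cd + CK + CR) / 2, ?_⟩
  intro E hE
  obtain ⟨R, hRrat, hcl, hdR, hred⟩ := hex E hE
  have hdisj : Disjoint E.support R.support := by
    rw [Finset.disjoint_left]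
    intro p hpE hpR
    have h1 := hred p
    rw [Finsupp.add_apply] at h1
    have h2 := Nat.one_le_iff_ne_zero.2 (Finsupp.mem_support_iff.1 hpE)
    have h3 := Nat.one_le_iff_ne_zero.2 (Finsupp.mem_support_iff.1 hpR)
    omega
  refine ⟨R, hRrat, hcl, hdR, hdisj, ?_⟩
  have hdegE := hgood_deg E hE
  have hdegZ : deg (E + R) = γ + deg R := by rw [deg_add, hdegE]
  have hdegZr : (deg (E + R) : ℝ) = (γ : ℝ) + (deg R : ℝ) := by exact_mod_cast hdegZ
  have hZrat : E + R ∈ Rat := Rat.add_mem (hgood_rat E hE) hRrat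
  have h1 := hCd (E + R) hZrat hcl (by rw [hdegZ]; omega) hred
  have h2 := hCK E hE
  have h3 := hCR E R hE hRrat hcl hdR hred
  have hpair : pairG g (E + R) (E + R) = pairG g E E + 2 * pairG g E R + pairG g R R := by
    rw [pairG_add_left, pairG_add_right, pairG_add_right, pairG_symm hsymm R E]
    ring
  have hht : ht η (E + R) = ht η E + ht η R := ht_add η E R
  have hdegEr : (deg E : ℝ) = (γ : ℝ) := by exact_mod_cast hdegE
  rw [hpair, hht, hdegZr] at h1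
  rw [hdegZr] at h3
  unfold beta
  rw [hdegEr]
  nlinarith [h1, h2, h3]

end Fermat.Agent.MW.HQ.DiscFib
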