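/-
MW / HT-Q, helper84 — **uniform reciprocity in general position** (`PairingDatumS.recip`) from
its lower half and the ONE-SIDED fibre estimate (`lip`), for ONE coordinate.

Same engine as `RecFib.lean`, restated for the `S`-vocabulary of `DefsS.lean`:
`far c p q := c.τ p ≠ c.τ q` is the general-position relation of the coordinate `c`, and only
the lower half `gL (τ p) (τ q) − C ≤ g(p, fib q)` of the fibre estimate is assumed.

* `far_irrefl`, `far_symm`, `near_trans` : the three `PairingDatumS` axioms of `far c`;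
* `beta_Fib_le` : `β(Z, Fib E) ≤ C · deg Z · deg E` for rational `Z`, `E` in general position;
* `recipS_of_coord` : `−C ≤ β(Z, E)` in general position ⟹ `|β(Z, E)| ≤ C'` in general position
  (literally the field `recip` of `PairingDatumS` with `far := far c`).
-/
import Mathlib
import Fermat.Agent.MW.HQ.DiscFib
import Fermat.Agent.MW.HQ.DefsS

set_option autoImplicit false

noncomputable section

namespace Fermat.Agent.MW.HQ.RecFibS

open Fermat.Agent.MW.HQ Fermat.Agent.MW.HQ.RecFib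

variable {P : Type*} {K : Type*}

/-- The general-position relation of a coordinate: `t p ≠ t q`. -/
def far (c : Coord P K) (p q : P) : Prop := c.τ p ≠ c.τ q

theorem far_irrefl (c : Coord P K) (p : P) : ¬ far c p p := fun h => h rfl

theorem far_symm (c : Coord P K) (p q : P) (h : far c p q) : far c q p := fun e => h e.symm

theorem near_trans (c : Coord P K) (p q r : P) (h₁ : ¬ far c p q) (h₂ : ¬ far c q r) :
    ¬ far c p r := by
  unfold far at *
  rw [not_not] at *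
  exact h₁.trans h₂

/-- A coordinate is good (one-sided form): rational complements of fibres, the LOWER fibre
estimate (`lip`), the height comparison and exactness on the line. -/
structure IsGoodS (c : Coord P K) (g : P → P → ℝ) (η : P → ℝ) (gL : K → K → ℝ) (ηL : K → ℝ)
    (Rat : AddSubmonoid (P →₀ ℕ)) : Prop where
  compl_rat : ∀ E ∈ Rat, Fib c.fib E - E ∈ Rat
  fibPt : ∃ C : ℝ, ∀ p q, c.τ p ≠ c.τ q →
    gL (c.τ p) (c.τ q) - C ≤ (c.fib q).sum (fun q' n => (n : ℝ) * g p q')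
  htCmp : ∃ C : ℝ, ∀ p, |ηL (c.τ p) - (c.m : ℝ) * η p| ≤ C
  exact : ∀ Z ∈ Rat, ∀ E ∈ Rat, Far (far c) Z E →
    beta gL ηL (Z.mapDomain c.τ) (E.mapDomain c.τ) = 0

theorem IsGoodS.of_isGood {c : Coord P K} {g : P → P → ℝ} {η : P → ℝ} {gL : K → K → ℝ}
    {ηL : K → ℝ} {Rat : AddSubmonoid (P →₀ ℕ)} (h : c.IsGood g η gL ηL Rat) :
    IsGoodS c g η gL ηL Rat where
  compl_rat := h.compl_rat
  fibPt := by
    obtain ⟨C, hC⟩ := h.fibPt
    exact ⟨C, fun p q hpq => by have := abs_le.1 (hC p q hpq); linarith [this.1]⟩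
  htCmp := h.htCmp
  exact := h.exact

theorem sum_mul_ge {ι : Type*} (s : Finset ι) (w : ι → ℕ) (x : ι → ℝ) (C : ℝ)
    (h : ∀ i ∈ s, -C ≤ x i) : -(C * ∑ i ∈ s, (w i : ℝ)) ≤ ∑ i ∈ s, (w i : ℝ) * x i := by
  rw [Finset.mul_sum, ← Finset.sum_neg_distrib]
  refine Finset.sum_le_sum fun i hi => ?_
  have := mul_le_mul_of_nonneg_left (h i hi) (Nat.cast_nonneg (w i) : (0 : ℝ) ≤ (w i : ℝ))
  linarith

/-- **The one-sided fibre bound**: `β(Z, Fib E) ≤ C · deg Z · deg E` in general position. -/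
theorem beta_Fib_le (c : Coord P K) {g : P → P → ℝ} {η : P → ℝ} {gL : K → K → ℝ}
    {ηL : K → ℝ} {Rat : AddSubmonoid (P →₀ ℕ)} (hc : IsGoodS c g η gL ηL Rat) :
    ∃ C : ℝ, 0 ≤ C ∧ ∀ Z ∈ Rat, ∀ E ∈ Rat, Far (far c) Z E →
      beta g η Z (Fib c.fib E) ≤ C * ((deg Z : ℝ) * (deg E : ℝ)) := by
  obtain ⟨C₁, hC₁⟩ := hc.fibPt
  obtain ⟨C₂, hC₂⟩ := hc.htCmp
  refine ⟨2 * (c.m : ℝ) * |C₂| + 2 * |C₂| + |C₁|, by positivity, ?_⟩
  intro Z hZ E hE hsep
  have hC₂' : ∀ p, |ηL (c.τ p) - (c.m : ℝ) * η p| ≤ |C₂| := fun p =>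
    (hC₂ p).trans (le_abs_self _)
  -- the pair function of a fibre
  have hB2 : ∀ q ∈ E.support, -(|C₁| * (deg Z : ℝ)) ≤
      pairG g Z (c.fib q) - ∑ p ∈ Z.support, (Z p : ℝ) * gL (c.τ p) (c.τ q) := by
    intro q hq
    have h1 : pairG g Z (c.fib q) - ∑ p ∈ Z.support, (Z p : ℝ) * gL (c.τ p) (c.τ q) =
        ∑ p ∈ Z.support, (Z p : ℝ) *
          ((c.fib q).sum (fun q' n => (n : ℝ) * g p q') - gL (c.τ p) (c.τ q)) := by
      rw [pairG_eq_sum, ← Finset.sum_sub_distrib]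
      refine Finset.sum_congr rfl fun p _ => ?_
      rw [mul_sub]
      congr 1
      unfold Finsupp.sum
      rw [Finset.mul_sum]
      exact Finset.sum_congr rfl fun _ _ => by ring
    rw [h1, cast_deg_eq_sum]
    exact sum_mul_ge Z.support (fun p => Z p) _ |C₁| fun p hp => by
      have := hC₁ p q (hsep p hp q hq)
      linarith [le_abs_self C₁]
  have hX₁ := Fermat.Agent.MW.HQ.DiscFib.abs_ht_Fib_sub_le c hC₂' E (η := η)
  have hX₂ : |ht ηL (Z.mapDomain c.τ) - (c.m : ℝ) * ht η Z| ≤ |C₂| * (deg Z : ℝ) := by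
    have h1 : ht ηL (Z.mapDomain c.τ) - (c.m : ℝ) * ht η Z =
        ∑ p ∈ Z.support, (Z p : ℝ) * (ηL (c.τ p) - (c.m : ℝ) * η p) := by
      rw [ht_mapDomain, ht_eq_sum, Finset.mul_sum, ← Finset.sum_sub_distrib]
      exact Finset.sum_congr rfl fun _ _ => by ring
    rw [h1, cast_deg_eq_sum]
    exact abs_sum_mul_le Z.support (fun p => Z p) _ _ fun p _ => hC₂' p
  have hX₃ : |ht ηL (E.mapDomain c.τ) - (c.m : ℝ) * ht η E| ≤ |C₂| * (deg E : ℝ) := by
    have h1 : ht ηL (E.mapDomain c.τ) - (c.m : ℝ) * ht η E =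
        ∑ p ∈ E.support, (E p : ℝ) * (ηL (c.τ p) - (c.m : ℝ) * η p) := by
      rw [ht_mapDomain, ht_eq_sum, Finset.mul_sum, ← Finset.sum_sub_distrib]
      exact Finset.sum_congr rfl fun _ _ => by ring
    rw [h1, cast_deg_eq_sum]
    exact abs_sum_mul_le E.support (fun p => E p) _ _ fun p _ => hC₂' p
  have hX₄ : -(|C₁| * (deg Z : ℝ) * (deg E : ℝ)) ≤
      pairG g Z (Fib c.fib E) - pairG gL (Z.mapDomain c.τ) (E.mapDomain c.τ) := by
    have h1 : pairG g Z (Fib c.fib E) - pairG gL (Z.mapDomain c.τ) (E.mapDomain c.τ) =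
        ∑ q ∈ E.support, (E q : ℝ) *
          (pairG g Z (c.fib q) - ∑ p ∈ Z.support, (Z p : ℝ) * gL (c.τ p) (c.τ q)) := by
      rw [pairG_Fib, pairG_mapDomain, Finset.sum_comm, ← Finset.sum_sub_distrib]
      refine Finset.sum_congr rfl fun q _ => ?_
      rw [mul_sub, Finset.mul_sum]
      congr 1
      exact Finset.sum_congr rfl fun _ _ => by ring
    rw [h1, cast_deg_eq_sum (D := E)]
    have := sum_mul_ge E.support (fun q => E q) _ (|C₁| * (deg Z : ℝ)) hB2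
    linarith
  have hex := hc.exact Z hZ E hE hsep
  unfold beta at hex
  rw [deg_mapDomain, deg_mapDomain] at hex
  have hdeg : (deg (Fib c.fib E) : ℝ) = (c.m : ℝ) * (deg E : ℝ) := by
    rw [c.deg_Fib]; push_cast; ring
  have key : beta g η Z (Fib c.fib E) =
      (deg Z : ℝ) * (ht η (Fib c.fib E) - (c.m : ℝ) * ht η E)
      - (deg E : ℝ) * (ht ηL (Z.mapDomain c.τ) - (c.m : ℝ) * ht η Z)
      - (deg Z : ℝ) * (ht ηL (E.mapDomain c.τ) - (c.m : ℝ) * ht η E)
      - (pairG g Z (Fib c.fib E) - pairG gL (Z.mapDomain c.τ) (E.mapDomain c.τ)) := by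
    unfold beta
    rw [hdeg]
    linarith
  rw [key]
  have ha : (0 : ℝ) ≤ (deg Z : ℝ) := Nat.cast_nonneg _
  have hb : (0 : ℝ) ≤ (deg E : ℝ) := Nat.cast_nonneg _
  have t1 : (deg Z : ℝ) * (ht η (Fib c.fib E) - (c.m : ℝ) * ht η E) ≤
      (deg Z : ℝ) * (2 * |C₂| * (c.m : ℝ) * (deg E : ℝ)) :=
    mul_le_mul_of_nonneg_left ((le_abs_self _).trans hX₁) ha
  have t2 : -((deg E : ℝ) * (|C₂| * (deg Z : ℝ))) ≤
      (deg E : ℝ) * (ht ηL (Z.mapDomain c.τ) - (c.m : ℝ) * ht η Z) := by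
    have := mul_le_mul_of_nonneg_left (abs_le.1 hX₂).1 hb
    linarith
  have t3 : -((deg Z : ℝ) * (|C₂| * (deg E : ℝ))) ≤
      (deg Z : ℝ) * (ht ηL (E.mapDomain c.τ) - (c.m : ℝ) * ht η E) := by
    have := mul_le_mul_of_nonneg_left (abs_le.1 hX₃).1 ha
    linarith
  nlinarith [t1, t2, t3, hX₄]

/-- **Uniform reciprocity in general position from its lower half.**  The conclusion is
literally the field `recip` of `HQ.PairingDatumS` for `far := far c`. -/
theorem recipS_of_coord {J : Type*} [AddCommGroup J] {g : P → P → ℝ} {η : P → ℝ}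
    {gL : K → K → ℝ} {ηL : K → ℝ} {Rat : AddSubmonoid (P →₀ ℕ)} (cl : (P →₀ ℕ) →+ J)
    (c : Coord P K) (hc : IsGoodS c g η gL ηL Rat)
    (hlow : ∀ M e : ℕ, ∃ C : ℝ, ∀ Z ∈ Rat, cl Z = 0 → deg Z ≤ M → ∀ E ∈ Rat, deg E ≤ e →
      Far (far c) Z E → -C ≤ beta g η Z E) :
    ∀ M e : ℕ, ∃ C : ℝ, ∀ Z ∈ Rat, cl Z = 0 → deg Z ≤ M → ∀ E ∈ Rat, deg E ≤ e →
      Far (far c) Z E → |beta g η Z E| ≤ C := by
  intro M e
  obtain ⟨C₀, hC₀⟩ := hlow M e
  obtain ⟨Cf, hCf0, hCf⟩ := beta_Fib_le c hc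
  obtain ⟨Cl, hCl⟩ := hlow M (c.m * e)
  refine ⟨|C₀| + (Cf * ((M : ℝ) * (e : ℝ)) + |Cl|), ?_⟩
  intro Z hZ hclZ hdZ E hE hdE hfar
  have hnn : 0 ≤ Cf * ((M : ℝ) * (e : ℝ)) + |Cl| :=
    add_nonneg (mul_nonneg hCf0 (by positivity)) (abs_nonneg _)
  rw [abs_le]
  constructor
  · have h1 := hC₀ Z hZ hclZ hdZ E hE hdE hfar
    linarith [le_abs_self C₀]
  · have hle : E ≤ Fib c.fib E := le_Fib _ c.self_le E
    have hsplit : Fib c.fib E = E + (Fib c.fib E - E) := (add_tsub_cancel_of_le hle).symm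
    have hE' : Fib c.fib E - E ∈ Rat := hc.compl_rat E hE
    have hdegE' : deg (Fib c.fib E - E) ≤ c.m * e := by
      have h1 : deg (Fib c.fib E) = deg E + deg (Fib c.fib E - E) := by
        conv_lhs => rw [hsplit]
        exact deg_add _ _
      have h2 := c.deg_Fib E
      have h3 : c.m * deg E ≤ c.m * e := Nat.mul_le_mul_left _ hdE
      omega
    have hfar' : Far (far c) Z (Fib c.fib E - E) := by
      intro p hpZ q hq
      have hq' : q ∈ (Fib c.fib E).support := by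
        rw [Finsupp.mem_support_iff] at hq ⊢
        intro h0
        apply hq
        rw [Finsupp.tsub_apply, h0, Nat.zero_sub]
      obtain ⟨q₀, hq₀, hqq₀⟩ := exists_of_mem_support_Fib _ _ hq'
      show c.τ p ≠ c.τ q
      rw [c.τ_fib q₀ q hqq₀]
      exact hfar p hpZ q₀ hq₀
    have hlow' := hCl Z hZ hclZ hdZ _ hE' hdegE' hfar'
    have hfib := hCf Z hZ E hE hfar
    have hadd : beta g η Z (Fib c.fib E) =
        beta g η Z E + beta g η Z (Fib c.fib E - E) := by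
      conv_lhs => rw [hsplit]
      exact beta_add_right g η Z E _
    have hfib' : beta g η Z (Fib c.fib E) ≤ Cf * ((M : ℝ) * (e : ℝ)) := by
      refine hfib.trans ?_
      have hZM : (deg Z : ℝ) ≤ (M : ℝ) := by exact_mod_cast hdZ
      have hEe : (deg E : ℝ) ≤ (e : ℝ) := by exact_mod_cast hdE
      exact mul_le_mul_of_nonneg_left
        (mul_le_mul hZM hEe (Nat.cast_nonneg _) (Nat.cast_nonneg _)) hCf0
    linarith [le_abs_self Cl, abs_nonneg C₀]

end Fermat.Agent.MW.HQ.RecFibS
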