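/-
MW / HT-Q, helper84 — **the lower discriminant bound (Disc≥) and positivity (`HeightDatumS.pos`)
in general position, for ONE coordinate** (abstract, Mathlib-only; `S`-version of `DiscFib.lean`).

Only one-sided local inputs are used:

* `IsGoodS.fibPt` (`lip`) : `gL (τ p) (τ q) − C ≤ g(p, fib q)` for `τ p ≠ τ q`;
* `IsRamS.ramPt` (`ram`)  : `g(p, ram) + ρ · η p − C ≤ g(p, fib p)` at unramified `p ∉ ram`;
* `hlow` (RecLow)         : `−C ≤ β(Z, E)` for DISJOINT rational `Z` (class `0`), `E`;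
* `hup`  (recip, upper)   : `β(Z, E) ≤ C` for rational `Z` (class `0`), `E` in general position.

`disc_lower_of_coord` : for rational `c`-generic `Z` of class `0` (`IsGen`: reduced, `τ` injective
and unramified on `Z`, `Z` far from `ram`),
  `(2 deg Z − 2m + deg ram + ρ) · ht η Z − C ≤ pairG g Z Z`.
`posS_of_disc` : (Disc≥) + (HadK) + (HadR) ⟹ the field `pos` of `HeightDatumS` (`far := far c`).
-/
import Mathlib
import Fermat.Agent.MW.HQ.RecFibS

set_option autoImplicit false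

noncomputable section

namespace Fermat.Agent.MW.HQ.DiscFibS

open Fermat.Agent.MW.HQ Fermat.Agent.MW.HQ.RecFib Fermat.Agent.MW.HQ.DiscFib
  Fermat.Agent.MW.HQ.RecFibS

variable {P : Type*} {K : Type*}

/-- Ramification data of a coordinate, one-sided form (`ram` of HT-M). -/
structure IsRamS (c : Coord P K) (g : P → P → ℝ) (η : P → ℝ) (gL : K → K → ℝ) (ηL : K → ℝ)
    (Rat : AddSubmonoid (P →₀ ℕ)) (ram : P →₀ ℕ) (ρ : ℝ) : Prop where
  ram_rat : ram ∈ Rat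
  ramPt : ∃ C : ℝ, ∀ p, c.fib p p = 1 → p ∉ ram.support →
    ram.sum (fun q' n => (n : ℝ) * g p q') + ρ * η p - C ≤
      (c.fib p).sum (fun q' n => (n : ℝ) * g p q')
  exactDisc : ∀ Z ∈ Rat, (∀ p, Z p ≤ 1) → Set.InjOn c.τ (Z.support : Set P) →
    ∑ p ∈ Z.support, (∑ q ∈ Z.support, gL (c.τ p) (c.τ q) - gL (c.τ p) (c.τ p)) =
      2 * ((deg Z : ℝ) - 1) * ∑ p ∈ Z.support, ηL (c.τ p)

/-- `Z` is generic for the coordinate `c`: reduced, `τ` injective and unramified on `Z`, and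
`Z` in general position with respect to the ramification divisor. -/
structure IsGen (c : Coord P K) (ram : P →₀ ℕ) (Z : P →₀ ℕ) : Prop where
  red : ∀ p, Z p ≤ 1
  inj : Set.InjOn c.τ (Z.support : Set P)
  unr : ∀ p ∈ Z.support, c.fib p p = 1
  far_ram : Far (far c) Z ram

/-- **(Disc≥) for one coordinate, in general position.** -/
theorem disc_lower_of_coord {J : Type*} [AddCommGroup J] (cl : (P →₀ ℕ) →+ J) (c : Coord P K)
    {g : P → P → ℝ} {η : P → ℝ} {gL : K → K → ℝ} {ηL : K → ℝ} {Rat : AddSubmonoid (P →₀ ℕ)}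
    (hc : IsGoodS c g η gL ηL Rat) {ram : P →₀ ℕ} {ρ : ℝ} (hr : IsRamS c g η gL ηL Rat ram ρ)
    (hlow : ∀ M e : ℕ, ∃ C : ℝ, ∀ Z ∈ Rat, cl Z = 0 → deg Z ≤ M → ∀ E ∈ Rat, deg E ≤ e →
      Disjoint Z.support E.support → -C ≤ beta g η Z E)
    (hup : ∀ M e : ℕ, ∃ C : ℝ, ∀ Z ∈ Rat, cl Z = 0 → deg Z ≤ M → ∀ E ∈ Rat, deg E ≤ e →
      Far (far c) Z E → beta g η Z E ≤ C) (M : ℕ) :
    ∃ C : ℝ, ∀ Z ∈ Rat, cl Z = 0 → deg Z ≤ M → IsGen c ram Z →
      (2 * (deg Z : ℝ) - 2 * (c.m : ℝ) + (deg ram : ℝ) + ρ) * ht η Z - C ≤ pairG g Z Z := by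
  classical
  obtain ⟨C₁, hC₁⟩ := hc.fibPt
  obtain ⟨C₂, hC₂⟩ := hc.htCmp
  obtain ⟨C₃, hC₃⟩ := hr.ramPt
  obtain ⟨C₄, hC₄⟩ := hup M (deg ram)
  obtain ⟨C₅, hC₅⟩ := hlow M (c.m * M)
  have hC₂' : ∀ p, |ηL (c.τ p) - (c.m : ℝ) * η p| ≤ |C₂| := fun p =>
    (hC₂ p).trans (le_abs_self _)
  refine ⟨2 * ((M : ℝ) + 1) * (|C₂| * (M : ℝ)) + (M : ℝ) * |ht η ram| + |C₄| +
    ((M : ℝ) * |C₃| + (M : ℝ) * ((M : ℝ) * |C₁|)) +
    (M : ℝ) * (2 * |C₂| * (c.m : ℝ) * (M : ℝ)) + |C₅|, ?_⟩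
  intro Z hZ hclZ hdZ hgen
  obtain ⟨hred, hinj, hunr, hfram⟩ := hgen
  have hdram : Disjoint Z.support ram.support := Far.disjoint (far_irrefl c) hfram
  have hZ1 : ∀ p ∈ Z.support, Z p = 1 := fun p hp => eq_one_of_mem_support hred hp
  have ha0 : (0 : ℝ) ≤ (deg Z : ℝ) := Nat.cast_nonneg _
  have haM : (deg Z : ℝ) ≤ (M : ℝ) := by exact_mod_cast hdZ
  have hcard : (deg Z : ℝ) = (Z.support.card : ℝ) := cast_deg_of_reduced hred
  -- the complement of `Z` in its fibre divisor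
  have hle : Z ≤ Fib c.fib Z := le_Fib _ c.self_le Z
  have hsplit : Fib c.fib Z = Z + (Fib c.fib Z - Z) := (add_tsub_cancel_of_le hle).symm
  have hZ' : Fib c.fib Z - Z ∈ Rat := hc.compl_rat Z hZ
  have hdegN : deg (Fib c.fib Z) = deg Z + deg (Fib c.fib Z - Z) := by
    conv_lhs => rw [hsplit]
    exact deg_add _ _
  have hdegF := c.deg_Fib Z
  have hdegZ' : deg (Fib c.fib Z - Z) ≤ c.m * M := by
    have h3 : c.m * deg Z ≤ c.m * M := Nat.mul_le_mul_left _ hdZ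
    omega
  have hdegZ'r : (deg (Fib c.fib Z - Z) : ℝ) = (c.m : ℝ) * (deg Z : ℝ) - (deg Z : ℝ) := by
    have h4 : (deg (Fib c.fib Z) : ℝ) = (deg Z : ℝ) + (deg (Fib c.fib Z - Z) : ℝ) := by
      exact_mod_cast hdegN
    have h5 : (deg (Fib c.fib Z) : ℝ) = (c.m : ℝ) * (deg Z : ℝ) := by exact_mod_cast hdegF
    linarith
  have hdisj' : Disjoint Z.support (Fib c.fib Z - Z).support := by
    rw [Finset.disjoint_left]
    intro p hpZ hpZ'
    rw [Finsupp.mem_support_iff, Finsupp.tsub_apply] at hpZ'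
    apply hpZ'
    have h6 : Fib c.fib Z p = 1 := by
      rw [Fib_apply, Finset.sum_eq_single_of_mem p hpZ, hZ1 p hpZ, hunr p hpZ]
      intro q hq hqp
      have h7 : c.fib q p = 0 := by
        by_contra hne
        exact hqp (hinj hq hpZ (c.τ_fib q p (Finsupp.mem_support_iff.2 hne)).symm)
      rw [h7, mul_zero]
    rw [h6, hZ1 p hpZ]
    rfl
  have hβ₅ := hC₅ Z hZ hclZ hdZ _ hZ' hdegZ' hdisj'
  have hβ₄ := hC₄ Z hZ hclZ hdZ ram hr.ram_rat le_rfl hfram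
  have hhtsplit : ht η (Fib c.fib Z) = ht η Z + ht η (Fib c.fib Z - Z) := by
    conv_lhs => rw [hsplit]
    exact ht_add η _ _
  have hpsplit : pairG g Z (Fib c.fib Z) = pairG g Z Z + pairG g Z (Fib c.fib Z - Z) := by
    conv_lhs => rw [hsplit]
    exact pairG_add_right g Z Z _
  have hX₁ := abs_ht_Fib_sub_le c hC₂' Z (η := η)
  -- the height on the line
  have hX₂ : |∑ p ∈ Z.support, ηL (c.τ p) - (c.m : ℝ) * ht η Z| ≤ |C₂| * (deg Z : ℝ) := by
    have h1 : ∑ p ∈ Z.support, ηL (c.τ p) - (c.m : ℝ) * ht η Z =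
        ∑ p ∈ Z.support, (ηL (c.τ p) - (c.m : ℝ) * η p) := by
      rw [ht_of_reduced η hred, Finset.mul_sum, ← Finset.sum_sub_distrib]
    rw [h1, hcard]
    calc |∑ p ∈ Z.support, (ηL (c.τ p) - (c.m : ℝ) * η p)|
        ≤ ∑ p ∈ Z.support, |ηL (c.τ p) - (c.m : ℝ) * η p| := Finset.abs_sum_le_sum_abs _ _
      _ ≤ ∑ _p ∈ Z.support, |C₂| := Finset.sum_le_sum fun p _ => hC₂' p
      _ = |C₂| * (Z.support.card : ℝ) := by rw [Finset.sum_const, nsmul_eq_mul, mul_comm]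
  -- the pair function against the fibre divisor
  have hpF : pairG g Z (Fib c.fib Z) =
      ∑ p ∈ Z.support, ∑ q ∈ Z.support, (c.fib q).sum fun q' n => (n : ℝ) * g p q' := by
    rw [pairG_Fib, Finset.sum_comm]
    refine Finset.sum_congr rfl fun q hq => ?_
    rw [hZ1 q hq, Nat.cast_one, one_mul, pairG_of_reduced g hred]
  have hpr : pairG g Z ram = ∑ p ∈ Z.support, ram.sum fun q' n => (n : ℝ) * g p q' :=
    pairG_of_reduced g hred ram
  have hXA : -((deg Z : ℝ) * |C₃| + (deg Z : ℝ) * ((deg Z : ℝ) * |C₁|)) ≤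
      pairG g Z (Fib c.fib Z) -
      (2 * ((deg Z : ℝ) - 1) * ∑ p ∈ Z.support, ηL (c.τ p) + pairG g Z ram + ρ * ht η Z) := by
    rw [← hr.exactDisc Z hZ hred hinj, hpF, hpr, ht_of_reduced η hred, Finset.mul_sum,
      ← Finset.sum_add_distrib, ← Finset.sum_add_distrib, ← Finset.sum_sub_distrib]
    have hterm : ∀ p ∈ Z.support, -(|C₃| + (deg Z : ℝ) * |C₁|) ≤
        (∑ q ∈ Z.support, (c.fib q).sum fun q' n => (n : ℝ) * g p q') -
          ((∑ q ∈ Z.support, gL (c.τ p) (c.τ q) - gL (c.τ p) (c.τ p)) +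
            (ram.sum fun q' n => (n : ℝ) * g p q') + ρ * η p) := by
      intro p hp
      rw [← Finset.add_sum_erase Z.support
          (fun q => (c.fib q).sum fun q' n => (n : ℝ) * g p q') hp,
        ← Finset.add_sum_erase Z.support (fun q => gL (c.τ p) (c.τ q)) hp]
      have e1 : ((c.fib p).sum (fun q' n => (n : ℝ) * g p q') +
            ∑ q ∈ Z.support.erase p, (c.fib q).sum fun q' n => (n : ℝ) * g p q') -
          ((gL (c.τ p) (c.τ p) + ∑ q ∈ Z.support.erase p, gL (c.τ p) (c.τ q) -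
              gL (c.τ p) (c.τ p)) +
            (ram.sum fun q' n => (n : ℝ) * g p q') + ρ * η p) =
          ((c.fib p).sum (fun q' n => (n : ℝ) * g p q') -
            ((ram.sum fun q' n => (n : ℝ) * g p q') + ρ * η p)) +
          ∑ q ∈ Z.support.erase p,
            (((c.fib q).sum fun q' n => (n : ℝ) * g p q') - gL (c.τ p) (c.τ q)) := by
        rw [Finset.sum_sub_distrib]; ring
      rw [e1]
      have f1 : -|C₃| ≤ (c.fib p).sum (fun q' n => (n : ℝ) * g p q') -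
          ((ram.sum fun q' n => (n : ℝ) * g p q') + ρ * η p) := by
        have := hC₃ p (hunr p hp) (fun h => Finset.disjoint_left.1 hdram hp h)
        linarith [le_abs_self C₃]
      have f2 : -((deg Z : ℝ) * |C₁|) ≤ ∑ q ∈ Z.support.erase p,
          (((c.fib q).sum fun q' n => (n : ℝ) * g p q') - gL (c.τ p) (c.τ q)) := by
        have g1 : ∑ _q ∈ Z.support.erase p, (-|C₁|) ≤ ∑ q ∈ Z.support.erase p,
            (((c.fib q).sum fun q' n => (n : ℝ) * g p q') - gL (c.τ p) (c.τ q)) :=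
          Finset.sum_le_sum fun q hq => by
            have hq' := Finset.mem_erase.1 hq
            have := hC₁ p q fun h => hq'.1 (hinj hq'.2 hp h.symm)
            linarith [le_abs_self C₁]
        rw [Finset.sum_const, nsmul_eq_mul] at g1
        have g2 : ((Z.support.erase p).card : ℝ) * |C₁| ≤ (deg Z : ℝ) * |C₁| := by
          rw [hcard]
          exact mul_le_mul_of_nonneg_right
            (by exact_mod_cast Finset.card_le_card (Finset.erase_subset p Z.support))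
            (abs_nonneg _)
        linarith
      linarith
    have hsum : ∑ _p ∈ Z.support, (-(|C₃| + (deg Z : ℝ) * |C₁|)) ≤
        ∑ p ∈ Z.support, ((∑ q ∈ Z.support, (c.fib q).sum fun q' n => (n : ℝ) * g p q') -
          ((∑ q ∈ Z.support, gL (c.τ p) (c.τ q) - gL (c.τ p) (c.τ p)) +
            (ram.sum fun q' n => (n : ℝ) * g p q') + ρ * η p)) :=
      Finset.sum_le_sum hterm
    rw [Finset.sum_const, nsmul_eq_mul, ← hcard] at hsum
    refine le_trans (le_of_eq ?_) hsum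
    ring
  -- assemble
  have key : pairG g Z Z - (2 * (deg Z : ℝ) - 2 * (c.m : ℝ) + (deg ram : ℝ) + ρ) * ht η Z =
      2 * ((deg Z : ℝ) - 1) * (∑ p ∈ Z.support, ηL (c.τ p) - (c.m : ℝ) * ht η Z)
      + (deg Z : ℝ) * ht η ram - beta g η Z ram
      + (pairG g Z (Fib c.fib Z) -
          (2 * ((deg Z : ℝ) - 1) * ∑ p ∈ Z.support, ηL (c.τ p) + pairG g Z ram + ρ * ht η Z))
      - (deg Z : ℝ) * (ht η (Fib c.fib Z) - (c.m : ℝ) * ht η Z)
      + beta g η Z (Fib c.fib Z - Z) := by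
    unfold beta
    rw [hdegZ'r, hpsplit, hhtsplit]
    ring
  have t1 : |2 * ((deg Z : ℝ) - 1) * (∑ p ∈ Z.support, ηL (c.τ p) - (c.m : ℝ) * ht η Z)| ≤
      2 * ((M : ℝ) + 1) * (|C₂| * (M : ℝ)) := by
    rw [abs_mul, abs_mul, abs_two]
    have h1 : |(deg Z : ℝ) - 1| ≤ (M : ℝ) + 1 := by
      rw [abs_le]; constructor <;> linarith
    have h2 : |∑ p ∈ Z.support, ηL (c.τ p) - (c.m : ℝ) * ht η Z| ≤ |C₂| * (M : ℝ) :=
      hX₂.trans (mul_le_mul_of_nonneg_left haM (abs_nonneg _))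
    have h3 : (0 : ℝ) ≤ (M : ℝ) + 1 := by positivity
    exact mul_le_mul (by linarith) h2 (abs_nonneg _) (by linarith)
  have t2 : |(deg Z : ℝ) * ht η ram| ≤ (M : ℝ) * |ht η ram| := by
    rw [abs_mul, abs_of_nonneg ha0]
    exact mul_le_mul_of_nonneg_right haM (abs_nonneg _)
  have t4 : -((M : ℝ) * |C₃| + (M : ℝ) * ((M : ℝ) * |C₁|)) ≤
      pairG g Z (Fib c.fib Z) -
      (2 * ((deg Z : ℝ) - 1) * ∑ p ∈ Z.support, ηL (c.τ p) + pairG g Z ram + ρ * ht η Z) := by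
    refine le_trans (neg_le_neg (add_le_add (mul_le_mul_of_nonneg_right haM (abs_nonneg _)) ?_))
      hXA
    exact mul_le_mul haM (mul_le_mul_of_nonneg_right haM (abs_nonneg _))
      (mul_nonneg ha0 (abs_nonneg _)) (by positivity)
  have t5 : |(deg Z : ℝ) * (ht η (Fib c.fib Z) - (c.m : ℝ) * ht η Z)| ≤
      (M : ℝ) * (2 * |C₂| * (c.m : ℝ) * (M : ℝ)) := by
    rw [abs_mul, abs_of_nonneg ha0]
    have h1 : |ht η (Fib c.fib Z) - (c.m : ℝ) * ht η Z| ≤ 2 * |C₂| * (c.m : ℝ) * (M : ℝ) :=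
      hX₁.trans (mul_le_mul_of_nonneg_left haM (by positivity))
    exact mul_le_mul haM h1 (abs_nonneg _) (by positivity)
  have s1 := (abs_le.1 t1).1
  have s2 := (abs_le.1 t2).1
  have s5 := (abs_le.1 t5).2
  linarith [le_abs_self C₄, le_abs_self C₅]

/-! ### Positivity in general position -/

/-- **(Pos) in general position**: (Disc≥) + (HadK) + (HadR) ⟹ the field `pos` of
`HQ.HeightDatumS` for `far := far c`.  `Gen` is any genericity predicate implying "reduced" and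
"`τ` injective on the support" (e.g. `IsGen c ram`). -/
theorem posS_of_disc {J : Type*} [AddCommGroup J] (cl : (P →₀ ℕ) →+ J) (c : Coord P K)
    {g : P → P → ℝ} {η : P → ℝ} {Rat : AddSubmonoid (P →₀ ℕ)} (Good : (P →₀ ℕ) → Prop)
    (Gen : (P →₀ ℕ) → Prop) (γ d₁ : ℕ) (hsymm : ∀ p q, g p q = g q p)
    (hgen_red : ∀ Z, Gen Z → ∀ p, Z p ≤ 1)
    (hgen_inj : ∀ Z, Gen Z → Set.InjOn c.τ (Z.support : Set P))
    (hgood_rat : ∀ E, Good E → E ∈ Rat) (hgood_deg : ∀ E, Good E → deg E = γ)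
    (hdisc : ∀ M : ℕ, ∃ C : ℝ, ∀ Z ∈ Rat, cl Z = 0 → deg Z ≤ M → Gen Z →
      (2 * (deg Z : ℝ) + 2 * (γ : ℝ) - 2) * ht η Z - C ≤ pairG g Z Z)
    (hK : ∃ C : ℝ, ∀ E, Good E → pairG g E E ≤ 2 * (2 * (γ : ℝ) - 1) * ht η E + C)
    (hR : ∃ C : ℝ, ∀ E R, Good E → R ∈ Rat → cl (E + R) = 0 → deg R ≤ d₁ → Gen (E + R) →
      pairG g R R ≤ 2 * ((deg (E + R) : ℝ) - 1) * ht η R - 2 * ht η E + C)
    (hex : ∀ E, Good E → ∃ R ∈ Rat, cl (E + R) = 0 ∧ deg R ≤ d₁ ∧ Gen (E + R)) :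
    ∃ C : ℝ, ∀ E, Good E → ∃ R ∈ Rat, cl (E + R) = 0 ∧ deg R ≤ d₁ ∧
      Far (far c) E R ∧ ht η E - C ≤ -beta g η E R := by
  obtain ⟨Cd, hCd⟩ := hdisc (γ + d₁)
  obtain ⟨CK, hCK⟩ := hK
  obtain ⟨CR, hCR⟩ := hR
  refine ⟨(Cd + CK + CR) / 2, ?_⟩
  intro E hE
  obtain ⟨R, hRrat, hcl, hdR, hgen⟩ := hex E hE
  have hred := hgen_red _ hgen
  have hinj := hgen_inj _ hgen
  have hfar : Far (far c) E R := by
    intro p hpE q hpR
    have h2 := Nat.one_le_iff_ne_zero.2 (Finsupp.mem_support_iff.1 hpE)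
    have h3 := Nat.one_le_iff_ne_zero.2 (Finsupp.mem_support_iff.1 hpR)
    have hp : p ∈ (E + R).support := by
      rw [Finsupp.mem_support_iff, Finsupp.add_apply]; omega
    have hq : q ∈ (E + R).support := by
      rw [Finsupp.mem_support_iff, Finsupp.add_apply]; omega
    have hne : p ≠ q := by
      rintro rfl
      have h1 := hred p
      rw [Finsupp.add_apply] at h1
      omega
    exact fun h => hne (hinj hp hq h)
  refine ⟨R, hRrat, hcl, hdR, hfar, ?_⟩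
  have hdegE := hgood_deg E hE
  have hdegZ : deg (E + R) = γ + deg R := by rw [deg_add, hdegE]
  have hdegZr : (deg (E + R) : ℝ) = (γ : ℝ) + (deg R : ℝ) := by exact_mod_cast hdegZ
  have hZrat : E + R ∈ Rat := Rat.add_mem (hgood_rat E hE) hRrat
  have h1 := hCd (E + R) hZrat hcl (by rw [hdegZ]; omega) hgen
  have h2 := hCK E hE
  have h3 := hCR E R hE hRrat hcl hdR hgen
  have hpair : pairG g (E + R) (E + R) = pairG g E E + 2 * pairG g E R + pairG g R R := by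
    rw [pairG_add_left, pairG_add_right, pairG_add_right, pairG_symm hsymm R E]
    ring
  have hht : ht η (E + R) = ht η E + ht η R := ht_add η E R
  have hdegEr : (deg E : ℝ) = (γ : ℝ) := by exact_mod_cast hdegE
  rw [hpair, hht, hdegZr] at h1
  rw [hdegZr] at h3
  unfold beta
  rw [hdegEr]
  nlinarith [h1, h2, h3]

end Fermat.Agent.MW.HQ.DiscFibS
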