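/-
MW / HT-Q — the last step: a nonnegative, quasi-quadratic Northcott function on `J` and weak
Mordell–Weil for the subgroup `G` give finite generation of `G` (Mathlib's
`AddCommGroup.fg_of_descent'`).
-/
import Mathlib

set_option autoImplicit false

noncomputable section

namespace Fermat.Agent.MW.HQ

variable {J : Type*} [AddCommGroup J]

/-- **Descent glue.** -/
theorem fg_of_height (G : AddSubgroup J) (q : J → ℝ)
    (h0 : ∀ x, 0 ≤ q x)
    (hP : ∃ C : ℝ, ∀ x y, |q (x + y) + q (x - y) - 2 * (q x + q y)| ≤ C)
    (hN : ∀ T : ℝ, {x | q x ≤ T}.Finite)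
    (hW : (nsmulAddMonoidHom (α := G) 2).range.FiniteIndex) : AddGroup.FG G := by
  obtain ⟨C, hC⟩ := hP
  have : Northcott (fun x : G => q (x : J)) := ⟨fun T => by
    have := (hN T).preimage (f := fun x : G => (x : J)) (Subtype.val_injective.injOn)
    exact this.subset fun x hx => hx⟩
  exact AddCommGroup.fg_of_descent' (h := fun x : G => q (x : J)) (C := C) hW (fun x => h0 x)
    (fun x y => hC x y)

end Fermat.Agent.MW.HQ
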