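/-
MW / HT-Q, row HQ-4, conditional part (helper63) — from a `HeightDatum` to a nonnegative, (exactly) quadratic
Northcott function on `J`.

* `northcott_of_cover`      : the literal statement of HQ-3b, as a wrapper of
  `MW.Height.QuasiQuad.exists_height_of_cover` (Tate limit + good translates);
* `HeightDatum.exists_height_of_quad` : HQ-4 from the conclusion of HQ-2 (a function `B` whose
  diagonal is quasi-quadratic and computes `−β(D, R)` for `cl (D + R) = 0`);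
* `HeightDatum.exists_height_of_bilin` : HQ-4 from the conclusion of HQ-1 and the statement of
  HQ-2 (as a hypothesis), so that the final theorem is a one-line specialisation.

Mathlib + `MW/HQ/Defs` + `MW/Height/QuasiQuad` only.
-/
import Mathlib
import Fermat.Agent.MW.HQ.Defs
import Fermat.Agent.MW.Height.QuasiQuad

set_option autoImplicit false

noncomputable section

namespace Fermat.Agent.MW.HQ

variable {J : Type*} [AddCommGroup J] {P : Type*}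

/-- **Good translates** (the statement of HQ-3b): a quasi-quadratic function which is bounded
below and Northcott on a set `S` hit by finitely many translations is bounded below and
Northcott everywhere. -/
theorem northcott_of_cover (Q : J → ℝ) (C₀ : ℝ)
    (hQ : ∀ x y, |Q (x + y) + Q (x - y) - 2 * (Q x + Q y)| ≤ C₀)
    (S : Set J) (𝒞 : Finset J) (hS : ∀ x, ∃ c ∈ 𝒞, x + c ∈ S)
    (C₁ : ℝ) (hpos : ∀ x ∈ S, -C₁ ≤ Q x) (hfin : ∀ T : ℝ, {x | x ∈ S ∧ Q x ≤ T}.Finite) :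
    (∃ C : ℝ, ∀ x, -C ≤ Q x) ∧ ∀ T : ℝ, {x | Q x ≤ T}.Finite := by
  obtain ⟨h, h0, -, ⟨D, hD⟩, hN⟩ :=
    Fermat.Agent.MW.Height.QuasiQuad.exists_height_of_cover Q C₀ hQ S (↑𝒞 : Set J)
      𝒞.finite_toSet (fun x => by simpa using hS x) C₁ hpos hfin
  refine ⟨⟨D, fun x => ?_⟩, fun T => ?_⟩
  · have := abs_le.1 (hD x)
    linarith [h0 x]
  · refine (hN.finite_le (T + D)).subset fun x hx => ?_
    have hx' : Q x ≤ T := hx
    have := abs_le.1 (hD x)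
    show h x ≤ T + D
    linarith

/-- **HQ-4 from the conclusion of HQ-2.**  The height is even EXACTLY quadratic (it is the Tate
limit of `x ↦ B x x`) and within `O(1)` of `x ↦ B x x`. -/
theorem HeightDatum.exists_height_of_quad (𝒟 : HeightDatum J P) (B : J → J → ℝ)
    (hq1 : ∃ C : ℝ, ∀ x y, |B (x + y) (x + y) + B (x - y) (x - y) - 2 * (B x x + B y y)| ≤ C)
    (hq2 : ∀ e : ℕ, ∃ C : ℝ, ∀ D ∈ 𝒟.Rat, ∀ R ∈ 𝒟.Rat, deg D ≤ e → deg R ≤ e →
        Disjoint D.support R.support → 𝒟.cl (D + R) = 0 →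
          |B (𝒟.cl D) (𝒟.cl D) + beta 𝒟.g 𝒟.η D R| ≤ C) :
    ∃ q : J → ℝ, (∀ x, 0 ≤ q x) ∧ (∀ x y, q (x + y) + q (x - y) = 2 * (q x + q y)) ∧
      (∃ C : ℝ, ∀ x, |q x - B x x| ≤ C) ∧ ∀ T : ℝ, {x | q x ≤ T}.Finite := by
  obtain ⟨Cq, hCq⟩ := hq1
  obtain ⟨Ce, hCe⟩ := hq2 𝒟.d₁
  obtain ⟨Cp, hCp⟩ := 𝒟.pos
  obtain ⟨𝒞, h𝒞⟩ := 𝒟.translates
  -- the key lower bound on classes of good divisors
  have key : ∀ E, 𝒟.Good E → ht 𝒟.η E - Cp - Ce ≤ B (𝒟.cl E) (𝒟.cl E) := by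
    intro E hE
    obtain ⟨R, hR, hcl, hdeg, hdisj, hle⟩ := hCp E hE
    have h1 := abs_le.1 (hCe E (𝒟.good_rat E hE) R hR (𝒟.good_deg E hE) hdeg hdisj hcl)
    linarith [h1.1]
  let S : Set J := {x | ∃ E, 𝒟.Good E ∧ 𝒟.cl E = x}
  have hpos : ∀ x ∈ S, -(Cp + Ce) ≤ B x x := by
    rintro x ⟨E, hE, rfl⟩
    have := key E hE
    have h0 := ht_nonneg 𝒟.η_nonneg E
    linarith
  have hfin : ∀ T : ℝ, {x | x ∈ S ∧ B x x ≤ T}.Finite := by
    intro T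
    refine ((𝒟.north (T + Cp + Ce)).image fun E => 𝒟.cl E).subset ?_
    rintro x ⟨⟨E, hE, rfl⟩, hx⟩
    have hx' : B (𝒟.cl E) (𝒟.cl E) ≤ T := hx
    have := key E hE
    exact ⟨E, ⟨hE, by linarith⟩, rfl⟩
  have hcov : ∀ x, ∃ c ∈ (↑𝒞 : Set J), x + c ∈ S := by
    intro x
    obtain ⟨c, hc, E, hE, hEx⟩ := h𝒞 x
    exact ⟨c, by simpa using hc, E, hE, hEx⟩
  obtain ⟨h, h0, hpar, hD, hN⟩ :=
    Fermat.Agent.MW.Height.QuasiQuad.exists_height_of_cover (fun x => B x x) Cq hCq S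
      (↑𝒞 : Set J) 𝒞.finite_toSet hcov (Cp + Ce) hpos hfin
  exact ⟨h, h0, hpar, hD, fun T => hN.finite_le T⟩

/-- **HQ-4 from the conclusion of HQ-1**, given the statement of HQ-2 for this `B`. -/
theorem HeightDatum.exists_height_of_bilin (𝒟 : HeightDatum J P)
    (hBil : ∃ B : J → J → ℝ,
      (∃ C : ℝ, ∀ x y, |B (x + y) (x + y) + B (x - y) (x - y) - 2 * (B x x + B y y)| ≤ C) ∧
      (∀ e : ℕ, ∃ C : ℝ, ∀ D ∈ 𝒟.Rat, ∀ R ∈ 𝒟.Rat, deg D ≤ e → deg R ≤ e →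
        Disjoint D.support R.support → 𝒟.cl (D + R) = 0 →
          |B (𝒟.cl D) (𝒟.cl D) + beta 𝒟.g 𝒟.η D R| ≤ C)) :
    ∃ q : J → ℝ, (∀ x, 0 ≤ q x) ∧
      (∃ C : ℝ, ∀ x y, |q (x + y) + q (x - y) - 2 * (q x + q y)| ≤ C) ∧
      ∀ T : ℝ, {x | q x ≤ T}.Finite := by
  obtain ⟨B, hq1, hq2⟩ := hBil
  obtain ⟨q, h0, hpar, -, hN⟩ := 𝒟.exists_height_of_quad B hq1 hq2
  exact ⟨q, h0, ⟨0, fun x y => by rw [hpar x y]; simp⟩, hN⟩

end Fermat.Agent.MW.HQ
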