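/-
MW / HT-Q, row HQ-4 (closed form): a `HeightDatum` yields a nonnegative quasi-quadratic Northcott
function on `J`.

`HeightDatum.exists_height` = HQ-1 (`PairingDatum.exists_bilin`, MW/HQ/Bilin.lean) + HQ-2
(`quad_of_bilin`, MW/HQ/Quad.lean) + helper63's `HeightDatum.exists_height_of_bilin`
(MW/HQ/HeightOfQuad.lean).  `HeightDatum.fg` is the composition with the descent glue
`fg_of_height` (MW/HQ/Glue.lean).
-/
import Mathlib
import Fermat.Agent.MW.HQ.Bilin
import Fermat.Agent.MW.HQ.Quad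
import Fermat.Agent.MW.HQ.HeightOfQuad
import Fermat.Agent.MW.HQ.Glue

set_option autoImplicit false

noncomputable section

namespace Fermat.Agent.MW.HQ

variable {J : Type*} [AddCommGroup J] {P : Type*}

/-- **HQ-4.**  A `HeightDatum` yields a nonnegative quasi-quadratic Northcott function. -/
theorem HeightDatum.exists_height (𝒟 : HeightDatum J P) :
    ∃ q : J → ℝ, (∀ x, 0 ≤ q x) ∧
      (∃ C : ℝ, ∀ x y, |q (x + y) + q (x - y) - 2 * (q x + q y)| ≤ C) ∧
      ∀ T : ℝ, {x | q x ≤ T}.Finite := by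
  obtain ⟨B, h1, h2, h3⟩ := 𝒟.toPairingDatum.exists_bilin
  obtain ⟨a, b⟩ := quad_of_bilin 𝒟.toPairingDatum B h1 h2 h3
  exact 𝒟.exists_height_of_bilin ⟨B, a, b⟩

/-- **Descent from a `HeightDatum`**: a subgroup `G` of `J` with `G / 2G` finite is finitely
generated. -/
theorem HeightDatum.fg (𝒟 : HeightDatum J P) (G : AddSubgroup J)
    (hW : (nsmulAddMonoidHom (α := G) 2).range.FiniteIndex) : AddGroup.FG G := by
  obtain ⟨q, h0, hP, hN⟩ := 𝒟.exists_height
  exact fg_of_height G q h0 hP hN hW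

end Fermat.Agent.MW.HQ
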