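/-
MW / HT-Q, helper84 — **exactness of the height pairing on the projective line**.

For a family `abv : V → AbsoluteValue K ℝ` with finite supports (`{v | abv v a ≠ 1}` finite for
`a ≠ 0`), the local height of a point `a` of the affine line is `etaLoc v a = log⁺ |a|_v`, the
local chordal Weil function of the diagonal is
`lamLoc v a b = log⁺|a|_v + log⁺|b|_v − log |a − b|_v`, and `etaP1`, `lamP1` are their sums over
`v`.  For effective divisors `A`, `B` of the affine line with disjoint supports the pairing symbol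
`HQ.beta (lamP1 abv) (etaP1 abv) A B` is EXACTLY the global logarithmic size of the resultant
`res A B = ∏ (a − b)^(A a · B b)`:

* `beta_eq_logSize_res` : `β(A, B) = ∑ᶠ v, log |res A B|_v`;
* `beta_eq_zero` : hence `β(A, B) = 0` as soon as the product formula holds for `res A B`;
* `map_res` : `res A B` is fixed by every field automorphism preserving `A` and `B`;
* `exists_rat_res` : over `AlgebraicClosure ℚ`, Galois-stable `A`, `B` have a rational resultant.
-/
import Mathlib
import Fermat.Agent.MW.HQ.Defs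
import Fermat.Agent.Lib.GalQbar

set_option autoImplicit false

noncomputable section

namespace Fermat.Agent.MW.HQ.P1Res

open Fermat.Agent.MW.HQ

variable {K : Type*} [Field K] {V : Type*} (abv : V → AbsoluteValue K ℝ)

/-- Local height of a point of the affine line: `log⁺ |a|_v`. -/
def etaLoc (v : V) (a : K) : ℝ := Real.log (max 1 (abv v a))

/-- Local chordal Weil function of the diagonal of the line:
`− log (|a − b|_v / (max 1 |a|_v · max 1 |b|_v))`. -/
def lamLoc (v : V) (a b : K) : ℝ :=
  etaLoc abv v a + etaLoc abv v b - Real.log (abv v (a - b))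

/-- Global height of a point of the affine line. -/
def etaP1 (a : K) : ℝ := ∑ᶠ v, etaLoc abv v a

/-- Global diagonal height of a pair of points of the affine line. -/
def lamP1 (a b : K) : ℝ := ∑ᶠ v, lamLoc abv v a b

/-- Global logarithmic size `∑_v log |x|_v` (zero on elements satisfying the product formula). -/
def logSize (x : K) : ℝ := ∑ᶠ v, Real.log (abv v x)

/-- The resultant `∏ (a − b)^(A a · B b)` of two effective divisors of the affine line. -/
def res (A B : K →₀ ℕ) : K := A.prod fun a m => B.prod fun b n => (a - b) ^ (m * n)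

theorem etaLoc_nonneg (v : V) (a : K) : 0 ≤ etaLoc abv v a :=
  Real.log_nonneg (le_max_left _ _)

theorem etaLoc_zero (v : V) : etaLoc abv v 0 = 0 := by
  simp [etaLoc]

variable {abv}

theorem support_log_finite (hfin : ∀ a : K, a ≠ 0 → {v | abv v a ≠ 1}.Finite) {x : K}
    (hx : x ≠ 0) : (Function.support fun v => Real.log (abv v x)).Finite := by
  refine (hfin x hx).subset fun v hv => ?_
  intro h1
  apply hv
  show Real.log (abv v x) = 0
  rw [h1, Real.log_one]

theorem support_etaLoc_finite (hfin : ∀ a : K, a ≠ 0 → {v | abv v a ≠ 1}.Finite) (a : K) :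
    (Function.support fun v => etaLoc abv v a).Finite := by
  rcases eq_or_ne a 0 with rfl | ha
  · have : (fun v => etaLoc abv v (0 : K)) = fun _ => 0 := funext fun v => etaLoc_zero abv v
    rw [this]
    simp
  · refine (hfin a ha).subset fun v hv => ?_
    intro h1
    apply hv
    show etaLoc abv v a = 0
    rw [etaLoc, h1, max_self, Real.log_one]

theorem etaP1_nonneg (a : K) : 0 ≤ etaP1 abv a :=
  finsum_nonneg fun v => etaLoc_nonneg abv v a

theorem logSize_one : logSize abv (1 : K) = 0 := by
  simp [logSize]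

theorem logSize_mul (hfin : ∀ a : K, a ≠ 0 → {v | abv v a ≠ 1}.Finite) {x y : K} (hx : x ≠ 0)
    (hy : y ≠ 0) : logSize abv (x * y) = logSize abv x + logSize abv y := by
  unfold logSize
  rw [← finsum_add_distrib (support_log_finite hfin hx) (support_log_finite hfin hy)]
  refine finsum_congr fun v => ?_
  rw [map_mul, Real.log_mul ((abv v).ne_zero hx) ((abv v).ne_zero hy)]

theorem logSize_pow (hfin : ∀ a : K, a ≠ 0 → {v | abv v a ≠ 1}.Finite) {x : K} (hx : x ≠ 0)
    (n : ℕ) : logSize abv (x ^ n) = n * logSize abv x := by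
  induction n with
  | zero => simp [logSize_one]
  | succ n ih =>
    rw [pow_succ, logSize_mul hfin (pow_ne_zero n hx) hx, ih]
    push_cast; ring

theorem logSize_prod (hfin : ∀ a : K, a ≠ 0 → {v | abv v a ≠ 1}.Finite) {ι : Type*}
    (s : Finset ι) (f : ι → K) (hf : ∀ i ∈ s, f i ≠ 0) :
    logSize abv (∏ i ∈ s, f i) = ∑ i ∈ s, logSize abv (f i) := by
  classical
  induction s using Finset.induction_on with
  | empty => simp [logSize_one]
  | insert i s hi ih =>
    rw [Finset.prod_insert hi, Finset.sum_insert hi,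
      logSize_mul hfin (hf i (Finset.mem_insert_self i s))
        (Finset.prod_ne_zero_iff.2 fun j hj => hf j (Finset.mem_insert_of_mem hj)),
      ih fun j hj => hf j (Finset.mem_insert_of_mem hj)]

theorem logSize_inv (hfin : ∀ a : K, a ≠ 0 → {v | abv v a ≠ 1}.Finite) {x : K} (hx : x ≠ 0) :
    logSize abv x⁻¹ = - logSize abv x := by
  have h := logSize_mul hfin hx (inv_ne_zero hx)
  rw [mul_inv_cancel₀ hx, logSize_one] at h
  linarith

/-- The global diagonal height of two distinct points. -/
theorem lamP1_eq (hfin : ∀ a : K, a ≠ 0 → {v | abv v a ≠ 1}.Finite) {a b : K} (hab : a ≠ b) :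
    lamP1 abv a b = etaP1 abv a + etaP1 abv b - logSize abv (a - b) := by
  unfold lamP1 etaP1 logSize
  have h1 := support_etaLoc_finite hfin a
  have h2 := support_etaLoc_finite hfin b
  have h3 := support_log_finite hfin (sub_ne_zero.2 hab)
  rw [← finsum_add_distrib h1 h2, ← finsum_sub_distrib ((h1.union h2).subset
    (Function.support_add _ _)) h3]
  rfl

theorem lamP1_symm (a b : K) : lamP1 abv a b = lamP1 abv b a := by
  unfold lamP1
  refine finsum_congr fun v => ?_
  unfold lamLoc
  rw [← neg_sub a b, map_neg_eq_map]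
  ring

/-- **Exactness on the line**: the pairing symbol of two disjoint effective divisors of the
affine line is the global logarithmic size of their resultant. -/
theorem beta_eq_logSize_res (hfin : ∀ a : K, a ≠ 0 → {v | abv v a ≠ 1}.Finite) (A B : K →₀ ℕ)
    (hdisj : Disjoint A.support B.support) :
    beta (lamP1 abv) (etaP1 abv) A B = logSize abv (res A B) := by
  have hne : ∀ a ∈ A.support, ∀ b ∈ B.support, a - b ≠ 0 := fun a ha b hb =>
    sub_ne_zero.2 fun e => Finset.disjoint_left.1 hdisj ha (e ▸ hb)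
  have hres : logSize abv (res A B) =
      ∑ a ∈ A.support, ∑ b ∈ B.support, (A a : ℝ) * (B b : ℝ) * logSize abv (a - b) := by
    unfold res Finsupp.prod
    rw [logSize_prod hfin _ _ (fun a ha => Finset.prod_ne_zero_iff.2 fun b hb =>
      pow_ne_zero _ (hne a ha b hb))]
    refine Finset.sum_congr rfl fun a ha => ?_
    rw [logSize_prod hfin _ _ (fun b hb => pow_ne_zero _ (hne a ha b hb))]
    refine Finset.sum_congr rfl fun b hb => ?_
    rw [logSize_pow hfin (hne a ha b hb)]
    push_cast; ring
  have hpair : pairG (lamP1 abv) A B = ∑ a ∈ A.support, ∑ b ∈ B.support,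
      (A a : ℝ) * (B b : ℝ) * (etaP1 abv a + etaP1 abv b - logSize abv (a - b)) := by
    unfold pairG Finsupp.sum
    refine Finset.sum_congr rfl fun a ha => Finset.sum_congr rfl fun b hb => ?_
    show (A a : ℝ) * (B b : ℝ) * lamP1 abv a b = _
    rw [lamP1_eq hfin (sub_ne_zero.1 (hne a ha b hb))]
  have hdegA : (deg A : ℝ) = ∑ a ∈ A.support, (A a : ℝ) := by
    unfold deg Finsupp.sum; push_cast; rfl
  have hdegB : (deg B : ℝ) = ∑ b ∈ B.support, (B b : ℝ) := by
    unfold deg Finsupp.sum; push_cast; rfl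
  have hhtA : ht (etaP1 abv) A = ∑ a ∈ A.support, (A a : ℝ) * etaP1 abv a := rfl
  have hhtB : ht (etaP1 abv) B = ∑ b ∈ B.support, (B b : ℝ) * etaP1 abv b := rfl
  unfold beta
  rw [hpair, hres, hdegA, hdegB, hhtA, hhtB, Finset.sum_mul_sum, Finset.sum_mul_sum,
    Finset.sum_comm (s := B.support) (t := A.support), ← Finset.sum_add_distrib,
    ← Finset.sum_sub_distrib]
  refine Finset.sum_congr rfl fun a _ => ?_
  rw [← Finset.sum_add_distrib, ← Finset.sum_sub_distrib]
  refine Finset.sum_congr rfl fun b _ => ?_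
  ring

/-- **Exactness on the line, product-formula form.** -/
theorem beta_eq_zero (hfin : ∀ a : K, a ≠ 0 → {v | abv v a ≠ 1}.Finite) (A B : K →₀ ℕ)
    (hdisj : Disjoint A.support B.support) (hprod : logSize abv (res A B) = 0) :
    beta (lamP1 abv) (etaP1 abv) A B = 0 := by
  rw [beta_eq_logSize_res hfin A B hdisj, hprod]

theorem res_ne_zero (A B : K →₀ ℕ) (hdisj : Disjoint A.support B.support) : res A B ≠ 0 := by
  unfold res Finsupp.prod
  refine Finset.prod_ne_zero_iff.2 fun a ha => Finset.prod_ne_zero_iff.2 fun b hb =>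
    pow_ne_zero _ (sub_ne_zero.2 fun e => Finset.disjoint_left.1 hdisj ha (e ▸ hb))

/-- The resultant is fixed by every automorphism preserving both divisors. -/
theorem map_res (σ : K ≃+* K) (A B : K →₀ ℕ) (hA : ∀ a, A (σ a) = A a)
    (hB : ∀ b, B (σ b) = B b) : σ (res A B) = res A B := by
  have hA' : ∀ a, A (σ.symm a) = A a := fun a => by
    rw [← hA (σ.symm a), σ.apply_symm_apply]
  have hB' : ∀ b, B (σ.symm b) = B b := fun b => by
    rw [← hB (σ.symm b), σ.apply_symm_apply]
  unfold res Finsupp.prod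
  rw [map_prod]
  simp_rw [map_prod, map_pow, map_sub]
  refine Finset.prod_nbij' (fun a => σ a) (fun a => σ.symm a) ?_ ?_ ?_ ?_ ?_
  · intro a ha
    rw [Finsupp.mem_support_iff] at ha ⊢
    rwa [hA]
  · intro a ha
    rw [Finsupp.mem_support_iff] at ha ⊢
    rwa [hA']
  · intro a _; simp
  · intro a _; simp
  · intro a _
    refine Finset.prod_nbij' (fun b => σ b) (fun b => σ.symm b) ?_ ?_ ?_ ?_ ?_
    · intro b hb
      rw [Finsupp.mem_support_iff] at hb ⊢
      rwa [hB]
    · intro b hb
      rw [Finsupp.mem_support_iff] at hb ⊢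
      rwa [hB']
    · intro b _; simp
    · intro b _; simp
    · intro b _
      rw [hA, hB]

/-- Over `AlgebraicClosure ℚ`: Galois-stable divisors have a rational resultant. -/
theorem exists_rat_res (A B : AlgebraicClosure ℚ →₀ ℕ)
    (hA : ∀ (σ : AlgebraicClosure ℚ ≃ₐ[ℚ] AlgebraicClosure ℚ) (a), A (σ a) = A a)
    (hB : ∀ (σ : AlgebraicClosure ℚ ≃ₐ[ℚ] AlgebraicClosure ℚ) (b), B (σ b) = B b) :
    ∃ r : ℚ, algebraMap ℚ (AlgebraicClosure ℚ) r = res A B :=
  Fermat.Agent.Lib.GalQbar.exists_rat_of_fixed _ fun σ =>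
    map_res σ.toRingEquiv A B (hA σ) (hB σ)

/-- **Exactness on the line for Galois-stable divisors over `AlgebraicClosure ℚ`**, given the
product formula on `ℚ`. -/
theorem beta_eq_zero_of_stable {V : Type*} {abv : V → AbsoluteValue (AlgebraicClosure ℚ) ℝ}
    (hfin : ∀ a : AlgebraicClosure ℚ, a ≠ 0 → {v | abv v a ≠ 1}.Finite)
    (hprod : ∀ r : ℚ, r ≠ 0 → ∑ᶠ v, Real.log (abv v (algebraMap ℚ (AlgebraicClosure ℚ) r)) = 0)
    (A B : AlgebraicClosure ℚ →₀ ℕ) (hdisj : Disjoint A.support B.support)
    (hA : ∀ (σ : AlgebraicClosure ℚ ≃ₐ[ℚ] AlgebraicClosure ℚ) (a), A (σ a) = A a)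
    (hB : ∀ (σ : AlgebraicClosure ℚ ≃ₐ[ℚ] AlgebraicClosure ℚ) (b), B (σ b) = B b) :
    beta (lamP1 abv) (etaP1 abv) A B = 0 := by
  obtain ⟨r, hr⟩ := exists_rat_res A B hA hB
  have hr0 : r ≠ 0 := by
    rintro rfl
    rw [map_zero] at hr
    exact res_ne_zero A B hdisj hr.symm
  refine beta_eq_zero hfin A B hdisj ?_
  unfold logSize
  rw [← hr]
  exact hprod r hr0

end Fermat.Agent.MW.HQ.P1Res
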