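/-
MW / HT-Q, helper84 — **exactness of the height pairing on the line, summed over a transversal**.

Continuation of `P1Res.lean`, in the shape of the `(D5)` vocabulary: for a subgroup `U` of
`G_ℚ` with a finite left transversal `S`, the global functions are
`a ↦ ∑ s ∈ S, etaP1 abv (s a)` and `(a, b) ↦ ∑ s ∈ S, lamP1 abv (s a) (s b)`.

* `beta_sum_fun` : `HQ.beta` is additive in the pair `(g, η)`;
* `beta_comp_eq_logSize` : twisting by an automorphism `s` gives the size of `s (res A B)`;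
* `beta_sumEquiv_eq_logSize` : the sum over a finite family of automorphisms;
* `prod_transversal_fixed` : `∏ s ∈ S, s x` is `G_ℚ`-fixed when `x` is `U`-fixed;
* `beta_transversal_eq_zero` : **the pairing symbol of two disjoint `U`-stable divisors of the
  affine line vanishes exactly** (product formula on `ℚ`).
-/
import Mathlib
import Fermat.Agent.MW.HQ.P1Res

set_option autoImplicit false

noncomputable section

namespace Fermat.Agent.MW.HQ.P1ResU

open Fermat.Agent.MW.HQ Fermat.Agent.MW.HQ.P1Res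

/-! ### Linearity of the pairing symbol in `(g, η)` -/

section Linear

variable {P : Type*}

theorem ht_add_fun (η η' : P → ℝ) (D : P →₀ ℕ) :
    ht (fun p => η p + η' p) D = ht η D + ht η' D := by
  unfold ht Finsupp.sum
  rw [← Finset.sum_add_distrib]
  exact Finset.sum_congr rfl fun p _ => by ring

theorem pairG_add_fun (g g' : P → P → ℝ) (D E : P →₀ ℕ) :
    pairG (fun p q => g p q + g' p q) D E = pairG g D E + pairG g' D E := by
  unfold pairG Finsupp.sum
  rw [← Finset.sum_add_distrib]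
  refine Finset.sum_congr rfl fun p _ => ?_
  rw [← Finset.sum_add_distrib]
  exact Finset.sum_congr rfl fun q _ => by ring

theorem beta_add_fun (g g' : P → P → ℝ) (η η' : P → ℝ) (D E : P →₀ ℕ) :
    beta (fun p q => g p q + g' p q) (fun p => η p + η' p) D E =
      beta g η D E + beta g' η' D E := by
  unfold beta
  rw [ht_add_fun, ht_add_fun, pairG_add_fun]
  ring

theorem beta_zero_fun (D E : P →₀ ℕ) : beta (fun _ _ => (0 : ℝ)) (fun _ => (0 : ℝ)) D E = 0 := by
  simp [beta, ht, pairG]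

theorem beta_sum_fun {ι : Type*} (s : Finset ι) (g : ι → P → P → ℝ) (η : ι → P → ℝ)
    (D E : P →₀ ℕ) :
    beta (fun p q => ∑ i ∈ s, g i p q) (fun p => ∑ i ∈ s, η i p) D E =
      ∑ i ∈ s, beta (g i) (η i) D E := by
  classical
  induction s using Finset.induction_on with
  | empty => simpa using beta_zero_fun D E
  | insert i s hi ih =>
    rw [Finset.sum_insert hi, ← ih, ← beta_add_fun]
    congr 1
    · funext p q; rw [Finset.sum_insert hi]
    · funext p; rw [Finset.sum_insert hi]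

end Linear

/-! ### Twisting by automorphisms -/

section Twist

variable {K : Type*} [Field K] {V : Type*} {abv : V → AbsoluteValue K ℝ}

/-- The pairing symbol for the heights twisted by an automorphism `s`. -/
theorem beta_comp_eq_logSize (hfin : ∀ a : K, a ≠ 0 → {v | abv v a ≠ 1}.Finite) (s : K ≃+* K)
    (A B : K →₀ ℕ) (hdisj : Disjoint A.support B.support) :
    beta (fun a b => lamP1 abv (s a) (s b)) (fun a => etaP1 abv (s a)) A B =
      logSize abv (s (res A B)) := by
  have hinj : Function.Injective (s : K →+* K) := s.injective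
  have hfin' : ∀ a : K, a ≠ 0 → {v | (abv v).comp hinj a ≠ 1}.Finite := fun a ha =>
    hfin (s a) (by simpa using ha)
  have h := beta_eq_logSize_res (abv := fun v => (abv v).comp hinj) hfin' A B hdisj
  have e1 : lamP1 (fun v => (abv v).comp hinj) = fun a b => lamP1 abv (s a) (s b) := by
    funext a b
    unfold lamP1
    refine finsum_congr fun v => ?_
    show Real.log (max 1 (abv v (s a))) + Real.log (max 1 (abv v (s b))) -
        Real.log (abv v (s (a - b))) = _
    rw [map_sub]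
    rfl
  have e2 : etaP1 (fun v => (abv v).comp hinj) = fun a => etaP1 abv (s a) := rfl
  have e3 : logSize (fun v => (abv v).comp hinj) (res A B) = logSize abv (s (res A B)) := rfl
  rw [e1, e2, e3] at h
  exact h

/-- The pairing symbol for the heights summed over a finite family of automorphisms. -/
theorem beta_sumEquiv_eq_logSize (hfin : ∀ a : K, a ≠ 0 → {v | abv v a ≠ 1}.Finite)
    {ι : Type*} (S : Finset ι) (φ : ι → K ≃+* K) (A B : K →₀ ℕ)
    (hdisj : Disjoint A.support B.support) :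
    beta (fun a b => ∑ s ∈ S, lamP1 abv (φ s a) (φ s b)) (fun a => ∑ s ∈ S, etaP1 abv (φ s a))
      A B = logSize abv (∏ s ∈ S, φ s (res A B)) := by
  rw [beta_sum_fun S (fun s a b => lamP1 abv (φ s a) (φ s b)) (fun s a => etaP1 abv (φ s a)),
    logSize_prod hfin S _ (fun s _ => by
      simpa using res_ne_zero A B hdisj)]
  exact Finset.sum_congr rfl fun s _ => beta_comp_eq_logSize hfin (φ s) A B hdisj

end Twist

/-! ### Transversals of a subgroup of `G_ℚ` -/

/-- For `x` fixed by `U` and `S` a finite left transversal of `U` in `G_ℚ`, the product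
`∏ s ∈ S, s x` (the norm of `x`) is fixed by all of `G_ℚ`. -/
theorem prod_transversal_fixed
    (U : Subgroup (AlgebraicClosure ℚ ≃ₐ[ℚ] AlgebraicClosure ℚ))
    (S : Finset (AlgebraicClosure ℚ ≃ₐ[ℚ] AlgebraicClosure ℚ))
    (hcov : ∀ g : AlgebraicClosure ℚ ≃ₐ[ℚ] AlgebraicClosure ℚ, ∃ s ∈ S, s⁻¹ * g ∈ U)
    (huniq : ∀ s ∈ S, ∀ s' ∈ S, s⁻¹ * s' ∈ U → s = s')
    (x : AlgebraicClosure ℚ) (hx : ∀ u ∈ U, u x = x)
    (g : AlgebraicClosure ℚ ≃ₐ[ℚ] AlgebraicClosure ℚ) :
    g (∏ s ∈ S, s x) = ∏ s ∈ S, s x := by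
  have key : ∀ s ∈ S, ∃ s' ∈ S, s'⁻¹ * (g * s) ∈ U := fun s _ => hcov (g * s)
  choose! π hπS hπU using key
  have hval : ∀ s ∈ S, g (s x) = π s x := by
    intro s hs
    have h1 := hx _ (hπU s hs)
    have h2 : ((π s)⁻¹ * (g * s)) x = (π s)⁻¹ (g (s x)) := rfl
    rw [h2] at h1
    have h3 : π s ((π s)⁻¹ (g (s x))) = g (s x) := by
      have h4 : π s ((π s)⁻¹ (g (s x))) = (π s * (π s)⁻¹) (g (s x)) := rfl
      rw [h4, mul_inv_cancel]
      rfl
    rw [← h3, h1]
  have hinj : Set.InjOn π (S : Set (AlgebraicClosure ℚ ≃ₐ[ℚ] AlgebraicClosure ℚ)) := by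
    intro s₁ h₁ s₂ h₂ h
    apply huniq s₁ h₁ s₂ h₂
    have e : s₁⁻¹ * s₂ = ((π s₁)⁻¹ * (g * s₁))⁻¹ * ((π s₂)⁻¹ * (g * s₂)) := by
      rw [h]; group
    rw [e]
    exact U.mul_mem (U.inv_mem (hπU s₁ h₁)) (hπU s₂ h₂)
  rw [map_prod, Finset.prod_congr rfl hval]
  exact Finset.prod_nbij π (fun s hs => hπS s hs) hinj
    (Finset.surjOn_of_injOn_of_card_le π (fun s hs => hπS s hs) hinj le_rfl) (fun _ _ => rfl)

/-- **Exactness on the line for `U`-stable divisors, summed over a left transversal of `U`.** -/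
theorem beta_transversal_eq_zero {V : Type*} {abv : V → AbsoluteValue (AlgebraicClosure ℚ) ℝ}
    (hfin : ∀ a : AlgebraicClosure ℚ, a ≠ 0 → {v | abv v a ≠ 1}.Finite)
    (hprod : ∀ r : ℚ, r ≠ 0 → ∑ᶠ v, Real.log (abv v (algebraMap ℚ (AlgebraicClosure ℚ) r)) = 0)
    (U : Subgroup (AlgebraicClosure ℚ ≃ₐ[ℚ] AlgebraicClosure ℚ))
    (S : Finset (AlgebraicClosure ℚ ≃ₐ[ℚ] AlgebraicClosure ℚ))
    (hcov : ∀ g : AlgebraicClosure ℚ ≃ₐ[ℚ] AlgebraicClosure ℚ, ∃ s ∈ S, s⁻¹ * g ∈ U)
    (huniq : ∀ s ∈ S, ∀ s' ∈ S, s⁻¹ * s' ∈ U → s = s')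
    (A B : AlgebraicClosure ℚ →₀ ℕ) (hdisj : Disjoint A.support B.support)
    (hA : ∀ u ∈ U, ∀ a, A (u a) = A a) (hB : ∀ u ∈ U, ∀ b, B (u b) = B b) :
    beta (fun a b => ∑ s ∈ S, lamP1 abv (s a) (s b)) (fun a => ∑ s ∈ S, etaP1 abv (s a)) A B
      = 0 := by
  have h := beta_sumEquiv_eq_logSize hfin S
    (fun s : AlgebraicClosure ℚ ≃ₐ[ℚ] AlgebraicClosure ℚ => s.toRingEquiv) A B hdisj
  have hfix : ∀ u ∈ U, u (res A B) = res A B := fun u hu =>
    map_res u.toRingEquiv A B (hA u hu) (hB u hu)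
  obtain ⟨r, hr⟩ := Fermat.Agent.Lib.GalQbar.exists_rat_of_fixed (∏ s ∈ S, s (res A B))
    (prod_transversal_fixed U S hcov huniq (res A B) hfix)
  have hr0 : r ≠ 0 := by
    rintro rfl
    rw [map_zero] at hr
    have hne : ∏ s ∈ S, s (res A B) ≠ 0 :=
      Finset.prod_ne_zero_iff.2 fun s _ => by simpa using res_ne_zero A B hdisj
    exact hne hr.symm
  have h2 : logSize abv (∏ s ∈ S, s (res A B)) = 0 := by
    unfold logSize
    rw [← hr]
    exact hprod r hr0
  exact h.trans h2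

end Fermat.Agent.MW.HQ.P1ResU
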