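/-
MW / HT-Q, helper84 — **exactness of discriminants on the line**.

For a finite set `A` of points of the affine line, the off-diagonal sum of the global diagonal
height `lamP1` is `2 (#A − 1) · ∑ etaP1` minus the global logarithmic size of the discriminant
`disc A = ∏_{a ≠ b} (a − b)`; for a Galois-stable `A` (stable under a subgroup `U` of `G_ℚ`, with
sums over a left transversal of `U`) the discriminant term vanishes by the product formula.
`exactDisc_of_stable` is literally the field `exactDisc` of `DiscFib.IsRam` / `DiscFibS.IsRamS`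
for one divisor `Z`.
-/
import Mathlib
import Fermat.Agent.MW.HQ.P1ResU
import Fermat.Agent.MW.HQ.DiscFib

set_option autoImplicit false

noncomputable section

namespace Fermat.Agent.MW.HQ.P1Disc

open Fermat.Agent.MW.HQ Fermat.Agent.MW.HQ.P1Res Fermat.Agent.MW.HQ.P1ResU

variable {K : Type*} [Field K] {V : Type*} {abv : V → AbsoluteValue K ℝ}

open Classical in
/-- The discriminant `∏_{a ≠ b} (a − b)` of a finite set of points of the line. -/
def disc (A : Finset K) : K := ∏ a ∈ A, ∏ b ∈ A.erase a, (a - b)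

theorem disc_ne_zero (A : Finset K) : disc A ≠ 0 := by
  classical
  unfold disc
  refine Finset.prod_ne_zero_iff.2 fun a _ => Finset.prod_ne_zero_iff.2 fun b hb => ?_
  exact sub_ne_zero.2 (Finset.ne_of_mem_erase hb).symm

/-- The discriminant is fixed by every automorphism mapping `A` into itself. -/
theorem map_disc (σ : K ≃+* K) (A : Finset K) (hA : ∀ a ∈ A, σ a ∈ A) : σ (disc A) = disc A := by
  classical
  have hsurj : Set.SurjOn σ (A : Set K) (A : Set K) :=
    Finset.surjOn_of_injOn_of_card_le σ (fun a ha => hA a ha) σ.injective.injOn le_rfl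
  unfold disc
  rw [map_prod]
  simp_rw [map_prod, map_sub]
  refine Finset.prod_nbij (fun a => σ a) (fun a ha => hA a ha) σ.injective.injOn hsurj ?_
  intro a ha
  refine Finset.prod_nbij (fun b => σ b) ?_ σ.injective.injOn ?_ (fun _ _ => rfl)
  · intro b hb
    have hb' := Finset.mem_erase.1 hb
    exact Finset.mem_erase.2 ⟨fun h => hb'.1 (σ.injective h), hA b hb'.2⟩
  · intro y hy
    have hy' := Finset.mem_erase.1 (Finset.mem_coe.1 hy)
    obtain ⟨b, hb, rfl⟩ := hsurj (Finset.mem_coe.2 hy'.2)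
    exact ⟨b, Finset.mem_coe.2 (Finset.mem_erase.2
      ⟨fun h => hy'.1 (by rw [h]), Finset.mem_coe.1 hb⟩), rfl⟩

/-- **Exactness of discriminants on the line**, for one family of absolute values. -/
theorem offdiag_eq (hfin : ∀ a : K, a ≠ 0 → {v | abv v a ≠ 1}.Finite) (A : Finset K) :
    ∑ a ∈ A, (∑ b ∈ A, lamP1 abv a b - lamP1 abv a a) =
      2 * ((A.card : ℝ) - 1) * ∑ a ∈ A, etaP1 abv a - logSize abv (disc A) := by
  classical
  have h1 : ∀ a ∈ A, ∑ b ∈ A, lamP1 abv a b - lamP1 abv a a =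
      ∑ b ∈ A.erase a, (etaP1 abv a + etaP1 abv b - logSize abv (a - b)) := by
    intro a ha
    rw [← Finset.add_sum_erase A (fun b => lamP1 abv a b) ha, add_sub_cancel_left]
    exact Finset.sum_congr rfl fun b hb => lamP1_eq hfin (Finset.ne_of_mem_erase hb).symm
  rw [Finset.sum_congr rfl h1]
  have h2 : logSize abv (disc A) = ∑ a ∈ A, ∑ b ∈ A.erase a, logSize abv (a - b) := by
    unfold disc
    rw [logSize_prod hfin _ _ (fun a _ => Finset.prod_ne_zero_iff.2 fun b hb =>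
      sub_ne_zero.2 (Finset.ne_of_mem_erase hb).symm)]
    exact Finset.sum_congr rfl fun a _ =>
      logSize_prod hfin _ _ (fun b hb => sub_ne_zero.2 (Finset.ne_of_mem_erase hb).symm)
  have h3 : ∀ a ∈ A, ∑ b ∈ A.erase a, (etaP1 abv a + etaP1 abv b - logSize abv (a - b)) =
      ((A.card : ℝ) - 1) * etaP1 abv a + (∑ b ∈ A, etaP1 abv b - etaP1 abv a) -
        ∑ b ∈ A.erase a, logSize abv (a - b) := by
    intro a ha
    rw [Finset.sum_sub_distrib, Finset.sum_add_distrib, Finset.sum_const, nsmul_eq_mul,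
      Finset.card_erase_of_mem ha, ← Finset.add_sum_erase A (fun b => etaP1 abv b) ha,
      add_sub_cancel_left, Nat.cast_sub (Finset.card_pos.2 ⟨a, ha⟩), Nat.cast_one]
  rw [Finset.sum_congr rfl h3, h2, Finset.sum_sub_distrib, Finset.sum_add_distrib,
    Finset.sum_sub_distrib, ← Finset.mul_sum, Finset.sum_const, nsmul_eq_mul]
  ring

/-- The same for the heights twisted by an automorphism `s`. -/
theorem offdiag_comp_eq (hfin : ∀ a : K, a ≠ 0 → {v | abv v a ≠ 1}.Finite) (s : K ≃+* K)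
    (A : Finset K) :
    ∑ a ∈ A, (∑ b ∈ A, lamP1 abv (s a) (s b) - lamP1 abv (s a) (s a)) =
      2 * ((A.card : ℝ) - 1) * ∑ a ∈ A, etaP1 abv (s a) - logSize abv (s (disc A)) := by
  have hinj : Function.Injective (s : K →+* K) := s.injective
  have hfin' : ∀ a : K, a ≠ 0 → {v | (abv v).comp hinj a ≠ 1}.Finite := fun a ha =>
    hfin (s a) (by simpa using ha)
  have h := offdiag_eq (abv := fun v => (abv v).comp hinj) hfin' A
  have e1 : lamP1 (fun v => (abv v).comp hinj) = fun a b => lamP1 abv (s a) (s b) := by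
    funext a b
    unfold lamP1
    refine finsum_congr fun v => ?_
    show Real.log (max 1 (abv v (s a))) + Real.log (max 1 (abv v (s b))) -
        Real.log (abv v (s (a - b))) = _
    rw [map_sub]
    rfl
  have e2 : etaP1 (fun v => (abv v).comp hinj) = fun a => etaP1 abv (s a) := rfl
  have e3 : logSize (fun v => (abv v).comp hinj) (disc A) = logSize abv (s (disc A)) := rfl
  rw [e1, e2, e3] at h
  exact h

/-- The same for the heights summed over a finite family of automorphisms. -/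
theorem offdiag_sum_eq (hfin : ∀ a : K, a ≠ 0 → {v | abv v a ≠ 1}.Finite) {ι : Type*}
    (S : Finset ι) (φ : ι → K ≃+* K) (A : Finset K) :
    ∑ a ∈ A, (∑ b ∈ A, (∑ s ∈ S, lamP1 abv (φ s a) (φ s b)) -
        ∑ s ∈ S, lamP1 abv (φ s a) (φ s a)) =
      2 * ((A.card : ℝ) - 1) * ∑ a ∈ A, ∑ s ∈ S, etaP1 abv (φ s a) -
        logSize abv (∏ s ∈ S, φ s (disc A)) := by
  have h1 : ∑ a ∈ A, (∑ b ∈ A, (∑ s ∈ S, lamP1 abv (φ s a) (φ s b)) -
        ∑ s ∈ S, lamP1 abv (φ s a) (φ s a)) =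
      ∑ s ∈ S, ∑ a ∈ A, (∑ b ∈ A, lamP1 abv (φ s a) (φ s b) - lamP1 abv (φ s a) (φ s a)) := by
    rw [Finset.sum_comm]
    refine Finset.sum_congr rfl fun a _ => ?_
    rw [Finset.sum_comm, ← Finset.sum_sub_distrib]
  rw [h1, Finset.sum_congr rfl fun s _ => offdiag_comp_eq hfin (φ s) A, Finset.sum_sub_distrib,
    ← Finset.mul_sum, Finset.sum_comm,
    logSize_prod hfin S _ (fun s _ => by simpa using disc_ne_zero A)]

/-- **Exactness of discriminants for a `U`-stable finite set**, summed over a left transversal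
of `U` in `G_ℚ`. -/
theorem offdiag_transversal_eq {V : Type*} {abv : V → AbsoluteValue (AlgebraicClosure ℚ) ℝ}
    (hfin : ∀ a : AlgebraicClosure ℚ, a ≠ 0 → {v | abv v a ≠ 1}.Finite)
    (hprod : ∀ r : ℚ, r ≠ 0 → ∑ᶠ v, Real.log (abv v (algebraMap ℚ (AlgebraicClosure ℚ) r)) = 0)
    (U : Subgroup (AlgebraicClosure ℚ ≃ₐ[ℚ] AlgebraicClosure ℚ))
    (S : Finset (AlgebraicClosure ℚ ≃ₐ[ℚ] AlgebraicClosure ℚ))
    (hcov : ∀ g : AlgebraicClosure ℚ ≃ₐ[ℚ] AlgebraicClosure ℚ, ∃ s ∈ S, s⁻¹ * g ∈ U)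
    (huniq : ∀ s ∈ S, ∀ s' ∈ S, s⁻¹ * s' ∈ U → s = s')
    (A : Finset (AlgebraicClosure ℚ)) (hA : ∀ u ∈ U, ∀ a ∈ A, u a ∈ A) :
    ∑ a ∈ A, (∑ b ∈ A, (∑ s ∈ S, lamP1 abv (s a) (s b)) - ∑ s ∈ S, lamP1 abv (s a) (s a)) =
      2 * ((A.card : ℝ) - 1) * ∑ a ∈ A, ∑ s ∈ S, etaP1 abv (s a) := by
  have h := offdiag_sum_eq hfin S
    (fun s : AlgebraicClosure ℚ ≃ₐ[ℚ] AlgebraicClosure ℚ => s.toRingEquiv) A
  have hfix : ∀ u ∈ U, u (disc A) = disc A := fun u hu =>
    map_disc u.toRingEquiv A (hA u hu)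
  obtain ⟨r, hr⟩ := Fermat.Agent.Lib.GalQbar.exists_rat_of_fixed (∏ s ∈ S, s (disc A))
    (prod_transversal_fixed U S hcov huniq (disc A) hfix)
  have hr0 : r ≠ 0 := by
    rintro rfl
    rw [map_zero] at hr
    have hne : ∏ s ∈ S, s (disc A) ≠ 0 :=
      Finset.prod_ne_zero_iff.2 fun s _ => by simpa using disc_ne_zero A
    exact hne hr.symm
  have h2 : logSize abv (∏ s ∈ S, s (disc A)) = 0 := by
    unfold logSize
    rw [← hr]
    exact hprod r hr0
  have h3 : logSize abv (∏ s ∈ S,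
      (fun s : AlgebraicClosure ℚ ≃ₐ[ℚ] AlgebraicClosure ℚ => s.toRingEquiv) s (disc A)) = 0 :=
    h2
  rw [h3, sub_zero] at h
  exact h

/-- Transfer to a reduced divisor through an injective coordinate: the shape of the field
`exactDisc` of `DiscFib.IsRam` / `DiscFibS.IsRamS`. -/
theorem exactDisc_of_image {P : Type*} {K : Type*} (gL : K → K → ℝ) (ηL : K → ℝ) (τ : P → K)
    (Z : P →₀ ℕ) (hred : ∀ p, Z p ≤ 1) (hinj : Set.InjOn τ (Z.support : Set P))
    (h : ∀ A : Finset K, (∀ a, a ∈ A ↔ ∃ p ∈ Z.support, τ p = a) →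
      ∑ a ∈ A, (∑ b ∈ A, gL a b - gL a a) = 2 * ((A.card : ℝ) - 1) * ∑ a ∈ A, ηL a) :
    ∑ p ∈ Z.support, (∑ q ∈ Z.support, gL (τ p) (τ q) - gL (τ p) (τ p)) =
      2 * ((deg Z : ℝ) - 1) * ∑ p ∈ Z.support, ηL (τ p) := by
  classical
  have hA := h (Z.support.image τ) (fun a => by simp [Finset.mem_image])
  rw [Finset.sum_image hinj, Finset.sum_image hinj, Finset.card_image_of_injOn hinj] at hA
  rw [Fermat.Agent.MW.HQ.DiscFib.cast_deg_of_reduced hred]
  rw [← hA]
  exact Finset.sum_congr rfl fun p _ => by rw [Finset.sum_image hinj]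

end Fermat.Agent.MW.HQ.P1Disc
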