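/-
MW / HT-Q — the field `pos` of `HeightDatumS` from the three global inequalities
(Disc), (HadK), (HadR)  (abstract bookkeeping; Mathlib + `HQ/Defs` + `HQ/DefsS` only).

For a good `E` of degree `γ` and a residual `R` (`Z = E + R` principal, reduced, in general
position), with `S(D) := pairG g D D` (the pair function vanishes on the diagonal):

* (Disc)  `S(Z) ≥ (2 deg Z + 2γ - 2) · h(Z) - C`;
* (HadK)  `S(E) ≤ 2 κ · h(E) + C`;
* (HadR)  `S(R) ≤ 2 ((deg Z - 1) · h(R) - h(E)) + C`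

give `-β(E, R) ≥ (2γ - κ) · h(E) - C'`; with `κ = 2γ - 1` this is the field `pos`.
-/
import Mathlib
import Fermat.Agent.MW.HQ.Defs
import Fermat.Agent.MW.HQ.DefsS

set_option autoImplicit false

noncomputable section

namespace Fermat.Agent.MW.HQ.PosOfDisc

open Fermat.Agent.MW.HQ

variable {P : Type*}

/-- `S(E + R) = S(E) + 2 G(E, R) + S(R)` for a symmetric pair function. -/
theorem pairG_add_self {g : P → P → ℝ} (hg : ∀ p q, g p q = g q p) (E R : P →₀ ℕ) :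
    pairG g (E + R) (E + R) = pairG g E E + 2 * pairG g E R + pairG g R R := by
  rw [pairG_add_left, pairG_add_right, pairG_add_right, pairG_symm hg R E]
  ring

/-- **The bookkeeping of (Pos)** for one pair `(E, R)`, with explicit constants. -/
theorem neg_beta_ge {g : P → P → ℝ} {η : P → ℝ} (hg : ∀ p q, g p q = g q p) (E R : P →₀ ℕ)
    (γ : ℕ) (κ cD cK cR : ℝ) (hdeg : deg E = γ)
    (hDisc : (2 * (deg (E + R) : ℝ) + 2 * γ - 2) * ht η (E + R) - cD ≤ pairG g (E + R) (E + R))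
    (hK : pairG g E E ≤ 2 * (κ * ht η E) + cK)
    (hR : pairG g R R ≤ 2 * (((deg (E + R) : ℝ) - 1) * ht η R - ht η E) + cR) :
    (2 * γ - κ) * ht η E - (cD + cK + cR) / 2 ≤ -beta g η E R := by
  have h1 := pairG_add_self hg E R
  have h2 : (deg (E + R) : ℝ) = (γ : ℝ) + deg R := by
    rw [deg_add, hdeg]
    push_cast
    ring
  have h3 : ht η (E + R) = ht η E + ht η R := ht_add η E R
  have h4 : (deg E : ℝ) = γ := by rw [hdeg]
  unfold beta
  rw [h1, h3, h2] at hDisc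
  rw [h2] at hR
  rw [h4]
  nlinarith [hDisc, hK, hR]

/-- **The field `pos` from (Disc), (HadK), (HadR).**  `Res E R` is the relation "`R` is an
admissible residual divisor of the good divisor `E`". -/
theorem pos_of_residual {J : Type*} [AddCommGroup J] {g : P → P → ℝ} {η : P → ℝ}
    (hg : ∀ p q, g p q = g q p) (Rat : AddSubmonoid (P →₀ ℕ)) (cl : (P →₀ ℕ) →+ J)
    (far : P → P → Prop) (Good : (P →₀ ℕ) → Prop) (Res : (P →₀ ℕ) → (P →₀ ℕ) → Prop)
    (γ d₁ : ℕ)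
    (hex : ∀ E, Good E → ∃ R, Res E R)
    (hres : ∀ E R, Good E → Res E R → R ∈ Rat ∧ cl (E + R) = 0 ∧ deg R ≤ d₁ ∧ Far far E R)
    (hdeg : ∀ E, Good E → deg E = γ)
    (hDisc : ∃ C : ℝ, ∀ E R, Good E → Res E R →
      (2 * (deg (E + R) : ℝ) + 2 * γ - 2) * ht η (E + R) - C ≤ pairG g (E + R) (E + R))
    (hK : ∃ C : ℝ, ∀ E, Good E → pairG g E E ≤ 2 * ((2 * (γ : ℝ) - 1) * ht η E) + C)
    (hR : ∃ C : ℝ, ∀ E R, Good E → Res E R →
      pairG g R R ≤ 2 * (((deg (E + R) : ℝ) - 1) * ht η R - ht η E) + C) :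
    ∃ C : ℝ, ∀ E, Good E → ∃ R ∈ Rat, cl (E + R) = 0 ∧ deg R ≤ d₁ ∧
      Far far E R ∧ ht η E - C ≤ -beta g η E R := by
  obtain ⟨cD, hcD⟩ := hDisc
  obtain ⟨cK, hcK⟩ := hK
  obtain ⟨cR, hcR⟩ := hR
  refine ⟨(cD + cK + cR) / 2, fun E hE => ?_⟩
  obtain ⟨R, hER⟩ := hex E hE
  obtain ⟨h1, h2, h3, h4⟩ := hres E R hE hER
  refine ⟨R, h1, h2, h3, h4, ?_⟩
  have h5 := neg_beta_ge hg E R γ (2 * (γ : ℝ) - 1) cD cK cR (hdeg E hE) (hcD E R hE hER)
    (hcK E hE) (hcR E R hE hER)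
  have h6 : (2 * (γ : ℝ) - (2 * (γ : ℝ) - 1)) * ht η E = ht η E := by ring
  rw [h6] at h5
  exact h5

end Fermat.Agent.MW.HQ.PosOfDisc
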