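/-
MW / HT-Q, row HQ-2 (helper90): `Q x := B x x` is quasi-quadratic and computes `−β(D, R)` for
rational disjoint `D`, `R` with `cl (D + R) = 0`.

Input: the conclusion of HQ-1 (`PairingDatum.exists_bilin`) as hypotheses `h1`, `h2`, `h3`.
-/
import Mathlib
import Fermat.Agent.MW.HQ.Defs

set_option autoImplicit false

noncomputable section

namespace Fermat.Agent.MW.HQ

variable {J : Type*} [AddCommGroup J] {P : Type*}

/-- **HQ-2.**  A quasi-bilinear, quasi-symmetric `B` computed by `β` on rational disjoint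
representatives satisfies the quasi-parallelogram law on the diagonal, and
`B (cl D) (cl D) = −β(D, R) + O_e(1)` whenever `cl (D + R) = 0`. -/
theorem quad_of_bilin (𝒟 : PairingDatum J P) (B : J → J → ℝ)
    (h1 : ∃ C : ℝ, ∀ x x' y, |B (x + x') y - B x y - B x' y| ≤ C)
    (h2 : ∃ C : ℝ, ∀ x y, |B x y - B y x| ≤ C)
    (h3 : ∀ e : ℕ, ∃ C : ℝ, ∀ D ∈ 𝒟.Rat, ∀ E ∈ 𝒟.Rat, deg D ≤ e → deg E ≤ e →
        Disjoint D.support E.support → |B (𝒟.cl D) (𝒟.cl E) - beta 𝒟.g 𝒟.η D E| ≤ C) :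
    (∃ C : ℝ, ∀ x y, |B (x + y) (x + y) + B (x - y) (x - y) - 2 * (B x x + B y y)| ≤ C) ∧
      (∀ e : ℕ, ∃ C : ℝ, ∀ D ∈ 𝒟.Rat, ∀ R ∈ 𝒟.Rat, deg D ≤ e → deg R ≤ e →
        Disjoint D.support R.support → 𝒟.cl (D + R) = 0 →
          |B (𝒟.cl D) (𝒟.cl D) + beta 𝒟.g 𝒟.η D R| ≤ C) := by
  obtain ⟨C₁, hC₁⟩ := h1
  obtain ⟨C₂, hC₂⟩ := h2
  obtain ⟨C₃, hC₃⟩ := h3 𝒟.d₀
  -- additivity in the first variable, symmetry
  have a1 : ∀ x x' y, -C₁ ≤ B (x + x') y - B x y - B x' y ∧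
      B (x + x') y - B x y - B x' y ≤ C₁ := fun x x' y => abs_le.1 (hC₁ x x' y)
  have s : ∀ x y, -C₂ ≤ B x y - B y x ∧ B x y - B y x ≤ C₂ := fun x y => abs_le.1 (hC₂ x y)
  -- `B x 0` is bounded
  have z : ∀ x, -C₃ ≤ B x 0 ∧ B x 0 ≤ C₃ := by
    intro x
    obtain ⟨D, hD, hclD, hdD, -⟩ := 𝒟.rep x ∅
    have h := hC₃ D hD 0 𝒟.Rat.zero_mem hdD (by simp) (by simp)
    rw [hclD, map_zero, beta_zero_right, sub_zero] at h
    exact abs_le.1 h
  -- additivity in the second variable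
  have a2 : ∀ x y y', -(C₁ + 3 * C₂) ≤ B x (y + y') - B x y - B x y' ∧
      B x (y + y') - B x y - B x y' ≤ C₁ + 3 * C₂ := by
    intro x y y'
    have e1 := a1 y y' x
    have e2 := s x (y + y')
    have e3 := s x y
    have e4 := s x y'
    constructor <;> linarith [e1.1, e1.2, e2.1, e2.2, e3.1, e3.2, e4.1, e4.2]
  -- negation in the second variable
  have n2 : ∀ x y, -(C₁ + 3 * C₂ + C₃) ≤ B x y + B x (-y) ∧
      B x y + B x (-y) ≤ C₁ + 3 * C₂ + C₃ := by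
    intro x y
    have h := a2 x y (-y)
    rw [add_neg_cancel] at h
    have hz := z x
    constructor <;> linarith [h.1, h.2, hz.1, hz.2]
  -- negation in the first variable
  have n1 : ∀ x y, -(C₁ + 5 * C₂ + C₃) ≤ B x y + B (-x) y ∧
      B x y + B (-x) y ≤ C₁ + 5 * C₂ + C₃ := by
    intro x y
    have e1 := n2 y x
    have e2 := s x y
    have e3 := s (-x) y
    constructor <;> linarith [e1.1, e1.2, e2.1, e2.2, e3.1, e3.2]
  refine ⟨⟨10 * C₁ + 28 * C₂ + 4 * C₃, fun x y => ?_⟩, fun e => ?_⟩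
  · rw [sub_eq_add_neg x y, abs_le]
    have e1 := a1 x y (x + y)
    have e2 := a2 x x y
    have e3 := a2 y x y
    have e4 := a1 x (-y) (x + -y)
    have e5 := a2 x x (-y)
    have e6 := a2 (-y) x (-y)
    have e7 := n2 x y
    have e8 := n1 y x
    have e9 := n1 y (-y)
    have e10 := n2 y y
    constructor <;>
      linarith [e1.1, e1.2, e2.1, e2.2, e3.1, e3.2, e4.1, e4.2, e5.1, e5.2, e6.1, e6.2, e7.1,
        e7.2, e8.1, e8.2, e9.1, e9.2, e10.1, e10.2]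
  · obtain ⟨C₄, hC₄⟩ := h3 e
    refine ⟨C₄ + (C₁ + 3 * C₂ + C₃), fun D hD R hR hdD hdR hdis hcl => ?_⟩
    have hclR : 𝒟.cl R = -𝒟.cl D := by
      rw [map_add] at hcl
      exact eq_neg_of_add_eq_zero_right hcl
    have h := abs_le.1 (hC₄ D hD R hR hdD hdR hdis)
    rw [hclR] at h
    have hn := n2 (𝒟.cl D) (𝒟.cl D)
    rw [abs_le]
    constructor <;> linarith [h.1, h.2, hn.1, hn.2]

end Fermat.Agent.MW.HQ
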