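/-
MW / HT-Q, row HQS-3 (helper97): the pairing with a FIXED rational divisor is `o(height)`.

For a `PairingDatumS` whose pair function is bounded below off the diagonal and whose point
heights are nonnegative: for a fixed rational `B₀`, every degree bound `e` and every `ε > 0`,

  `|β(B₀, E)| ≤ ε · h(E) + C`   for all rational `E` of degree `≤ e` in general position with `B₀`.

Proof (directly from `rep` and `recip`, no pairing `B` needed).  Fix `N ≥ d₀ / ε` and `e + 1`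
mutually far representatives `D₀, …, D_e` of `N • cl B₀` (and `D'₀, …, D'_e` of `-(N • cl B₀)`),
all of degree `≤ d₀`.  A divisor `E` of degree `≤ e` is in general position with one of the `D_i`
(pigeonhole: the negation of `far` is transitive).  By reciprocity
`N · β(B₀, E) = β(D_i, E) + O(1)` and `N · β(B₀, E) = -β(D'_i, E) + O(1)`, and
`β(D, E) ≤ e · h(D) + d₀ · h(E) + c · d₀ · e` for `D`, `E` disjoint.
Everything here is Mathlib-only (plus `HQ/Defs.lean`, `HQ/DefsS.lean`).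
-/
import Mathlib
import Fermat.Agent.MW.HQ.DefsS

set_option autoImplicit false

noncomputable section

namespace Fermat.Agent.MW.HQ

variable {J : Type*} [AddCommGroup J] {P : Type*}

theorem deg_nsmul (n : ℕ) (D : P →₀ ℕ) : deg (n • D) = n * deg D := by
  induction n with
  | zero => simp
  | succ n ih => rw [succ_nsmul, deg_add, ih]; ring

theorem beta_nsmul_left (g : P → P → ℝ) (η : P → ℝ) (n : ℕ) (D E : P →₀ ℕ) :
    beta g η (n • D) E = n * beta g η D E := by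
  induction n with
  | zero => simp
  | succ n ih => rw [succ_nsmul, beta_add_left, ih]; push_cast; ring

theorem Far.nsmul_left {far : P → P → Prop} {D E : P →₀ ℕ} (h : Far far D E) (n : ℕ) :
    Far far (n • D) E := by
  intro p hp q hq
  exact h p (Finsupp.support_smul hp) q hq

theorem card_support_le_deg (D : P →₀ ℕ) : D.support.card ≤ deg D := by
  unfold deg Finsupp.sum
  calc D.support.card = ∑ _p ∈ D.support, 1 := by simp
    _ ≤ ∑ p ∈ D.support, D p :=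
      Finset.sum_le_sum fun p hp => Nat.one_le_iff_ne_zero.2 (Finsupp.mem_support_iff.1 hp)

theorem deg_cast_eq_sum (D : P →₀ ℕ) : (deg D : ℝ) = ∑ p ∈ D.support, (D p : ℝ) := by
  unfold deg Finsupp.sum
  push_cast
  rfl

/-- If the pair function is `≥ -c` off the diagonal, the mutual energy of disjoint divisors is
`≥ -c · deg · deg`. -/
theorem neg_le_pairG {g : P → P → ℝ} {c : ℝ} (hg : ∀ p q, p ≠ q → -c ≤ g p q) {D E : P →₀ ℕ}
    (h : Disjoint D.support E.support) : -(c * deg D * deg E) ≤ pairG g D E := by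
  have h1 : c * (deg D : ℝ) * (deg E : ℝ)
      = ∑ p ∈ D.support, ∑ q ∈ E.support, (D p : ℝ) * (E q : ℝ) * c := by
    rw [deg_cast_eq_sum, deg_cast_eq_sum, mul_assoc, Finset.sum_mul_sum, Finset.mul_sum]
    refine Finset.sum_congr rfl fun p _ => ?_
    rw [Finset.mul_sum]
    refine Finset.sum_congr rfl fun q _ => ?_
    ring
  have h2 : 0 ≤ pairG g D E + c * (deg D : ℝ) * (deg E : ℝ) := by
    rw [h1]
    unfold pairG Finsupp.sum
    rw [← Finset.sum_add_distrib]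
    refine Finset.sum_nonneg fun p hp => ?_
    rw [← Finset.sum_add_distrib]
    refine Finset.sum_nonneg fun q hq => ?_
    have hne : p ≠ q := fun e => Finset.disjoint_left.1 h hp (e ▸ hq)
    have h3 := hg p q hne
    have h4 : (0 : ℝ) ≤ (D p : ℝ) * (E q : ℝ) :=
      mul_nonneg (Nat.cast_nonneg _) (Nat.cast_nonneg _)
    have h5 : (D p : ℝ) * (E q : ℝ) * g p q + (D p : ℝ) * (E q : ℝ) * c
        = (D p : ℝ) * (E q : ℝ) * (g p q + c) := by ring
    rw [h5]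
    exact mul_nonneg h4 (by linarith)
  linarith

/-- Upper bound for `β(D, E)`, `D` and `E` disjoint. -/
theorem beta_le_of_disjoint {g : P → P → ℝ} {η : P → ℝ} {c : ℝ} (hc : 0 ≤ c)
    (hg : ∀ p q, p ≠ q → -c ≤ g p q) (hη : ∀ p, 0 ≤ η p) {D E : P →₀ ℕ}
    (h : Disjoint D.support E.support) {d e : ℕ} {H : ℝ} (hd : deg D ≤ d) (he : deg E ≤ e)
    (hH : ht η D ≤ H) : beta g η D E ≤ e * H + d * ht η E + c * d * e := by
  have h1 := neg_le_pairG hg h
  have hdD : (deg D : ℝ) ≤ d := by exact_mod_cast hd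
  have hdE : (deg E : ℝ) ≤ e := by exact_mod_cast he
  have h2 : (deg E : ℝ) * ht η D ≤ e * H :=
    mul_le_mul hdE hH (ht_nonneg hη D) (Nat.cast_nonneg e)
  have h3 : (deg D : ℝ) * ht η E ≤ d * ht η E :=
    mul_le_mul_of_nonneg_right hdD (ht_nonneg hη E)
  have h4 : c * (deg D : ℝ) * (deg E : ℝ) ≤ c * d * e :=
    mul_le_mul (mul_le_mul_of_nonneg_left hdD hc) hdE (Nat.cast_nonneg _)
      (mul_nonneg hc (Nat.cast_nonneg _))
  unfold beta
  linarith

namespace PairingDatumS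

variable (𝒟 : PairingDatumS J P)

/-- `k` mutually far rational representatives of a class, all of degree `≤ d₀`. -/
theorem exists_family (y : J) (k : ℕ) :
    ∃ D : Fin k → (P →₀ ℕ), (∀ i, D i ∈ 𝒟.Rat ∧ 𝒟.cl (D i) = y ∧ deg (D i) ≤ 𝒟.d₀) ∧
      ∀ i j, i ≠ j → Far 𝒟.far (D i) (D j) := by
  classical
  induction k with
  | zero => exact ⟨Fin.elim0, fun i => i.elim0, fun i => i.elim0⟩
  | succ k ih =>
    obtain ⟨D, hD, hfar⟩ := ih
    obtain ⟨D₀, hD₀, hcl, hdeg, hS⟩ := 𝒟.rep y (Finset.univ.biUnion fun i => (D i).support)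
    have hnew : ∀ j, Far 𝒟.far D₀ (D j) := by
      intro j p hp q hq
      exact hS p hp q (Finset.mem_biUnion.2 ⟨j, Finset.mem_univ _, hq⟩)
    refine ⟨Fin.cons D₀ D, ?_, ?_⟩
    · intro i
      refine Fin.cases ?_ (fun i => ?_) i
      · simpa using ⟨hD₀, hcl, hdeg⟩
      · simpa using hD i
    · intro i j
      refine Fin.cases ?_ (fun i => ?_) i <;> refine Fin.cases ?_ (fun j => ?_) j
      · intro h
        exact absurd rfl h
      · intro _
        simpa using hnew j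
      · intro _
        simpa using (hnew i).symm 𝒟.far_symm
      · intro h
        simpa using hfar i j (fun e => h (by rw [e]))

/-- Pigeonhole: a divisor of degree `< k` is in general position with one of `k` mutually far
divisors. -/
theorem exists_far_index {k : ℕ} (D : Fin k → (P →₀ ℕ))
    (hfar : ∀ i j, i ≠ j → Far 𝒟.far (D i) (D j)) (E : P →₀ ℕ) (hE : deg E < k) :
    ∃ i, Far 𝒟.far (D i) E := by
  classical
  by_contra hcon
  have h1 : ∀ i, ∃ p ∈ (D i).support, ∃ q ∈ E.support, ¬ 𝒟.far p q := by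
    intro i
    by_contra hi
    refine hcon ⟨i, fun p hp q hq => ?_⟩
    by_contra hf
    exact hi ⟨p, hp, q, hq, hf⟩
  choose p hp q hq hpq using h1
  have hinj : Function.Injective q := by
    intro i j hij
    by_contra hne
    have h2 : ¬ 𝒟.far (q i) (p j) := fun hf => hpq j (by rw [← hij]; exact 𝒟.far_symm _ _ hf)
    exact 𝒟.near_trans (p i) (q i) (p j) (hpq i) h2 (hfar i j hne (p i) (hp i) (p j) (hp j))
  have h3 : (Finset.univ : Finset (Fin k)).card ≤ E.support.card :=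
    Finset.card_le_card_of_injOn q (fun i _ => hq i) hinj.injOn
  have h4 := card_support_le_deg E
  rw [Finset.card_univ, Fintype.card_fin] at h3
  omega

/-- **HQS-3.**  The pairing with a fixed rational divisor is `o(height)`: for every `ε > 0`,
`|β(B₀, E)| ≤ ε · h(E) + C` for all rational `E` of bounded degree in general position with
`B₀`. -/
theorem small (𝒟 : PairingDatumS J P)
    (hg : ∃ c : ℝ, ∀ p q, p ≠ q → -c ≤ 𝒟.g p q) (hη : ∀ p, 0 ≤ 𝒟.η p)
    (B₀ : P →₀ ℕ) (hB₀ : B₀ ∈ 𝒟.Rat) (e : ℕ) (ε : ℝ) (hε : 0 < ε) :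
    ∃ C : ℝ, ∀ E ∈ 𝒟.Rat, deg E ≤ e → Far 𝒟.far B₀ E →
      |beta 𝒟.g 𝒟.η B₀ E| ≤ ε * ht 𝒟.η E + C := by
  classical
  obtain ⟨c₀, hc₀⟩ := hg
  set c : ℝ := max c₀ 0 with hc
  have hc0 : 0 ≤ c := le_max_right _ _
  have hgc : ∀ p q, p ≠ q → -c ≤ 𝒟.g p q := fun p q hpq =>
    le_trans (neg_le_neg (le_max_left _ _)) (hc₀ p q hpq)
  -- the multiplier `N`
  obtain ⟨N, hN⟩ := exists_nat_gt ((𝒟.d₀ : ℝ) / ε)
  have hN' : (𝒟.d₀ : ℝ) ≤ ε * N := by
    have h := (div_lt_iff₀ hε).1 hN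
    linarith
  have hN0 : (0 : ℝ) < N := lt_of_le_of_lt (div_nonneg (Nat.cast_nonneg _) hε.le) hN
  have hN1 : (1 : ℝ) ≤ N := Nat.one_le_cast.2 (Nat.cast_pos.1 hN0)
  -- the two families
  set y : J := N • 𝒟.cl B₀ with hy
  obtain ⟨D, hD, hDfar⟩ := 𝒟.exists_family y (e + 1)
  obtain ⟨D', hD', hD'far⟩ := 𝒟.exists_family (-y) (e + 1)
  set H : ℝ := ∑ i, ht 𝒟.η (D i) + ∑ i, ht 𝒟.η (D' i) with hH
  have hs1 : 0 ≤ ∑ j, ht 𝒟.η (D j) := Finset.sum_nonneg fun j _ => ht_nonneg hη (D j)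
  have hs2 : 0 ≤ ∑ j, ht 𝒟.η (D' j) := Finset.sum_nonneg fun j _ => ht_nonneg hη (D' j)
  have hHD : ∀ i, ht 𝒟.η (D i) ≤ H := by
    intro i
    have h1 : ht 𝒟.η (D i) ≤ ∑ j, ht 𝒟.η (D j) :=
      Finset.single_le_sum (f := fun j => ht 𝒟.η (D j)) (fun j _ => ht_nonneg hη (D j))
        (Finset.mem_univ i)
    linarith
  have hHD' : ∀ i, ht 𝒟.η (D' i) ≤ H := by
    intro i
    have h1 : ht 𝒟.η (D' i) ≤ ∑ j, ht 𝒟.η (D' j) :=
      Finset.single_le_sum (f := fun j => ht 𝒟.η (D' j)) (fun j _ => ht_nonneg hη (D' j))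
        (Finset.mem_univ i)
    linarith
  obtain ⟨C₁, hC₁⟩ := 𝒟.recip (N * deg B₀ + 𝒟.d₀) e
  obtain ⟨C₂, hC₂⟩ := 𝒟.recip (2 * 𝒟.d₀) e
  set K : ℝ := C₁ + C₂ + e * H + c * 𝒟.d₀ * e with hK
  set K' : ℝ := C₁ + e * H + c * 𝒟.d₀ * e with hK'
  refine ⟨|K| + |K'|, fun E hE hdE hfarE => ?_⟩
  have hhtE : 0 ≤ ht 𝒟.η E := ht_nonneg hη E
  have hNB : N • B₀ ∈ 𝒟.Rat := 𝒟.Rat.nsmul_mem hB₀ N
  have hNBfar : Far 𝒟.far (N • B₀) E := hfarE.nsmul_left N
  have hNBβ : beta 𝒟.g 𝒟.η (N • B₀) E = N * beta 𝒟.g 𝒟.η B₀ E := beta_nsmul_left _ _ _ _ _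
  have hNBcl : 𝒟.cl (N • B₀) = y := map_nsmul _ _ _
  have hNBdeg : deg (N • B₀) = N * deg B₀ := deg_nsmul _ _
  -- upper bound
  have hup : N * beta 𝒟.g 𝒟.η B₀ E ≤ 𝒟.d₀ * ht 𝒟.η E + K := by
    obtain ⟨i, hi⟩ := 𝒟.exists_far_index D hDfar E (by omega)
    obtain ⟨R, hR, hclR, hdR, hRfar⟩ := 𝒟.rep (-y) E.support
    have hRfar' : Far 𝒟.far R E := hRfar
    have h1 : |beta 𝒟.g 𝒟.η (N • B₀ + R) E| ≤ C₁ :=
      hC₁ (N • B₀ + R) (𝒟.Rat.add_mem hNB hR) (by rw [map_add, hNBcl, hclR, add_neg_cancel])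
        (by rw [deg_add, hNBdeg]; omega) E hE hdE (hNBfar.add_left hRfar')
    have h2 : |beta 𝒟.g 𝒟.η (D i + R) E| ≤ C₂ :=
      hC₂ (D i + R) (𝒟.Rat.add_mem (hD i).1 hR)
        (by rw [map_add, (hD i).2.1, hclR, add_neg_cancel])
        (by rw [deg_add]; have := (hD i).2.2; omega) E hE hdE (hi.add_left hRfar')
    have h3 := beta_le_of_disjoint hc0 hgc hη (hi.disjoint 𝒟.far_irrefl) (hD i).2.2 hdE (hHD i)
    rw [beta_add_left] at h1 h2
    rw [hNBβ] at h1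
    have h4 := (abs_le.1 h1).2
    have h5 := (abs_le.1 h2).1
    rw [hK]
    linarith
  -- lower bound
  have hlow : -(𝒟.d₀ * ht 𝒟.η E + K') ≤ N * beta 𝒟.g 𝒟.η B₀ E := by
    obtain ⟨i, hi⟩ := 𝒟.exists_far_index D' hD'far E (by omega)
    have h1 : |beta 𝒟.g 𝒟.η (N • B₀ + D' i) E| ≤ C₁ :=
      hC₁ (N • B₀ + D' i) (𝒟.Rat.add_mem hNB (hD' i).1)
        (by rw [map_add, hNBcl, (hD' i).2.1, add_neg_cancel])
        (by rw [deg_add, hNBdeg]; have := (hD' i).2.2; omega) E hE hdE (hNBfar.add_left hi)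
    have h3 := beta_le_of_disjoint hc0 hgc hη (hi.disjoint 𝒟.far_irrefl) (hD' i).2.2 hdE
      (hHD' i)
    rw [beta_add_left, hNBβ] at h1
    have h4 := (abs_le.1 h1).1
    rw [hK']
    linarith
  -- conclusion
  have hd : (𝒟.d₀ : ℝ) * ht 𝒟.η E ≤ N * (ε * ht 𝒟.η E) := by
    calc (𝒟.d₀ : ℝ) * ht 𝒟.η E ≤ (ε * N) * ht 𝒟.η E := mul_le_mul_of_nonneg_right hN' hhtE
      _ = N * (ε * ht 𝒟.η E) := by ring
  have hK1 : K ≤ N * |K| := (le_abs_self K).trans (le_mul_of_one_le_left (abs_nonneg K) hN1)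
  have hK1' : K' ≤ N * |K'| :=
    (le_abs_self K').trans (le_mul_of_one_le_left (abs_nonneg K') hN1)
  have hK2 : 0 ≤ (N : ℝ) * |K| := mul_nonneg hN0.le (abs_nonneg K)
  have hK2' : 0 ≤ (N : ℝ) * |K'| := mul_nonneg hN0.le (abs_nonneg K')
  rw [abs_le]
  constructor
  · have h : (N : ℝ) * (-(ε * ht 𝒟.η E + (|K| + |K'|))) ≤ N * beta 𝒟.g 𝒟.η B₀ E := by
      have e1 : (N : ℝ) * (-(ε * ht 𝒟.η E + (|K| + |K'|)))
          = -(N * (ε * ht 𝒟.η E)) - N * |K| - N * |K'| := by ring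
      rw [e1]
      linarith
    exact le_of_mul_le_mul_left h hN0
  · have h : (N : ℝ) * beta 𝒟.g 𝒟.η B₀ E ≤ N * (ε * ht 𝒟.η E + (|K| + |K'|)) := by
      have e1 : (N : ℝ) * (ε * ht 𝒟.η E + (|K| + |K'|))
          = N * (ε * ht 𝒟.η E) + N * |K| + N * |K'| := by ring
      rw [e1]
      linarith
    exact le_of_mul_le_mul_left h hN0

end PairingDatumS

end Fermat.Agent.MW.HQ
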