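/-
MW / HT-Q, row HQ-3a (helper13): Tate's limit.  A quasi-quadratic function on an abelian group
is within `O(1)` of an exact quadratic one; standard consequences of the exact parallelogram law.
Mathlib only.
-/
import Mathlib

set_option autoImplicit false

noncomputable section

namespace Fermat.Agent.MW.HQ

open Filter Topology

variable {J : Type*} [AddCommGroup J]

/-! ### Exact quadratic functions -/

/-- The symmetric form attached to a quadratic function. -/
def bform (Qh : J → ℝ) (x y : J) : ℝ := (Qh (x + y) - Qh x - Qh y) / 2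

theorem quad_add (Qh : J → ℝ) (x y : J) : Qh (x + y) = Qh x + Qh y + 2 * bform Qh x y := by
  unfold bform
  ring

theorem bform_symm (Qh : J → ℝ) (x y : J) : bform Qh x y = bform Qh y x := by
  unfold bform
  rw [add_comm x y]
  ring

section Exact

variable {Qh : J → ℝ} (h : ∀ x y, Qh (x + y) + Qh (x - y) = 2 * (Qh x + Qh y))

include h

theorem quad_zero : Qh 0 = 0 := by
  have := h 0 0
  simp only [add_zero, sub_zero] at this
  linarith

theorem quad_neg (x : J) : Qh (-x) = Qh x := by
  have h0 := quad_zero h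
  have := h 0 x
  rw [zero_add, zero_sub, h0] at this
  linarith

theorem quad_sub_comm (x y : J) : Qh (x - y) = Qh (y - x) := by
  rw [← quad_neg h (x - y), neg_sub]

theorem quad_two_nsmul (x : J) : Qh (2 • x) = 4 * Qh x := by
  have := h x x
  rw [sub_self, quad_zero h, ← two_nsmul] at this
  linarith

theorem quad_nsmul (n : ℕ) (x : J) : Qh (n • x) = (n : ℝ) ^ 2 * Qh x := by
  induction n using Nat.strong_induction_on with
  | _ n ih =>
    rcases n with _ | _ | n
    · simp [quad_zero h]
    · simp
    · have h1 := h ((n + 1) • x) x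
      have e1 : (n + 1) • x + x = (n + 1 + 1) • x := by rw [succ_nsmul x (n + 1)]
      have e2 : (n + 1) • x - x = n • x := by rw [succ_nsmul x n, add_sub_cancel_right]
      rw [e1, e2, ih n (by omega), ih (n + 1) (by omega)] at h1
      push_cast at h1 ⊢
      linarith

theorem four_bform (x y : J) : 4 * bform Qh x y = Qh (x + y) - Qh (x - y) := by
  have := h x y
  unfold bform
  linarith

theorem bform_zero_left (y : J) : bform Qh 0 y = 0 := by
  unfold bform
  rw [zero_add, quad_zero h]
  ring

theorem bform_two_nsmul_left (x y : J) : bform Qh (2 • x) y = 2 * bform Qh x y := by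
  -- (1) - (2) of the classical proof with x' = x
  have h1 := h (x + y) x
  have h2 := h (x - y) x
  have e1 : x + y + x = 2 • x + y := by rw [two_nsmul]; abel
  have e2 : x + y - x = y := by abel
  have e3 : x - y + x = 2 • x - y := by rw [two_nsmul]; abel
  have e4 : x - y - x = -y := by abel
  rw [e1, e2] at h1
  rw [e3, e4, quad_neg h] at h2
  have h3 := four_bform h (2 • x) y
  have h4 := four_bform h x y
  linarith

theorem bform_add_left (x x' y : J) : bform Qh (x + x') y = bform Qh x y + bform Qh x' y := by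
  -- `B'(a + b, y) + B'(a - b, y) = 2 B'(a, y)` with `B' = 4 • bform`
  have key : ∀ a b : J, bform Qh (a + b) y + bform Qh (a - b) y = 2 * bform Qh a y := by
    intro a b
    have h1 := h (a + y) b
    have h2 := h (a - y) b
    have e1 : a + y + b = a + b + y := by abel
    have e2 : a + y - b = a - b + y := by abel
    have e3 : a - y + b = a + b - y := by abel
    have e4 : a - y - b = a - b - y := by abel
    rw [e1, e2] at h1
    rw [e3, e4] at h2
    have h3 := four_bform h (a + b) y
    have h4 := four_bform h (a - b) y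
    have h5 := four_bform h a y
    linarith
  have h1 := key (x + x') (x - x')
  have e1 : x + x' + (x - x') = 2 • x := by rw [two_nsmul]; abel
  have e2 : x + x' - (x - x') = 2 • x' := by rw [two_nsmul]; abel
  rw [e1, e2, bform_two_nsmul_left h, bform_two_nsmul_left h] at h1
  linarith

theorem bform_add_right (x y y' : J) : bform Qh x (y + y') = bform Qh x y + bform Qh x y' := by
  rw [bform_symm Qh x (y + y'), bform_add_left h, bform_symm Qh y x, bform_symm Qh y' x]

theorem bform_nsmul_left (n : ℕ) (x y : J) : bform Qh (n • x) y = (n : ℝ) * bform Qh x y := by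
  induction n with
  | zero => simp [bform_zero_left h]
  | succ n ih =>
    rw [succ_nsmul, bform_add_left h, ih]
    push_cast
    ring

/-- `Qh (n • x + c) = n² Qh x + 2 n B(x, c) + Qh c`. -/
theorem quad_nsmul_add (n : ℕ) (x c : J) :
    Qh (n • x + c) = (n : ℝ) ^ 2 * Qh x + 2 * (n : ℝ) * bform Qh x c + Qh c := by
  rw [quad_add Qh (n • x) c, quad_nsmul h, bform_nsmul_left h]
  ring

end Exact

/-! ### Tate's limit -/

/-- **Tate's lemma**: a quasi-quadratic function is within `O(1)` of an exact quadratic one. -/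
theorem exists_quadratic_of_quasi (Q : J → ℝ) (C : ℝ)
    (hQ : ∀ x y, |Q (x + y) + Q (x - y) - 2 * (Q x + Q y)| ≤ C) :
    ∃ Qh : J → ℝ, (∀ x y, Qh (x + y) + Qh (x - y) = 2 * (Qh x + Qh y)) ∧
      ∃ C' : ℝ, ∀ x, |Qh x - Q x| ≤ C' := by
  set D : ℝ := C + |Q 0| with hD
  have hC0 : 0 ≤ C := le_trans (abs_nonneg _) (hQ 0 0)
  have hD0 : 0 ≤ D := add_nonneg hC0 (abs_nonneg _)
  -- the doubling estimate
  have hdbl : ∀ x : J, |Q (2 • x) - 4 * Q x| ≤ D := by
    intro x
    have h1 := hQ x x
    rw [sub_self, ← two_nsmul] at h1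
    have h2 : Q (2 • x) - 4 * Q x = (Q (2 • x) + Q 0 - 2 * (Q x + Q x)) - Q 0 := by ring
    rw [h2]
    calc |Q (2 • x) + Q 0 - 2 * (Q x + Q x) - Q 0|
        ≤ |Q (2 • x) + Q 0 - 2 * (Q x + Q x)| + |Q 0| := abs_sub _ _
      _ ≤ C + |Q 0| := by linarith
  -- the sequence
  let a : J → ℕ → ℝ := fun x k => Q ((2 ^ k) • x) / 4 ^ k
  have hstep : ∀ x k, dist (a x k) (a x (k + 1)) ≤ D / 4 * (1 / 4) ^ k := by
    intro x k
    have h4 : (0 : ℝ) < 4 ^ k := by positivity
    have h1 := hdbl ((2 ^ k) • x)
    have e : (2 : ℕ) • (2 ^ k) • x = (2 ^ (k + 1)) • x := by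
      rw [smul_smul, ← pow_succ']
    rw [e] at h1
    rw [Real.dist_eq]
    have e2 : a x k - a x (k + 1) =
        -(Q ((2 ^ (k + 1)) • x) - 4 * Q ((2 ^ k) • x)) / 4 ^ (k + 1) := by
      simp only [a]
      rw [pow_succ]
      field_simp
      ring
    rw [e2, abs_div, abs_neg, abs_of_pos (by positivity : (0 : ℝ) < 4 ^ (k + 1))]
    have e3 : D / 4 * (1 / 4) ^ k = D / 4 ^ (k + 1) := by
      rw [one_div, inv_pow, pow_succ]
      field_simp
    rw [e3]
    exact div_le_div_of_nonneg_right h1 (by positivity)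
  have hcauchy : ∀ x, CauchySeq (a x) := fun x =>
    cauchySeq_of_le_geometric (1 / 4) (D / 4) (by norm_num) (hstep x)
  choose Qh hQh using fun x => cauchySeq_tendsto_of_complete (hcauchy x)
  refine ⟨Qh, ?_, D / 4 / (1 - 1 / 4), ?_⟩
  · intro x y
    -- the defect tends to `0`
    have hlim : Tendsto (fun k => a (x + y) k + a (x - y) k - 2 * (a x k + a y k)) atTop
        (𝓝 (Qh (x + y) + Qh (x - y) - 2 * (Qh x + Qh y))) :=
      ((hQh (x + y)).add (hQh (x - y))).sub (((hQh x).add (hQh y)).const_mul 2)
    have hbound : ∀ k, |a (x + y) k + a (x - y) k - 2 * (a x k + a y k)| ≤ C * (1 / 4) ^ k := by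
      intro k
      have h4 : (0 : ℝ) < 4 ^ k := by positivity
      have h1 := hQ ((2 ^ k) • x) ((2 ^ k) • y)
      rw [← nsmul_add, ← nsmul_sub] at h1
      have e : a (x + y) k + a (x - y) k - 2 * (a x k + a y k) =
          (Q ((2 ^ k) • (x + y)) + Q ((2 ^ k) • (x - y)) -
            2 * (Q ((2 ^ k) • x) + Q ((2 ^ k) • y))) / 4 ^ k := by
        simp only [a]
        field_simp
      rw [e, abs_div, abs_of_pos h4, one_div, inv_pow, ← div_eq_mul_inv]
      exact div_le_div_of_nonneg_right h1 h4.le
    have hzero : Tendsto (fun k : ℕ => C * (1 / 4 : ℝ) ^ k) atTop (𝓝 0) := by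
      have := (tendsto_pow_atTop_nhds_zero_of_lt_one (by norm_num : (0 : ℝ) ≤ 1 / 4)
        (by norm_num : (1 / 4 : ℝ) < 1)).const_mul C
      simpa using this
    have hlim0 : Tendsto (fun k => a (x + y) k + a (x - y) k - 2 * (a x k + a y k)) atTop
        (𝓝 0) := squeeze_zero_norm (fun k => by rw [Real.norm_eq_abs]; exact hbound k) hzero
    have := tendsto_nhds_unique hlim hlim0
    linarith
  · intro x
    have h1 := dist_le_of_le_geometric_of_tendsto₀ (1 / 4) (D / 4) (by norm_num) (hstep x)
      (hQh x)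
    have e : a x 0 = Q x := by simp [a]
    rw [e, Real.dist_eq, abs_sub_comm] at h1
    exact h1

end Fermat.Agent.MW.HQ
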