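/-
MW / HT-Q, row HQ-3b (helper13): positivity and Northcott for a quasi-quadratic function on a
set hit by finitely many translations imply positivity (up to a constant) and Northcott on the
whole group.  Mathlib + `MW/HQ/Tate.lean`.
-/
import Mathlib
import Fermat.Agent.MW.HQ.Tate

set_option autoImplicit false

noncomputable section

namespace Fermat.Agent.MW.HQ

variable {J : Type*} [AddCommGroup J]

/-- An exact quadratic function which is bounded below on a set `S` hit by finitely many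
translations is nonnegative. -/
theorem quad_nonneg_of_translates {Qh : J → ℝ}
    (h : ∀ x y, Qh (x + y) + Qh (x - y) = 2 * (Qh x + Qh y))
    (S : Set J) (𝒞 : Finset J) (hS : ∀ x, ∃ c ∈ 𝒞, x + c ∈ S)
    (K : ℝ) (hpos : ∀ x ∈ S, -K ≤ Qh x) (x : J) : 0 ≤ Qh x := by
  by_contra hneg
  rw [not_le] at hneg
  set Mb : ℝ := ∑ c ∈ 𝒞, |bform Qh x c| with hMb
  set Mq : ℝ := ∑ c ∈ 𝒞, |Qh c| with hMq
  have hMb0 : 0 ≤ Mb := Finset.sum_nonneg fun _ _ => abs_nonneg _
  have hMq0 : 0 ≤ Mq := Finset.sum_nonneg fun _ _ => abs_nonneg _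
  -- for every `n`: `-K ≤ n² Qh x + 2 n Mb + Mq`
  have key : ∀ n : ℕ, -K ≤ (n : ℝ) ^ 2 * Qh x + 2 * (n : ℝ) * Mb + Mq := by
    intro n
    obtain ⟨c, hc, hcS⟩ := hS (n • x)
    have h1 := hpos _ hcS
    rw [quad_nsmul_add h] at h1
    have h2 : bform Qh x c ≤ Mb :=
      le_trans (le_abs_self _) (Finset.single_le_sum (f := fun c => |bform Qh x c|)
        (fun _ _ => abs_nonneg _) hc)
    have h3 : Qh c ≤ Mq :=
      le_trans (le_abs_self _) (Finset.single_le_sum (f := fun c => |Qh c|)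
        (fun _ _ => abs_nonneg _) hc)
    have h4 : 2 * (n : ℝ) * bform Qh x c ≤ 2 * (n : ℝ) * Mb :=
      mul_le_mul_of_nonneg_left h2 (by positivity)
    linarith
  -- choose `n` large
  set ε : ℝ := -Qh x with hε
  have hε0 : 0 < ε := by rw [hε]; linarith
  obtain ⟨n, hn⟩ := exists_nat_gt ((|K| + Mq + 2 * Mb) / ε + 1)
  have hn1 : (1 : ℝ) ≤ n := by
    have : 0 ≤ (|K| + Mq + 2 * Mb) / ε := by positivity
    linarith
  have h5 := key n
  have h6 : (|K| + Mq + 2 * Mb) < (n : ℝ) * ε := by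
    have : (|K| + Mq + 2 * Mb) / ε < n := by linarith
    rwa [div_lt_iff₀ hε0] at this
  have h7 : (n : ℝ) ^ 2 * Qh x = -((n : ℝ) * ((n : ℝ) * ε)) := by rw [hε]; ring
  have h8 : (n : ℝ) * (|K| + Mq + 2 * Mb) < (n : ℝ) * ((n : ℝ) * ε) :=
    mul_lt_mul_of_pos_left h6 (by linarith)
  have h9 : -K ≤ |K| := neg_le_abs K
  have h12 : 0 ≤ |K| := abs_nonneg K
  have hA : |K| ≤ (n : ℝ) * |K| := le_mul_of_one_le_left h12 hn1
  have hB : Mq ≤ (n : ℝ) * Mq := le_mul_of_one_le_left hMq0 hn1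
  have h8' : (n : ℝ) * |K| + (n : ℝ) * Mq + 2 * (n : ℝ) * Mb < (n : ℝ) * ((n : ℝ) * ε) := by
    have e : (n : ℝ) * (|K| + Mq + 2 * Mb) =
        (n : ℝ) * |K| + (n : ℝ) * Mq + 2 * (n : ℝ) * Mb := by ring
    rw [← e]
    exact h8
  rw [h7] at h5
  have h13 : K ≤ |K| := le_abs_self K
  linarith

/-- **Good translates.**  A quasi-quadratic function which is bounded below and has the Northcott
property on a set `S` hit by finitely many translations is bounded below and has the Northcott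
property on the whole group. -/
theorem northcott_of_translates (Q : J → ℝ) (C₀ : ℝ)
    (hQ : ∀ x y, |Q (x + y) + Q (x - y) - 2 * (Q x + Q y)| ≤ C₀)
    (S : Set J) (𝒞 : Finset J) (hS : ∀ x, ∃ c ∈ 𝒞, x + c ∈ S)
    (C₁ : ℝ) (hpos : ∀ x ∈ S, -C₁ ≤ Q x) (hfin : ∀ T : ℝ, {x | x ∈ S ∧ Q x ≤ T}.Finite) :
    (∃ C : ℝ, ∀ x, -C ≤ Q x) ∧ ∀ T : ℝ, {x | Q x ≤ T}.Finite := by
  obtain ⟨Qh, hQh, C', hC'⟩ := exists_quadratic_of_quasi Q C₀ hQ
  have hle : ∀ x, Qh x ≤ Q x + C' := fun x => by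
    have := (abs_le.mp (hC' x)).2
    linarith
  have hge : ∀ x, Q x - C' ≤ Qh x := fun x => by
    have := (abs_le.mp (hC' x)).1
    linarith
  have hnn : ∀ x, 0 ≤ Qh x :=
    quad_nonneg_of_translates hQh S 𝒞 hS (C₁ + C') (fun x hx => by
      have := hpos x hx
      have := hge x
      linarith)
  have hC'0 : 0 ≤ C' := le_trans (abs_nonneg _) (hC' 0)
  refine ⟨⟨C', fun x => ?_⟩, fun T => ?_⟩
  · have := hnn x
    have := hle x
    linarith
  · set Mq : ℝ := ∑ c ∈ 𝒞, |Qh c| with hMq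
    set T' : ℝ := 2 * T + 3 * C' + 2 * Mq with hT'
    have hsub : {x | Q x ≤ T} ⊆
        ⋃ c ∈ 𝒞, (fun x => x + c) ⁻¹' {z | z ∈ S ∧ Q z ≤ T'} := by
      intro x hx
      have hx' : Q x ≤ T := hx
      obtain ⟨c, hc, hcS⟩ := hS x
      refine Set.mem_biUnion hc ?_
      refine ⟨hcS, ?_⟩
      have h1 := hQh x c
      have h2 := hnn (x - c)
      have h3 : Qh c ≤ Mq :=
        le_trans (le_abs_self _) (Finset.single_le_sum (f := fun c => |Qh c|)
          (fun _ _ => abs_nonneg _) hc)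
      have h4 := hle x
      have h5 := hge (x + c)
      show Q (x + c) ≤ T'
      rw [hT']
      linarith
    refine Set.Finite.subset ?_ hsub
    refine Set.Finite.biUnion 𝒞.finite_toSet fun c _ => ?_
    exact Set.Finite.preimage (fun a _ b _ hab => add_right_cancel hab) (hfin T')

end Fermat.Agent.MW.HQ
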